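import Mathlib
import Fermat.Statements.S28

set_option autoImplicit false

noncomputable section

namespace Fermat.Agent.S28T

open ModularCurve HahnSeries

variable {A : Type*} [CommRing A]

/-- Underlying function of `twist`: `∑ aₙ tⁿ ↦ ∑ aₙ cⁿ tⁿ`. -/
def twistFun (c : Aˣ) (f : LaurentSeries A) : LaurentSeries A where
  coeff n := ((c ^ n : Aˣ) : A) * f.coeff n
  isPWO_support' := f.isPWO_support.mono fun n hn => by
    simp only [Function.mem_support, ne_eq] at hn
    exact fun h => hn (by rw [h, mul_zero])

@[simp] theorem twistFun_coeff (c : Aˣ) (f : LaurentSeries A) (n : ℤ) :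
    (twistFun c f).coeff n = ((c ^ n : Aˣ) : A) * f.coeff n := rfl

theorem twistFun_support_subset (c : Aˣ) (f : LaurentSeries A) :
    (twistFun c f).support ⊆ f.support := fun n hn => by
  simp only [HahnSeries.mem_support, twistFun_coeff, ne_eq] at hn ⊢
  exact fun h => hn (by rw [h, mul_zero])

/-- The ring endomorphism `∑ aₙ tⁿ ↦ ∑ aₙ cⁿ tⁿ` of Laurent series, `c` a unit. -/
def twist (c : Aˣ) : LaurentSeries A →+* LaurentSeries A where
  toFun := twistFun c
  map_zero' := by ext n; simp
  map_one' := by
    ext n
    rw [twistFun_coeff, HahnSeries.coeff_one]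
    split_ifs with h
    · subst h; simp
    · simp
  map_add' f g := by ext n; simp [mul_add]
  map_mul' f g := by
    ext n
    rw [twistFun_coeff, HahnSeries.coeff_mul, HahnSeries.coeff_mul, Finset.mul_sum]
    have hs : ∀ u : LaurentSeries A, (twistFun c u).support = u.support := fun u => by
      ext m
      simp only [HahnSeries.mem_support, twistFun_coeff, ne_eq, Units.mul_right_eq_zero]
    refine Finset.sum_congr ?_ fun ij hij => ?_
    · ext ij
      simp only [Finset.mem_antidiagonal, hs]
    · have h : ij.1 + ij.2 = n := (Finset.mem_antidiagonal.mp hij).2.2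
      rw [twistFun_coeff, twistFun_coeff, ← h, zpow_add, Units.val_mul]
      ring

@[simp] theorem twist_coeff (c : Aˣ) (f : LaurentSeries A) (n : ℤ) :
    (twist c f).coeff n = ((c ^ n : Aˣ) : A) * f.coeff n := rfl

end Fermat.Agent.S28T
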