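import Mathlib
import Fermat.Statements.S28
import Fermat.Agent.S28T.Twist

set_option autoImplicit false

noncomputable section

namespace Fermat.Agent.S28T

open ModularCurve HahnSeries

/-! ## Formal side -/

section Formal

variable (A : Type*) [CommRing A]

/-- `Δ = t ∏ (1 - tⁿ)²⁴` as a Laurent series over `A`. -/
def DeltaS : LaurentSeries A :=
  HahnSeries.single (1 : ℤ) 1 *
    HahnSeries.ofPowerSeries ℤ A (dedekindEtaUnit.map (Int.castRingHom A))

/-- `Δ⁻¹` as a Laurent series over `A`. -/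
def DeltaInvS : LaurentSeries A :=
  HahnSeries.single (-1 : ℤ) 1 *
    HahnSeries.ofPowerSeries ℤ A (dedekindEtaUnitInv.map (Int.castRingHom A))

variable {A}

/-- `∑ aₙ tⁿ ↦ ∑ aₙ cⁿ t^{kn}`. -/
def sub (c : Aˣ) (k : ℕ+) : LaurentSeries A →+* LaurentSeries A :=
  (qExpand A (k : ℕ)).comp (twist c)

end Formal

/-- Combinatorial data of the conjugates (cosets `Γ₀(N)\SL₂(ℤ)`): for the coset `s` of
`γ = (x y; z w)` and `n ∣ N`, `(n 0; 0 1) γ = γ' (a b; 0 d)` with `a = gcd (n, z)`, `a d = n`,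
`0 ≤ b < d`; we store `z s = |z|`, `d s n = d`, `k s n = a * (N / d)`, `e s n = (N / d) * b`. -/
structure ConjData (N : ℕ) where
  ι : Type
  fintype : Fintype ι
  inf : ι
  z : ι → ℕ
  k : ι → ℕ → ℕ+
  e : ι → ℕ → ℕ
  d : ι → ℕ → ℕ
  k_mul : ∀ s n, n ∣ N → (k s n : ℕ) * n = N * (Nat.gcd n (z s)) ^ 2
  d_mul : ∀ s n, n ∣ N → d s n * Nat.gcd n (z s) = n
  e_lt : ∀ s n, n ∣ N → e s n < N
  e_eq_zero : ∀ s n, n ∣ N → d s n = 1 → e s n = 0
  z_inf : N ∣ z inf
  z_ne : ∀ s, s ≠ inf → ¬ N ∣ z s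
  inj : ∀ s s', k s N = k s' N → e s N = e s' N → s = s'

attribute [instance] ConjData.fintype

/-- The variables: `J n ↔ j(nτ)`, `U n ↔ Δ(nτ)/Δ(τ)`, `V n ↔ Δ(τ)/Δ(nτ)`, for `n ∣ N`. -/
inductive Var (N : ℕ) : Type
  | J (n : {n : ℕ // n ∣ N}) : Var N
  | U (n : {n : ℕ // n ∣ N}) : Var N
  | V (n : {n : ℕ // n ∣ N}) : Var N

section Expansions

variable {N : ℕ} [NeZero N] (D : ConjData N) {A : Type*} [CommRing A]

/-- The `t = q^{1/N}`-expansion at the conjugate `s` of the basic functions, over a ring `A` with a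
unit `ζ` (an `N`-th root of unity) and an element `ν` (an inverse of `N`). -/
def expn (ζ : Aˣ) (ν : A) (s : D.ι) : Var N → LaurentSeries A
  | .J n => sub (ζ ^ D.e s n) (D.k s n) (jqModC A)
  | .U n => HahnSeries.C ((ν * ((N / D.d s n : ℕ) : A)) ^ 12) *
      sub (ζ ^ D.e s n) (D.k s n) (DeltaS A) * qExpand A N (DeltaInvS A)
  | .V n => HahnSeries.C ((D.d s n : A) ^ 12) *
      sub (ζ ^ D.e s n) (D.k s n) (DeltaInvS A) * qExpand A N (DeltaS A)

/-- `j(τ)` as a series in `t = q^{1/N}`. -/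
def jt (N : ℕ) [NeZero N] (A : Type*) [CommRing A] : LaurentSeries A := qExpand A N (jqModC A)

end Expansions

/-- `exp (2 π i / N)` as a unit of `ℂ`. -/
def zetaC (N : ℕ) : ℂˣ :=
  Units.mk0 (Complex.exp (2 * Real.pi * Complex.I / N)) (Complex.exp_ne_zero _)

/-- The analytic input. -/
structure ConjData.IsAnalytic {N : ℕ} [NeZero N] (D : ConjData N) : Prop where
  trace : ∀ P : MvPolynomial (Var N) ℂ, ∃ T : Polynomial ℂ,
    ∑ s, MvPolynomial.aeval (expn D (zetaC N) ((N : ℂ)⁻¹) s) P = Polynomial.aeval (jt N ℂ) T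
  ker : ∀ (P : MvPolynomial (Var N) ℂ) (s s' : D.ι),
    MvPolynomial.aeval (expn D (zetaC N) ((N : ℂ)⁻¹) s) P = 0 →
      MvPolynomial.aeval (expn D (zetaC N) ((N : ℂ)⁻¹) s') P = 0

/-! ## The interface with the end game -/

section Interface

open ModularCurve.IgusaScheme

variable (N : ℕ) [NeZero N] (ℓ : ℕ) [Fact ℓ.Prime]

/-- (Q1): elements of the middle chart have `ℓ`-integral `q`-expansions. -/
def Q1 : Prop :=
  ∀ x : ↥(modularFunctionFieldFull N), x ∈ chartAlgMid N ℓ →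
    ∀ n : ℤ, (x : LaurentSeries ℚ).coeff n ∈ GaloisRep.ratLocalizedAt ℓ

/-- (Q2): the `q`-expansion principle for the chart attached to `S`. -/
def Q2 (S : Set ↥(modularFunctionFieldFull N)) : Prop :=
  ∀ x : ↥(modularFunctionFieldFull N), x ∈ chartAlg N ℓ S →
    (∀ n : ℤ, ∃ r ∈ GaloisRep.ratLocalizedAt ℓ, (x : LaurentSeries ℚ).coeff n = (ℓ : ℚ) * r) →
    ∃ y : ↥(modularFunctionFieldFull N), y ∈ chartAlg N ℓ S ∧ x = (ℓ : ↥(modularFunctionFieldFull N)) * y

end Interface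

/-! ## Further notation used by the formal side -/

section More

variable (N : ℕ) [NeZero N]

/-- `j(q^n)` as an element of the function field, `n ∣ N`. -/
def jF (n : {n : ℕ // n ∣ N}) : ↥(modularFunctionFieldFull N) :=
  haveI : NeZero (n : ℕ) := ⟨(Nat.pos_of_dvd_of_pos n.2 (NeZero.pos N)).ne'⟩
  ⟨qExpand ℚ (n : ℕ) jq, jqd_mem_full N n.2⟩

/-- The embedding `ℚ((q)) → ℂ((t))`, `q = t^N`. -/
def embQ : LaurentSeries ℚ →+* LaurentSeries ℂ :=
  (qExpand ℂ N).comp (coeffMap (algebraMap ℚ ℂ))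

/-- The variable `U n` (or `1` if `n ∤ N`). -/
def varU (n : ℕ) : MvPolynomial (Var N) ℤ :=
  if h : n ∣ N then MvPolynomial.X (Var.U ⟨n, h⟩) else 1

/-- The variable `V n` (or `1` if `n ∤ N`). -/
def varV (n : ℕ) : MvPolynomial (Var N) ℤ :=
  if h : n ∣ N then MvPolynomial.X (Var.V ⟨n, h⟩) else 1

/-- The monomial giving the modular unit
`h = ∏_{e ∣ rad N} (Δ(τ) / Δ(N τ / e)) ^ (μ(e) rad(N) / e)`; it has positive order at every
conjugate other than `inf`. -/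
def hmon : MvPolynomial (Var N) ℤ :=
  ∏ I ∈ N.primeFactors.powerset,
    (if Even I.card then varV N (N / ∏ p ∈ I, p) else varU N (N / ∏ p ∈ I, p)) ^
      (∏ p ∈ N.primeFactors \ I, p)

end More

end Fermat.Agent.S28T
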