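import Mathlib
import Fermat.Agent.S28T.Defs

set_option autoImplicit false

noncomputable section

namespace Fermat.Agent.S28T

open ModularCurve HahnSeries UpperHalfPlane Function
open scoped MatrixGroups Manifold

/-- `exp (2 π i τ / N)`. -/
def qPar (N : ℕ) (τ : ℍ) : ℂ := Function.Periodic.qParam (N : ℝ) (τ : ℂ)

/-- `h`-periodic, holomorphic on `ℍ`, bounded at `i∞`. -/
def IsNice (N : ℕ) (f : ℍ → ℂ) : Prop :=
  Periodic (f ∘ ofComplex) (N : ℝ) ∧ MDiff f ∧ IsBoundedAtImInfty f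

/-- `f` is `N`-periodic, holomorphic on `ℍ`, meromorphic at `i∞`, with Laurent expansion `Ψ` in
`t = exp (2 π i τ / N)`. -/
def HasLExp (N : ℕ) (f : ℍ → ℂ) (Ψ : LaurentSeries ℂ) : Prop :=
  ∃ m : ℕ, IsNice N (fun τ => f τ * qPar N τ ^ m) ∧
    HahnSeries.ofPowerSeries ℤ ℂ (qExpansion (N : ℝ) (fun τ => f τ * qPar N τ ^ m)) =
      Ψ * HahnSeries.single (m : ℤ) 1

/-- `τ ↦ (a τ + b) / d`. -/
def aff (a d : ℕ+) (b : ℕ) (τ : ℍ) : ℍ :=
  ⟨((a : ℂ) * τ + b) / d, by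
    have h : (((a : ℂ) * τ + b) / d).im = (a : ℝ) * τ.im / d := by
      have : ((a : ℂ) * τ + b) / d = (((a : ℝ) / (d : ℝ) : ℝ) : ℂ) * τ + (((b : ℝ) / (d : ℝ) : ℝ) : ℂ) := by
        push_cast; ring
      rw [this]
      simp [Complex.add_im, Complex.mul_im]
      ring
    rw [h]
    have ha : (0 : ℝ) < a := by exact_mod_cast a.pos
    have hd : (0 : ℝ) < d := by exact_mod_cast d.pos
    have := τ.im_pos
    positivity⟩

@[simp] theorem coe_aff (a d : ℕ+) (b : ℕ) (τ : ℍ) :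
    ((aff a d b τ : ℍ) : ℂ) = ((a : ℂ) * τ + b) / d := rfl

/-- The modular invariant `j = E₄³ / Δ` on the upper half plane. -/
def Jfun (τ : ℍ) : ℂ := (ModularForm.E₄ τ) ^ 3 / ModularForm.discriminant τ

/-- The discriminant. -/
abbrev Dfun (τ : ℍ) : ℂ := ModularForm.discriminant τ

/-- The basic functions. -/
def Fvar {N : ℕ} [NeZero N] : Var N → ℍ → ℂ
  | .J n => fun τ => Jfun (aff ⟨n, Nat.pos_of_dvd_of_pos n.2 (NeZero.pos N)⟩ 1 0 τ)
  | .U n => fun τ => Dfun (aff ⟨n, Nat.pos_of_dvd_of_pos n.2 (NeZero.pos N)⟩ 1 0 τ) / Dfun τ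
  | .V n => fun τ => Dfun τ / Dfun (aff ⟨n, Nat.pos_of_dvd_of_pos n.2 (NeZero.pos N)⟩ 1 0 τ)

example (γ : SL(2, ℤ)) (τ : ℍ) : ℍ := γ • τ

end Fermat.Agent.S28T
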