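import Mathlib
import Fermat.Agent.S28T.AnDefs
set_option autoImplicit false
noncomputable section
namespace Fermat.Agent.S28T
open ModularCurve HahnSeries UpperHalfPlane Function
open scoped MatrixGroups Manifold

namespace RingO

variable (ℓ : ℕ) [Fact ℓ.Prime]

theorem inv_int_mem {m : ℤ} (hm : ¬ (ℓ : ℤ) ∣ m) :
    ((m : ℚ))⁻¹ ∈ GaloisRep.ratLocalizedAt ℓ := by
  change ((m : ℚ))⁻¹.den.Coprime ℓ
  rw [Rat.inv_intCast_den]
  split_ifs with h
  · simp
  · apply Nat.Coprime.symm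
    rw [Nat.Prime.coprime_iff_not_dvd (Fact.out : ℓ.Prime)]
    intro hd
    exact hm (Int.natCast_dvd.mpr hd)

instance isPrime_span : (Ideal.span {(ℓ : ℤ)}).IsPrime :=
  (Ideal.span_singleton_prime (by exact_mod_cast (Fact.out : ℓ.Prime).ne_zero)).2
    (Nat.prime_iff_prime_int.1 Fact.out)

theorem isUnit_intCast {m : ℤ} (hm : ¬ (ℓ : ℤ) ∣ m) :
    IsUnit ((m : ℤ) : ↥(GaloisRep.ratLocalizedAt ℓ)) := by
  have hm0 : (m : ℚ) ≠ 0 := by
    intro h
    apply hm
    have : m = 0 := by exact_mod_cast h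
    simp [this]
  refine IsUnit.of_mul_eq_one ⟨((m : ℚ))⁻¹, inv_int_mem ℓ hm⟩ ?_
  ext
  simp [hm0]

instance isLocalization_ratLocalizedAt :
    IsLocalization.AtPrime ↥(GaloisRep.ratLocalizedAt ℓ) (Ideal.span {(ℓ : ℤ)}) := by
  rw [IsLocalization.AtPrime, isLocalization_iff]
  refine ⟨?_, ?_, ?_⟩
  · rintro ⟨y, hy⟩
    have hy' : ¬ (ℓ : ℤ) ∣ y := fun h => hy (Ideal.mem_span_singleton.mpr h)
    simpa using isUnit_intCast ℓ hy'
  · intro z
    have hden : ((z : ℚ).den : ℤ) ∈ (Ideal.span {(ℓ : ℤ)}).primeCompl := by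
      intro h
      rw [SetLike.mem_coe, Ideal.mem_span_singleton] at h
      have h1 : ℓ ∣ (z : ℚ).den := by exact_mod_cast h
      have hc : (z : ℚ).den.Coprime ℓ := z.2
      have h2 : ℓ ∣ Nat.gcd (z : ℚ).den ℓ := Nat.dvd_gcd h1 dvd_rfl
      rw [hc] at h2
      exact (Fact.out : ℓ.Prime).one_lt.ne' (Nat.dvd_one.mp h2)
    refine ⟨((z : ℚ).num, ⟨((z : ℚ).den : ℤ), hden⟩), ?_⟩
    ext
    simp
  · intro x y h
    refine ⟨1, ?_⟩
    have h1 : ((algebraMap ℤ ↥(GaloisRep.ratLocalizedAt ℓ) x : ↥(GaloisRep.ratLocalizedAt ℓ)) : ℚ)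
        = (algebraMap ℤ ↥(GaloisRep.ratLocalizedAt ℓ) y : ↥(GaloisRep.ratLocalizedAt ℓ)) := by
      rw [h]
    have h2 : (x : ℚ) = y := by simpa using h1
    have h3 : x = y := by exact_mod_cast h2
    simp [h3]

instance isDedekindDomain_ratLocalizedAt : IsDedekindDomain ↥(GaloisRep.ratLocalizedAt ℓ) :=
  IsLocalization.AtPrime.isDedekindDomain ℤ (Ideal.span {(ℓ : ℤ)}) _

instance isFractionRing_ratLocalizedAt : IsFractionRing ↥(GaloisRep.ratLocalizedAt ℓ) ℚ :=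
  IsFractionRing.isFractionRing_of_isDomain_of_isLocalization (Ideal.span {(ℓ : ℤ)}).primeCompl
    ↥(GaloisRep.ratLocalizedAt ℓ) ℚ

/-- In an integral extension domain of `ℤ_(ℓ)`, every nonzero prime contains `ℓ`. -/
theorem natCast_mem_of_isPrime {B : Type*} [CommRing B] [IsDomain B]
    [Algebra ↥(GaloisRep.ratLocalizedAt ℓ) B] [Algebra.IsIntegral ↥(GaloisRep.ratLocalizedAt ℓ) B]
    (P : Ideal B) [hP : P.IsPrime] (hP0 : P ≠ ⊥) : (ℓ : B) ∈ P := by
  have hc : P.comap (algebraMap ↥(GaloisRep.ratLocalizedAt ℓ) B) ≠ ⊥ :=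
    mt Ideal.eq_bot_of_comap_eq_bot hP0
  obtain ⟨x, hx, hx0⟩ := (Submodule.ne_bot_iff _).mp hc
  -- the numerator of `x` lies in `P`
  have hnum : (((x : ℚ).num : ℤ) : B) ∈ P := by
    have h1 : (((x : ℚ).num : ℤ) : ↥(GaloisRep.ratLocalizedAt ℓ))
        = x * (((x : ℚ).den : ℕ) : ↥(GaloisRep.ratLocalizedAt ℓ)) := by
      ext
      simp
    have h2 : (((x : ℚ).num : ℤ) : B)
        = algebraMap ↥(GaloisRep.ratLocalizedAt ℓ) B x * (((x : ℚ).den : ℕ) : B) := by
      rw [← map_intCast (algebraMap ↥(GaloisRep.ratLocalizedAt ℓ) B), h1, map_mul, map_natCast]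
    rw [h2]
    exact P.mul_mem_right _ hx
  have hnum0 : (x : ℚ).num ≠ 0 := by
    intro h
    apply hx0
    ext
    simpa using h
  -- induction: any nonzero integer in `P` forces `ℓ ∈ P`
  have key : ∀ n : ℕ, ∀ m : ℤ, m.natAbs = n → m ≠ 0 → (m : B) ∈ P → (ℓ : B) ∈ P := by
    intro n
    induction n using Nat.strong_induction_on with
    | _ n ih =>
      intro m hmn hm0 hmP
      by_cases hd : (ℓ : ℤ) ∣ m
      · obtain ⟨k, rfl⟩ := hd
        have hk0 : k ≠ 0 := by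
          rintro rfl
          simp at hm0
        have : ((ℓ : ℤ) : B) * (k : B) ∈ P := by
          simpa using hmP
        rcases hP.mem_or_mem this with h | h
        · simpa using h
        · refine ih k.natAbs ?_ k rfl hk0 h
          rw [← hmn, Int.natAbs_mul, Int.natAbs_natCast]
          have h1 : 0 < k.natAbs := Int.natAbs_pos.mpr hk0
          have h2 := (Fact.out : ℓ.Prime).one_lt
          nlinarith
      · exfalso
        have hu : IsUnit ((m : ℤ) : B) := by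
          have := (isUnit_intCast ℓ hd).map (algebraMap ↥(GaloisRep.ratLocalizedAt ℓ) B)
          simpa using this
        exact hP.ne_top (Ideal.eq_top_of_isUnit_mem _ hmP hu)
  exact key _ _ rfl hnum0 hnum

theorem finite_primes {B : Type*} [CommRing B] [IsDedekindDomain B]
    [Algebra ↥(GaloisRep.ratLocalizedAt ℓ) B] [Algebra.IsIntegral ↥(GaloisRep.ratLocalizedAt ℓ) B]
    [CharZero B] : {I : Ideal B | I.IsPrime}.Finite := by
  have hl : Ideal.span {(ℓ : B)} ≠ 0 := by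
    rw [Ne, Ideal.zero_eq_bot, Ideal.span_singleton_eq_bot]
    exact_mod_cast (Fact.out : ℓ.Prime).ne_zero
  have hfin := Ideal.finite_factors hl
  refine ((hfin.image (fun v => v.asIdeal)).union (Set.finite_singleton ⊥)).subset ?_
  intro P hP
  have hP' : P.IsPrime := hP
  by_cases hP0 : P = ⊥
  · right
    exact hP0
  · left
    refine ⟨⟨P, hP', hP0⟩, ?_, rfl⟩
    rw [Set.mem_ofPred_eq, Ideal.dvd_iff_le, Ideal.span_singleton_le_iff_mem]
    exact natCast_mem_of_isPrime ℓ P hP0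

end RingO

/-- `ℤ_(ℓ)` is a discrete valuation ring. -/
theorem ratLocalizedAt_isDiscreteValuationRing (ℓ : ℕ) [Fact ℓ.Prime] :
    IsDiscreteValuationRing ↥(GaloisRep.ratLocalizedAt ℓ) := by
  have h0 : Ideal.span {(ℓ : ℤ)} ≠ ⊥ := by
    rw [Ne, Ideal.span_singleton_eq_bot]
    exact_mod_cast (Fact.out : ℓ.Prime).ne_zero
  exact IsLocalization.AtPrime.isDiscreteValuationRing_of_dedekind_domain ℤ h0 _

/-- `ℤ_(ℓ)` is a principal ideal ring. -/
theorem ratLocalizedAt_isPrincipalIdealRing (ℓ : ℕ) [Fact ℓ.Prime] :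
    IsPrincipalIdealRing ↥(GaloisRep.ratLocalizedAt ℓ) :=
  have := ratLocalizedAt_isDiscreteValuationRing ℓ
  inferInstance

open RingO in
theorem exists_ringO (N ℓ : ℕ) [NeZero N] [Fact ℓ.Prime] (hℓN : ¬ ℓ ∣ N) :
    ∃ (𝒪 : Type) (_ : CommRing 𝒪) (_ : IsDomain 𝒪) (_ : IsPrincipalIdealRing 𝒪)
      (_ : Algebra ↥(GaloisRep.ratLocalizedAt ℓ) 𝒪) (emb : 𝒪 →+* ℂ) (ζ : 𝒪ˣ) (ν : 𝒪),
      Algebra.IsIntegral ↥(GaloisRep.ratLocalizedAt ℓ) 𝒪 ∧ Function.Injective emb ∧
      emb (ζ : 𝒪) = (zetaC N : ℂ) ∧ ν * (N : 𝒪) = 1 ∧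
      (∀ i : ℕ, 0 < i → i < N → IsUnit (1 - (ζ : 𝒪) ^ i)) := by
  have hN0 : N ≠ 0 := NeZero.ne N
  set z : ℂ := Complex.exp (2 * Real.pi * Complex.I / N) with hz
  have hprim : IsPrimitiveRoot z N := Complex.isPrimitiveRoot_exp N hN0
  have hzint : IsIntegral ℚ z :=
    IsIntegral.of_pow (Nat.pos_of_ne_zero hN0) (by rw [hprim.pow_eq_one]; exact isIntegral_one)
  let E : IntermediateField ℚ ℂ := IntermediateField.adjoin ℚ {z}
  have hfd : FiniteDimensional ℚ E := IntermediateField.adjoin.finiteDimensional hzint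
  let 𝒪 := integralClosure ↥(GaloisRep.ratLocalizedAt ℓ) E
  have hded : IsDedekindDomain 𝒪 := integralClosure.isDedekindDomain ↥(GaloisRep.ratLocalizedAt ℓ) ℚ E
  have hpid : IsPrincipalIdealRing 𝒪 := IsPrincipalIdealRing.of_finite_primes (finite_primes ℓ)
  let emb : 𝒪 →+* ℂ := (algebraMap E ℂ).comp (algebraMap 𝒪 E)
  have hemb : Function.Injective emb :=
    (algebraMap E ℂ).injective.comp Subtype.val_injective
  -- the root of unity
  let zE : E := ⟨z, IntermediateField.mem_adjoin_simple_self ℚ z⟩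
  have hzE : zE ^ N = 1 := by
    ext
    simpa using hprim.pow_eq_one
  have hzEint : IsIntegral ↥(GaloisRep.ratLocalizedAt ℓ) zE :=
    IsIntegral.of_pow (Nat.pos_of_ne_zero hN0) (by rw [hzE]; exact isIntegral_one)
  let zO : 𝒪 := ⟨zE, hzEint⟩
  have hzO : zO ^ N = 1 := by
    ext
    simpa using hprim.pow_eq_one
  have hembz : emb zO = z := rfl
  have hunit : IsUnit zO := IsUnit.of_pow_eq_one hzO hN0
  have hprimO : IsPrimitiveRoot zO N :=
    IsPrimitiveRoot.of_map_of_injective (f := emb) (by rw [hembz]; exact hprim) hemb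
  -- the inverse of `N`
  have hNl : ¬ (ℓ : ℤ) ∣ (N : ℤ) := by exact_mod_cast hℓN
  have hNunit : IsUnit ((N : ℕ) : 𝒪) := by
    have := (isUnit_intCast ℓ hNl).map (algebraMap ↥(GaloisRep.ratLocalizedAt ℓ) 𝒪)
    simpa using this
  obtain ⟨ν, hν⟩ := hNunit.exists_left_inv
  refine ⟨𝒪, inferInstance, inferInstance, hpid, inferInstance, emb, hunit.unit, ν,
    inferInstance, hemb, ?_, hν, ?_⟩
  · rw [IsUnit.unit_spec, hembz]
    rfl
  · intro i hi0 hiN
    rw [IsUnit.unit_spec]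
    obtain ⟨n, rfl⟩ : ∃ n, N = n + 1 := ⟨N - 1, by omega⟩
    have hprod := hprimO.prod_one_sub_pow_eq_order
    have hdvd : (1 - zO ^ i) ∣ ∏ k ∈ Finset.range n, (1 - zO ^ (k + 1)) := by
      have hmem : i - 1 ∈ Finset.range n := by
        rw [Finset.mem_range]; omega
      have := Finset.dvd_prod_of_mem (fun k => 1 - zO ^ (k + 1)) hmem
      simpa [Nat.sub_add_cancel hi0] using this
    rw [hprod] at hdvd
    refine isUnit_of_dvd_unit hdvd ?_
    simpa using hNunit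

end Fermat.Agent.S28T
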