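import Mathlib
import Fermat.Agent.S28T.AnDefs
import Fermat.Agent.S24.JBridge

set_option autoImplicit false

noncomputable section

namespace Fermat.Agent.S28T

open ModularCurve HahnSeries UpperHalfPlane Function
open scoped MatrixGroups Manifold

theorem deltaExp_isNice_mul {f g : ℍ → ℂ} (hf : IsNice 1 f) (hg : IsNice 1 g) :
    IsNice 1 (fun τ => f τ * g τ) :=
  ⟨hf.1.mul hg.1, hf.2.1.mul hg.2.1, hf.2.2.mul hg.2.2⟩

theorem deltaExp_analyticAt {f : ℍ → ℂ} (hf : IsNice 1 f) :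
    AnalyticAt ℂ (cuspFunction ((1 : ℕ) : ℝ) f) 0 :=
  analyticAt_cuspFunction_zero (by norm_num) hf.1 hf.2.1 hf.2.2

theorem deltaExp_qExpansion_mul {f g : ℍ → ℂ} (hf : IsNice 1 f) (hg : IsNice 1 g) :
    qExpansion ((1 : ℕ) : ℝ) (fun τ => f τ * g τ)
      = qExpansion ((1 : ℕ) : ℝ) f * qExpansion ((1 : ℕ) : ℝ) g :=
  qExpansion_mul (deltaExp_analyticAt hf) (deltaExp_analyticAt hg)

theorem deltaExp_isNice_of_modularForm {k : ℤ} (F : ModularForm 𝒮ℒ k) : IsNice 1 F := by
  refine ⟨?_, F.holo', ModularFormClass.bdd_at_infty F⟩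
  rw [Nat.cast_one]
  exact SlashInvariantFormClass.periodic_comp_ofComplex F one_mem_strictPeriods_SL

theorem deltaExp_isNice_Dfun : IsNice 1 Dfun := by
  refine ⟨?_, CuspForm.discriminant.holo', ?_⟩
  · rw [Nat.cast_one]
    exact SlashInvariantFormClass.periodic_comp_ofComplex CuspForm.discriminant
      one_mem_strictPeriods_SL
  · exact ModularForm.discriminant_isZeroAtImInfty.isBoundedAtImInfty

theorem deltaExp_qPar_one_eq (τ : ℍ) : qPar 1 τ = Complex.exp (2 * Real.pi * Complex.I * τ) := by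
  simp [qPar, Function.Periodic.qParam]

theorem deltaExp_isNice_qPar : IsNice 1 (qPar 1) := by
  refine ⟨?_, ?_, ?_⟩
  · intro w
    rw [Nat.cast_one]
    by_cases hw : 0 < w.im
    · have hw' : 0 < (w + ((1 : ℝ) : ℂ)).im := by simpa using hw
      simp only [comp_apply, ofComplex_apply_of_im_pos hw', ofComplex_apply_of_im_pos hw,
        deltaExp_qPar_one_eq]
      rw [Complex.ofReal_one, mul_add, mul_one, Complex.exp_add, Complex.exp_two_pi_mul_I, mul_one]
    · have hw1 : w.im ≤ 0 := not_lt.mp hw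
      have hw' : (w + ((1 : ℝ) : ℂ)).im ≤ 0 := by simpa using hw1
      simp only [comp_apply, ofComplex_apply_of_im_nonpos hw', ofComplex_apply_of_im_nonpos hw1]
  · rw [UpperHalfPlane.mdifferentiable_iff]
    have h1 : DifferentiableOn ℂ (Function.Periodic.qParam ((1 : ℕ) : ℝ)) {z : ℂ | 0 < z.im} :=
      (Function.Periodic.differentiable_qParam).differentiableOn
    refine h1.congr fun z hz => ?_
    simp only [comp_apply, ofComplex_apply_of_im_pos hz, qPar, UpperHalfPlane.coe_mk]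
  · have h := qParam_tendsto_atImInfty (h := ((1 : ℕ) : ℝ)) (by norm_num)
    exact IsZeroAtImInfty.isBoundedAtImInfty h

theorem deltaExp_cuspFunction_qPar :
    cuspFunction ((1 : ℕ) : ℝ) (qPar 1) =ᶠ[nhds 0] (fun q => q) := by
  have han := deltaExp_analyticAt deltaExp_isNice_qPar
  refine (han.frequently_eq_iff_eventually_eq analyticAt_id).mp ?_
  apply Filter.Eventually.frequently
  have h1 : ∀ᶠ q in nhdsWithin (0 : ℂ) {0}ᶜ, ‖q‖ < 1 := by
    apply Filter.Eventually.filter_mono nhdsWithin_le_nhds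
    have := Metric.ball_mem_nhds (0 : ℂ) one_pos
    filter_upwards [this] with q hq
    simpa using hq
  filter_upwards [h1, self_mem_nhdsWithin] with q hq1 hq0
  have hq0' : q ≠ 0 := hq0
  have hh : (0 : ℝ) < ((1 : ℕ) : ℝ) := by norm_num
  have him := Function.Periodic.im_invQParam_pos_of_norm_lt_one hh hq1 hq0'
  have h2 := eq_cuspFunction (f := qPar 1) ⟨_, him⟩ hh.ne' deltaExp_isNice_qPar.1
  rw [UpperHalfPlane.coe_mk, Function.Periodic.qParam_right_inv hh.ne' hq0'] at h2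
  rw [h2, qPar, UpperHalfPlane.coe_mk, Function.Periodic.qParam_right_inv hh.ne' hq0']
  rfl

theorem deltaExp_qExpansion_qPar : qExpansion ((1 : ℕ) : ℝ) (qPar 1) = PowerSeries.X := by
  have h1 : qExpansion ((1 : ℕ) : ℝ) (qPar 1)
      = Fermat.Agent.S24.taylor0 (cuspFunction ((1 : ℕ) : ℝ) (qPar 1)) := rfl
  rw [h1, Fermat.Agent.S24.taylor0_congr deltaExp_cuspFunction_qPar, Fermat.Agent.S24.taylor0_id]

/-- `q / Δ`. -/
def deltaExpG (τ : ℍ) : ℂ := qPar 1 τ / Dfun τ

theorem deltaExp_norm_qPar (τ : ℍ) : ‖qPar 1 τ‖ = Real.exp (-2 * Real.pi * τ.im) := by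
  rw [qPar, Function.Periodic.norm_qParam]
  simp

theorem deltaExp_isNice_G : IsNice 1 deltaExpG := by
  refine ⟨deltaExp_isNice_qPar.1.div deltaExp_isNice_Dfun.1,
    deltaExp_isNice_qPar.2.1.div deltaExp_isNice_Dfun.2.1 ModularForm.discriminant_ne_zero, ?_⟩
  have h1 : (qPar 1) =O[atImInfty] (fun τ : ℍ => Real.exp (-2 * Real.pi * τ.im)) := by
    refine Asymptotics.IsBigO.of_bound 1 (Filter.Eventually.of_forall fun τ => ?_)
    rw [deltaExp_norm_qPar, one_mul, Real.norm_of_nonneg (Real.exp_pos _).le]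
  exact (Asymptotics.div_isBoundedUnder_of_isBigO
    (h1.trans ModularForm.exp_isBigO_discriminant)).isBigO_one ℝ

theorem deltaExp_qExpansion_Dfun :
    qExpansion ((1 : ℕ) : ℝ) Dfun
      = PowerSeries.X * dedekindEtaUnit.map (Int.castRingHom ℂ) := by
  rw [Nat.cast_one]
  have := Fermat.Agent.S24.qExpansion_discriminant
  rw [map_mul, PowerSeries.map_X] at this
  exact this

theorem deltaExp_qExpansion_G :
    qExpansion ((1 : ℕ) : ℝ) deltaExpG = dedekindEtaUnitInv.map (Int.castRingHom ℂ) := by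
  have h1 := deltaExp_qExpansion_mul deltaExp_isNice_G deltaExp_isNice_Dfun
  have h2 : (fun τ => deltaExpG τ * Dfun τ) = qPar 1 := by
    funext τ
    rw [deltaExpG, div_mul_cancel₀ _ (ModularForm.discriminant_ne_zero τ)]
  rw [h2, deltaExp_qExpansion_qPar, deltaExp_qExpansion_Dfun] at h1
  have h3 : (dedekindEtaUnit.map (Int.castRingHom ℂ)) * (dedekindEtaUnitInv.map (Int.castRingHom ℂ))
      = 1 := by
    rw [← map_mul, dedekindEtaUnit_mul_inv, map_one]
  have h4 : qExpansion ((1 : ℕ) : ℝ) deltaExpG * dedekindEtaUnit.map (Int.castRingHom ℂ) = 1 := by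
    have h5 : PowerSeries.X * (1 : PowerSeries ℂ) = PowerSeries.X *
        (qExpansion ((1 : ℕ) : ℝ) deltaExpG * dedekindEtaUnit.map (Int.castRingHom ℂ)) := by
      rw [mul_one]
      conv_lhs => rw [h1]
      ring
    exact (mul_left_cancel₀ PowerSeries.X_ne_zero h5).symm
  calc qExpansion ((1 : ℕ) : ℝ) deltaExpG
      = qExpansion ((1 : ℕ) : ℝ) deltaExpG * ((dedekindEtaUnit.map (Int.castRingHom ℂ)) *
          (dedekindEtaUnitInv.map (Int.castRingHom ℂ))) := by rw [h3, mul_one]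
    _ = dedekindEtaUnitInv.map (Int.castRingHom ℂ) := by rw [← mul_assoc, h4, one_mul]

theorem hasLExp_Dfun : HasLExp 1 Dfun (DeltaS ℂ) := by
  refine ⟨0, ?_, ?_⟩
  · simpa using deltaExp_isNice_Dfun
  · have h : (fun τ => Dfun τ * qPar 1 τ ^ 0) = Dfun := by
      funext τ; simp
    rw [h, deltaExp_qExpansion_Dfun, map_mul, HahnSeries.ofPowerSeries_X, DeltaS]
    simp

theorem hasLExp_Dfun_inv : HasLExp 1 (fun τ => (Dfun τ)⁻¹) (DeltaInvS ℂ) := by
  have h : (fun τ => (Dfun τ)⁻¹ * qPar 1 τ ^ 1) = deltaExpG := by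
    funext τ
    rw [pow_one, deltaExpG, div_eq_mul_inv, mul_comm]
  refine ⟨1, ?_, ?_⟩
  · rw [h]; exact deltaExp_isNice_G
  · rw [h, deltaExp_qExpansion_G, DeltaInvS, mul_comm (HahnSeries.single (-1 : ℤ) (1 : ℂ)), mul_assoc,
      HahnSeries.single_mul_single]
    simp

theorem hasLExp_Jfun : HasLExp 1 Jfun (jqModC ℂ) := by
  have hE : IsNice 1 (ModularForm.E₄ : ℍ → ℂ) := deltaExp_isNice_of_modularForm _
  have hE2 := deltaExp_isNice_mul hE hE
  have hE3 := deltaExp_isNice_mul hE2 hE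
  have hJ := deltaExp_isNice_mul hE3 deltaExp_isNice_G
  have h : (fun τ => Jfun τ * qPar 1 τ ^ 1)
      = fun τ => (ModularForm.E₄ τ * ModularForm.E₄ τ * ModularForm.E₄ τ) * deltaExpG τ := by
    funext τ
    rw [pow_one, deltaExpG, Jfun]
    ring
  have hqE : qExpansion ((1 : ℕ) : ℝ) (ModularForm.E₄ : ℍ → ℂ)
      = eisenstein4.map (Int.castRingHom ℂ) := by
    rw [Nat.cast_one]
    exact Fermat.Agent.S24.qExpansion_E₄
  refine ⟨1, ?_, ?_⟩
  · rw [h]; exact hJ
  · rw [h, deltaExp_qExpansion_mul hE3 deltaExp_isNice_G, deltaExp_qExpansion_mul hE2 hE,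
      deltaExp_qExpansion_mul hE hE, hqE, deltaExp_qExpansion_G, jqModC, jNum,
      mul_comm (HahnSeries.single (-1 : ℤ) (1 : ℂ)),
      mul_assoc (HahnSeries.ofPowerSeries ℤ ℂ _) (HahnSeries.single (-1 : ℤ) (1 : ℂ)),
      HahnSeries.single_mul_single]
    simp [pow_succ]

end Fermat.Agent.S28T
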