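import Mathlib
import Fermat.Agent.S28T.AnDefs
import Fermat.Agent.S24.JInvariant

set_option autoImplicit false

noncomputable section

namespace Fermat.Agent.S28T

open ModularCurve HahnSeries UpperHalfPlane Function
open scoped MatrixGroups Manifold

/-- determinant relation of an element of `SL(2, ℤ)`. -/
theorem hnf_det_eq (g : SL(2, ℤ)) : g 0 0 * g 1 1 - g 0 1 * g 1 0 = 1 := by
  have := g.det_coe
  rwa [Matrix.det_fin_two] at this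

/-- the four scalar equations contained in the matrix identity. -/
theorem hnf_entries {n a b d : ℤ} {γ γ' : SL(2, ℤ)}
    (h : (!![n * γ 0 0, n * γ 0 1; γ 1 0, γ 1 1] : Matrix (Fin 2) (Fin 2) ℤ) =
        (γ' : Matrix (Fin 2) (Fin 2) ℤ) * !![a, b; 0, d]) :
    n * γ 0 0 = γ' 0 0 * a ∧ n * γ 0 1 = γ' 0 0 * b + γ' 0 1 * d ∧
      γ 1 0 = γ' 1 0 * a ∧ γ 1 1 = γ' 1 0 * b + γ' 1 1 * d := by
  have h00 := congrFun (congrFun h 0) 0
  have h01 := congrFun (congrFun h 0) 1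
  have h10 := congrFun (congrFun h 1) 0
  have h11 := congrFun (congrFun h 1) 1
  simp [Matrix.mul_apply, Fin.sum_univ_two] at h00 h01 h10 h11
  exact ⟨h00, h01, h10, h11⟩

/-- the determinant of the triangular factor. -/
theorem hnf_mul_eq {n a b d : ℤ} {γ γ' : SL(2, ℤ)}
    (h : (!![n * γ 0 0, n * γ 0 1; γ 1 0, γ 1 1] : Matrix (Fin 2) (Fin 2) ℤ) =
        (γ' : Matrix (Fin 2) (Fin 2) ℤ) * !![a, b; 0, d]) : a * d = n := by
  obtain ⟨h00, h01, h10, h11⟩ := hnf_entries h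
  have h1 := hnf_det_eq γ
  have h2 := hnf_det_eq γ'
  calc a * d = (γ' 0 0 * γ' 1 1 - γ' 0 1 * γ' 1 0) * (a * d) := by rw [h2, one_mul]
    _ = (γ' 0 0 * a) * (γ' 1 0 * b + γ' 1 1 * d) - (γ' 0 0 * b + γ' 0 1 * d) * (γ' 1 0 * a) := by
        ring
    _ = (n * γ 0 0) * γ 1 1 - (n * γ 0 1) * γ 1 0 := by rw [← h00, ← h01, ← h10, ← h11]
    _ = n * (γ 0 0 * γ 1 1 - γ 0 1 * γ 1 0) := by ring
    _ = n := by rw [h1, mul_one]

theorem exists_hnf (n : ℕ) (hn : 0 < n) (γ : SL(2, ℤ)) :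
    ∃ (a d : ℕ+) (b : ℕ) (γ' : SL(2, ℤ)), (a : ℕ) = Nat.gcd n (γ 1 0).natAbs ∧
      (a : ℕ) * d = n ∧ b < d ∧
      (!![(n : ℤ) * γ 0 0, (n : ℤ) * γ 0 1; γ 1 0, γ 1 1] : Matrix (Fin 2) (Fin 2) ℤ) =
        (γ' : Matrix (Fin 2) (Fin 2) ℤ) * !![(a : ℤ), (b : ℤ); 0, (d : ℤ)] := by
  set x := γ 0 0 with hx
  set y := γ 0 1 with hy
  set z := γ 1 0 with hz
  set w := γ 1 1 with hw
  have hdet : x * w - y * z = 1 := hnf_det_eq γ
  set a : ℕ := Nat.gcd n z.natAbs with ha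
  have ha0 : 0 < a := Nat.gcd_pos_of_pos_left _ hn
  obtain ⟨d, hd⟩ : a ∣ n := Nat.gcd_dvd_left _ _
  have hd0 : 0 < d := by
    rcases Nat.eq_zero_or_pos d with h | h
    · rw [h, mul_zero] at hd; omega
    · exact h
  obtain ⟨v, hv⟩ : (a : ℤ) ∣ z := by
    have : a ∣ z.natAbs := Nat.gcd_dvd_right _ _
    exact Int.natCast_dvd.mpr this
  have hbez : (a : ℤ) = (n : ℤ) * Int.gcdA n z + z * Int.gcdB n z := by
    have := Int.gcd_eq_gcd_ab (n : ℤ) z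
    rw [← this]
    simp [Int.gcd, ha]
  set α := Int.gcdA n z
  set β := Int.gcdB n z
  have haZ : (a : ℤ) ≠ 0 := by exact_mod_cast ha0.ne'
  have hdZ : (0 : ℤ) < d := by exact_mod_cast hd0
  have hnZ : (n : ℤ) = a * d := by exact_mod_cast hd
  have hone : (d : ℤ) * α + v * β = 1 := by
    apply mul_left_cancel₀ haZ
    rw [mul_one]
    conv_rhs => rw [hbez, hnZ, hv]
    ring
  set t := (β * w) / (d : ℤ) with ht
  set b := (β * w) % (d : ℤ) with hb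
  have hb0 : 0 ≤ b := Int.emod_nonneg _ hdZ.ne'
  have hbd : b < d := Int.emod_lt_of_pos _ hdZ
  have hbt : b + d * t = β * w := Int.emod_add_mul_ediv _ _
  refine ⟨⟨a, ha0⟩, ⟨d, hd0⟩, b.toNat,
    ⟨!![(d : ℤ) * x, (α * n * y - β) + d * x * t; v, α * w + v * t], ?_⟩, rfl, hd.symm, ?_, ?_⟩
  · rw [Matrix.det_fin_two_of]
    have : (d : ℤ) * x * (α * w + v * t) - ((α * n * y - β) + d * x * t) * v
        = α * d * (x * w) - α * y * (n * v) + v * β := by ring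
    rw [this]
    have h2 : (n : ℤ) * v = d * z := by rw [hnZ, hv]; ring
    rw [h2]
    have : α * d * (x * w) - α * y * (d * z) + v * β = α * d * (x * w - y * z) + v * β := by ring
    rw [this, hdet]
    linarith
  · show b.toNat < d
    omega
  · have hbc : ((b.toNat : ℕ) : ℤ) = b := Int.toNat_of_nonneg hb0
    simp only [PNat.mk_coe, hbc]
    ext i j
    fin_cases i <;> fin_cases j
    · simp [Matrix.mul_apply, Fin.sum_univ_two]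
      rw [hnZ]; ring
    · simp [Matrix.mul_apply, Fin.sum_univ_two]
      -- n y = d x b + ((α n y - β) + d x t) d
      have e1 : (d : ℤ) * x * b + (α * n * y - β + d * x * t) * d
          = d * (x * (b + d * t) + α * n * y - β) := by ring
      rw [e1, hbt]
      have e2 : x * (β * w) + α * n * y - β = β * (x * w - 1) + α * n * y := by ring
      have e3 : x * w - 1 = y * z := by linarith
      rw [e2, e3]
      have e4 : β * (y * z) + α * n * y = y * (n * α + z * β) := by ring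
      rw [e4, ← hbez, hnZ]; ring
    · simp [Matrix.mul_apply, Fin.sum_univ_two]
      rw [hv]; ring
    · simp [Matrix.mul_apply, Fin.sum_univ_two]
      have e1 : v * b + (α * w + v * t) * d = v * (b + d * t) + α * w * d := by ring
      rw [e1, hbt]
      have e2 : v * (β * w) + α * w * d = w * (d * α + v * β) := by ring
      rw [e2, hone, mul_one]

/-- the denominators are related by `z' (a τ + b) / d + w' = (z τ + w) / d`. -/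
theorem hnf_denom_eq (n a d : ℕ+) (b : ℕ) (γ γ' : SL(2, ℤ))
    (h : (!![(n : ℤ) * γ 0 0, (n : ℤ) * γ 0 1; γ 1 0, γ 1 1] : Matrix (Fin 2) (Fin 2) ℤ) =
        (γ' : Matrix (Fin 2) (Fin 2) ℤ) * !![(a : ℤ), (b : ℤ); 0, (d : ℤ)]) (τ : ℍ) :
    denom γ' (aff a d b τ) = denom γ τ / d := by
  obtain ⟨-, -, h10, h11⟩ := hnf_entries h
  have hd : (d : ℂ) ≠ 0 := by exact_mod_cast d.pos.ne'
  rw [ModularGroup.denom_apply, ModularGroup.denom_apply, coe_aff, h10, h11]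
  push_cast
  field_simp
  ring

/-- consequence for points of `ℍ` -/
theorem aff_smul_eq (n a d : ℕ+) (b : ℕ) (γ γ' : SL(2, ℤ))
    (h : (!![(n : ℤ) * γ 0 0, (n : ℤ) * γ 0 1; γ 1 0, γ 1 1] : Matrix (Fin 2) (Fin 2) ℤ) =
        (γ' : Matrix (Fin 2) (Fin 2) ℤ) * !![(a : ℤ), (b : ℤ); 0, (d : ℤ)]) (τ : ℍ) :
    aff n 1 0 (γ • τ) = γ' • aff a d b τ := by
  obtain ⟨h00, h01, h10, h11⟩ := hnf_entries h
  have hd : (d : ℂ) ≠ 0 := by exact_mod_cast d.pos.ne'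
  have hden : ((γ 1 0 : ℤ) : ℂ) * τ + ((γ 1 1 : ℤ) : ℂ) ≠ 0 := by
    have := denom_ne_zero (γ : GL (Fin 2) ℝ) τ
    rwa [ModularGroup.denom_apply] at this
  have hden' : ((γ' 1 0 : ℤ) : ℂ) * (((a : ℂ) * τ + b) / d) + ((γ' 1 1 : ℤ) : ℂ) ≠ 0 := by
    have := denom_ne_zero (γ' : GL (Fin 2) ℝ) (aff a d b τ)
    rwa [ModularGroup.denom_apply, coe_aff] at this
  have e00 : ((n : ℕ) : ℂ) * ((γ 0 0 : ℤ) : ℂ) = ((γ' 0 0 : ℤ) : ℂ) * ((a : ℕ) : ℂ) := by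
    exact_mod_cast h00
  have e01 : ((n : ℕ) : ℂ) * ((γ 0 1 : ℤ) : ℂ)
      = ((γ' 0 0 : ℤ) : ℂ) * (b : ℂ) + ((γ' 0 1 : ℤ) : ℂ) * ((d : ℕ) : ℂ) := by
    exact_mod_cast h01
  have e10 : ((γ 1 0 : ℤ) : ℂ) = ((γ' 1 0 : ℤ) : ℂ) * ((a : ℕ) : ℂ) := by
    exact_mod_cast h10
  have e11 : ((γ 1 1 : ℤ) : ℂ)
      = ((γ' 1 0 : ℤ) : ℂ) * (b : ℂ) + ((γ' 1 1 : ℤ) : ℂ) * ((d : ℕ) : ℂ) := by
    exact_mod_cast h11
  apply UpperHalfPlane.ext
  rw [coe_aff, coe_specialLinearGroup_apply, coe_specialLinearGroup_apply, coe_aff]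
  simp only [algebraMap_int_eq, eq_intCast, Complex.ofReal_intCast, PNat.one_coe, Nat.cast_one,
    Nat.cast_zero, add_zero, div_one]
  rw [eq_div_iff hden', mul_div_assoc', div_mul_eq_mul_div, div_eq_iff hden]
  have k1 : ((γ' 1 0 : ℤ) : ℂ) * (((a : ℂ) * τ + b) / d) + ((γ' 1 1 : ℤ) : ℂ)
      = (((γ 1 0 : ℤ) : ℂ) * τ + ((γ 1 1 : ℤ) : ℂ)) / d := by
    rw [e10, e11]; field_simp; ring
  have k2 : ((γ' 0 0 : ℤ) : ℂ) * (((a : ℂ) * τ + b) / d) + ((γ' 0 1 : ℤ) : ℂ)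
      = ((n : ℂ) * (((γ 0 0 : ℤ) : ℂ) * τ + ((γ 0 1 : ℤ) : ℂ))) / d := by
    rw [mul_add, ← mul_assoc, e00, e01]; field_simp; ring
  rw [k1, k2]
  field_simp

theorem Dfun_ratio (n a d : ℕ+) (b : ℕ) (γ γ' : SL(2, ℤ))
    (h : (!![(n : ℤ) * γ 0 0, (n : ℤ) * γ 0 1; γ 1 0, γ 1 1] : Matrix (Fin 2) (Fin 2) ℤ) =
        (γ' : Matrix (Fin 2) (Fin 2) ℤ) * !![(a : ℤ), (b : ℤ); 0, (d : ℤ)]) (τ : ℍ) :
    Dfun (aff n 1 0 (γ • τ)) / Dfun (γ • τ) = ((d : ℂ)⁻¹) ^ 12 * Dfun (aff a d b τ) / Dfun τ := by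
  have hd : (d : ℂ) ≠ 0 := by exact_mod_cast d.pos.ne'
  have hden : denom γ τ ≠ 0 := denom_ne_zero _ _
  have hΔ : Dfun τ ≠ 0 := ModularForm.discriminant_ne_zero τ
  rw [aff_smul_eq n a d b γ γ' h τ]
  unfold Dfun
  rw [S24.JInvariant.discriminant_smul, S24.JInvariant.discriminant_smul,
    hnf_denom_eq n a d b γ γ' h τ]
  have e : ∀ u : ℂ, u ^ (12 : ℤ) = u ^ (12 : ℕ) := fun u => by
    rw [← zpow_natCast]; rfl
  rw [e, e]
  field_simp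

theorem E₄_smul (γ : SL(2, ℤ)) (τ : ℍ) :
    ModularForm.E₄ (γ • τ) = denom γ τ ^ (4 : ℤ) * ModularForm.E₄ τ := by
  have : SlashInvariantFormClass (ModularForm 𝒮ℒ 4) (CongruenceSubgroup.Gamma 1) 4 :=
    CongruenceSubgroup.Gamma_one_coe_eq_SL ▸ inferInstance
  exact SlashInvariantForm.slash_action_eqn_SL'' ModularForm.E₄
    (CongruenceSubgroup.mem_Gamma_one γ) τ

theorem Jfun_smul (γ : SL(2, ℤ)) (τ : ℍ) : Jfun (γ • τ) = Jfun τ := by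
  have hden : denom γ τ ≠ 0 := denom_ne_zero _ _
  have hΔ : ModularForm.discriminant τ ≠ 0 := ModularForm.discriminant_ne_zero τ
  unfold Jfun
  rw [E₄_smul, S24.JInvariant.discriminant_smul]
  have e : ∀ (u : ℂ) (k : ℕ), u ^ (k : ℤ) = u ^ k := fun u k => zpow_natCast u k
  have e4 : denom γ τ ^ (4 : ℤ) = denom γ τ ^ (4 : ℕ) := e _ 4
  have e12 : denom γ τ ^ (12 : ℤ) = denom γ τ ^ (12 : ℕ) := e _ 12
  rw [e4, e12]
  field_simp

theorem mem_Gamma0_of_hnf_eq (N a d : ℕ+) (b : ℕ) (γ₁ γ₂ γ₁' γ₂' : SL(2, ℤ))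
    (h₁ : (!![(N : ℤ) * γ₁ 0 0, (N : ℤ) * γ₁ 0 1; γ₁ 1 0, γ₁ 1 1] : Matrix (Fin 2) (Fin 2) ℤ) =
        (γ₁' : Matrix (Fin 2) (Fin 2) ℤ) * !![(a : ℤ), (b : ℤ); 0, (d : ℤ)])
    (h₂ : (!![(N : ℤ) * γ₂ 0 0, (N : ℤ) * γ₂ 0 1; γ₂ 1 0, γ₂ 1 1] : Matrix (Fin 2) (Fin 2) ℤ) =
        (γ₂' : Matrix (Fin 2) (Fin 2) ℤ) * !![(a : ℤ), (b : ℤ); 0, (d : ℤ)]) :
    γ₂ * γ₁⁻¹ ∈ CongruenceSubgroup.Gamma0 N := by
  have had := hnf_mul_eq h₁
  obtain ⟨-, -, p10, p11⟩ := hnf_entries h₁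
  obtain ⟨-, -, q10, q11⟩ := hnf_entries h₂
  rw [CongruenceSubgroup.Gamma0_mem, ZMod.intCast_zmod_eq_zero_iff_dvd]
  have : (γ₂ * γ₁⁻¹) 1 0 = γ₂ 1 0 * γ₁ 1 1 - γ₂ 1 1 * γ₁ 1 0 := by
    rw [Matrix.SpecialLinearGroup.coe_mul, Matrix.SpecialLinearGroup.coe_inv,
      Matrix.adjugate_fin_two, Matrix.mul_apply, Fin.sum_univ_two]
    simp
    ring
  rw [this, p10, p11, q10, q11]
  refine ⟨γ₂' 1 0 * γ₁' 1 1 - γ₂' 1 1 * γ₁' 1 0, ?_⟩
  have hN : (((N : ℕ) : ℕ) : ℤ) = (a : ℤ) * d := had.symm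
  rw [hN]
  ring

end Fermat.Agent.S28T
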