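import Mathlib
import Fermat.Agent.S28T.AnDefs

set_option autoImplicit false

noncomputable section

namespace Fermat.Agent.S28T

open ModularCurve HahnSeries UpperHalfPlane Function
open scoped MatrixGroups Manifold

/-! ### `IsNice` -/

theorem lexp_natCast_pos (N : ℕ) [NeZero N] : (0 : ℝ) < (N : ℝ) := by
  exact_mod_cast NeZero.pos N

theorem IsNice.analyticAt {N : ℕ} [NeZero N] {f : ℍ → ℂ} (hf : IsNice N f) :
    AnalyticAt ℂ (cuspFunction (N : ℝ) f) 0 :=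
  analyticAt_cuspFunction_zero (lexp_natCast_pos N) hf.1 hf.2.1 hf.2.2

theorem IsNice.mul {N : ℕ} {f g : ℍ → ℂ} (hf : IsNice N f) (hg : IsNice N g) :
    IsNice N (f * g) :=
  ⟨hf.1.mul hg.1, hf.2.1.mul hg.2.1, hf.2.2.mul hg.2.2⟩

theorem IsNice.add {N : ℕ} {f g : ℍ → ℂ} (hf : IsNice N f) (hg : IsNice N g) :
    IsNice N (f + g) :=
  ⟨hf.1.add hg.1, hf.2.1.add hg.2.1, hf.2.2.add hg.2.2⟩

theorem IsNice.sub {N : ℕ} {f g : ℍ → ℂ} (hf : IsNice N f) (hg : IsNice N g) :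
    IsNice N (f - g) :=
  ⟨hf.1.sub hg.1, hf.2.1.sub hg.2.1, hf.2.2.sub hg.2.2⟩

theorem IsNice.const (N : ℕ) (c : ℂ) : IsNice N (fun _ => c) :=
  ⟨fun _ => rfl, mdifferentiable_const, Filter.const_boundedAtFilter _ c⟩

theorem qPar_ne_zero (N : ℕ) (τ : ℍ) : qPar N τ ≠ 0 := Complex.exp_ne_zero _

theorem norm_qPar_lt_one (N : ℕ) [NeZero N] (τ : ℍ) : ‖qPar N τ‖ < 1 :=
  Periodic.norm_qParam_lt_one (lexp_natCast_pos N) τ.im_pos

theorem lexp_mdiff_of_differentiable {F : ℂ → ℂ} (hF : Differentiable ℂ F) :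
    MDiff (fun τ : ℍ => F (τ : ℂ)) := by
  rw [UpperHalfPlane.mdifferentiable_iff]
  refine (hF.differentiableOn (s := {z : ℂ | 0 < z.im})).congr fun z hz => ?_
  simp [Function.comp_apply, ofComplex_apply_of_im_pos hz]

/-- periodicity of `f ∘ ofComplex` from periodicity on `ℍ`. -/
theorem lexp_periodic_comp_ofComplex {f : ℍ → ℂ} {h : ℝ}
    (hf : ∀ τ τ' : ℍ, (τ' : ℂ) = τ + h → f τ' = f τ) : Periodic (f ∘ ofComplex) (h : ℂ) := by
  intro z
  by_cases hz : 0 < z.im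
  · have hz' : 0 < (z + (h : ℂ)).im := by simpa using hz
    simp only [Function.comp_apply, ofComplex_apply_of_im_pos hz, ofComplex_apply_of_im_pos hz']
    exact hf _ _ rfl
  · have hz' : ¬ 0 < (z + (h : ℂ)).im := by simpa using hz
    simp only [Function.comp_apply]
    rw [ofComplex_apply_of_im_nonpos (not_lt.mp hz), ofComplex_apply_of_im_nonpos (not_lt.mp hz')]

theorem lexp_qParam_add_period {h : ℝ} (hh : h ≠ 0) (z : ℂ) :
    Periodic.qParam h (z + h) = Periodic.qParam h z := by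
  have hh' : (h : ℂ) ≠ 0 := by exact_mod_cast hh
  unfold Periodic.qParam
  rw [show 2 * (Real.pi : ℂ) * Complex.I * (z + h) / h
    = 2 * (Real.pi : ℂ) * Complex.I * z / h + 2 * (Real.pi : ℂ) * Complex.I by field_simp]
  rw [Complex.exp_add, Complex.exp_two_pi_mul_I, mul_one]

theorem isNice_qPar (N : ℕ) [NeZero N] : IsNice N (qPar N) := by
  refine ⟨?_, ?_, ?_⟩
  · apply lexp_periodic_comp_ofComplex
    intro τ τ' h
    simp only [qPar, h]
    exact lexp_qParam_add_period (lexp_natCast_pos N).ne' _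
  · exact lexp_mdiff_of_differentiable Periodic.differentiable_qParam
  · exact (qParam_tendsto_atImInfty (lexp_natCast_pos N)).isBigO_one ℝ

theorem IsNice.pow {N : ℕ} {f : ℍ → ℂ} (hf : IsNice N f) (m : ℕ) : IsNice N (f ^ m) := by
  induction m with
  | zero => exact IsNice.const N 1
  | succ m ih => rw [pow_succ]; exact ih.mul hf

theorem lexp_coeff_unique {h : ℝ} {f : ℍ → ℂ} {c : ℕ → ℂ} (hh : 0 < h)
    (hfanalytic : AnalyticAt ℂ (cuspFunction h f) 0)
    (hf : ∀ τ : ℍ, HasSum (fun m ↦ c m • Function.Periodic.qParam h τ ^ m) (f τ)) (m : ℕ) :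
    c m = (qExpansion h f).coeff m := by
  have h1 := (hasFPowerSeriesOnBall_cuspFunction hh hfanalytic hf).hasFPowerSeriesAt
  have h2 := hfanalytic.hasFPowerSeriesAt
  have h3 := congr_arg (FormalMultilinearSeries.coeff · m) (h1.eq_formalMultilinearSeries h2)
  simp only [FormalMultilinearSeries.coeff_ofScalars] at h3
  rw [h3, qExpansion_coeff]
  simp [div_eq_inv_mul]

theorem qExpansion_qPar (N : ℕ) [NeZero N] : qExpansion (N : ℝ) (qPar N) = PowerSeries.X := by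
  ext m
  have key : ∀ τ : ℍ, HasSum (fun m : ℕ => (if m = 1 then (1 : ℂ) else 0) •
      Periodic.qParam (N : ℝ) (τ : ℂ) ^ m) (qPar N τ) := by
    intro τ
    have h := hasSum_ite_eq (1 : ℕ) (qPar N τ)
    convert h using 2 with m
    split_ifs with hm
    · subst hm; simp [qPar]
    · simp
  have := lexp_coeff_unique (f := qPar N) (c := fun m => if m = 1 then 1 else 0)
    (lexp_natCast_pos N) (isNice_qPar N).analyticAt key m
  rw [← this, PowerSeries.coeff_X]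

theorem qExpansion_qPar_pow (N : ℕ) [NeZero N] (j : ℕ) :
    qExpansion (N : ℝ) (qPar N ^ j) = PowerSeries.X ^ j := by
  induction j with
  | zero => simpa using qExpansion_one (N : ℝ)
  | succ j ih =>
    rw [pow_succ, qExpansion_mul ((isNice_qPar N).pow j).analyticAt (isNice_qPar N).analyticAt, ih,
      qExpansion_qPar, pow_succ]

theorem lexp_qExpansion_const (N : ℕ) [NeZero N] (c : ℂ) :
    qExpansion (N : ℝ) (fun _ => c) = PowerSeries.C c := by
  have h1 : (fun _ : ℍ => c) = c • (1 : ℍ → ℂ) := by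
    funext τ; simp
  have h1a : AnalyticAt ℂ (cuspFunction (N : ℝ) (1 : ℍ → ℂ)) 0 := (IsNice.const N 1).analyticAt
  rw [h1, qExpansion_smul h1a, qExpansion_one]
  ext n
  simp [PowerSeries.coeff_C, PowerSeries.coeff_one]

/-! ### `HasLExp` with a prescribed pole bound -/

/-- `HasLExp` with a prescribed exponent. -/
def HasLExpAt (N : ℕ) (f : ℍ → ℂ) (Ψ : LaurentSeries ℂ) (m : ℕ) : Prop :=
  IsNice N (fun τ => f τ * qPar N τ ^ m) ∧
    HahnSeries.ofPowerSeries ℤ ℂ (qExpansion (N : ℝ) (fun τ => f τ * qPar N τ ^ m)) =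
      Ψ * HahnSeries.single (m : ℤ) 1

theorem HasLExpAt.raise {N : ℕ} [NeZero N] {f : ℍ → ℂ} {Ψ : LaurentSeries ℂ} {m : ℕ}
    (h : HasLExpAt N f Ψ m) (j : ℕ) : HasLExpAt N f Ψ (m + j) := by
  have he : (fun τ => f τ * qPar N τ ^ (m + j)) = (fun τ => f τ * qPar N τ ^ m) * qPar N ^ j := by
    funext τ
    simp [_root_.pow_add, mul_assoc]
  refine ⟨he ▸ h.1.mul ((isNice_qPar N).pow j), ?_⟩
  rw [he, qExpansion_mul h.1.analyticAt ((isNice_qPar N).pow j).analyticAt, map_mul, h.2,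
    qExpansion_qPar_pow, HahnSeries.ofPowerSeries_X_pow, mul_assoc, HahnSeries.single_mul_single,
    mul_one, Nat.cast_add]

theorem HasLExpAt.raise' {N : ℕ} [NeZero N] {f : ℍ → ℂ} {Ψ : LaurentSeries ℂ} {m : ℕ}
    (h : HasLExpAt N f Ψ m) (j : ℕ) : HasLExpAt N f Ψ (j + m) := by
  rw [add_comm]; exact h.raise j

theorem lexp_single_mul_cancel {Ψ Φ : LaurentSeries ℂ} {M : ℤ}
    (h : Ψ * HahnSeries.single M (1 : ℂ) = Φ * HahnSeries.single M (1 : ℂ)) : Ψ = Φ := by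
  have h2 := congrArg (· * HahnSeries.single (-M) (1 : ℂ)) h
  simpa [mul_assoc, HahnSeries.single_mul_single] using h2

theorem HasLExp.add {N : ℕ} [NeZero N] {f g : ℍ → ℂ} {Ψ Φ : LaurentSeries ℂ}
    (hf : HasLExp N f Ψ) (hg : HasLExp N g Φ) : HasLExp N (f + g) (Ψ + Φ) := by
  obtain ⟨m₁, hf⟩ := hf
  obtain ⟨m₂, hg⟩ := hg
  have hf' : HasLExpAt N f Ψ (m₁ + m₂) := HasLExpAt.raise hf m₂
  have hg' : HasLExpAt N g Φ (m₁ + m₂) := HasLExpAt.raise' hg m₁
  have he : (fun τ => (f + g) τ * qPar N τ ^ (m₁ + m₂)) =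
      (fun τ => f τ * qPar N τ ^ (m₁ + m₂)) + (fun τ => g τ * qPar N τ ^ (m₁ + m₂)) := by
    funext τ
    simp [add_mul]
  refine ⟨m₁ + m₂, he ▸ hf'.1.add hg'.1, ?_⟩
  rw [he, qExpansion_add hf'.1.analyticAt hg'.1.analyticAt, map_add, hf'.2, hg'.2, add_mul]

theorem HasLExp.mul {N : ℕ} [NeZero N] {f g : ℍ → ℂ} {Ψ Φ : LaurentSeries ℂ}
    (hf : HasLExp N f Ψ) (hg : HasLExp N g Φ) : HasLExp N (f * g) (Ψ * Φ) := by
  obtain ⟨m₁, hf⟩ := hf
  obtain ⟨m₂, hg⟩ := hg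
  have he : (fun τ => (f * g) τ * qPar N τ ^ (m₁ + m₂)) =
      (fun τ => f τ * qPar N τ ^ m₁) * (fun τ => g τ * qPar N τ ^ m₂) := by
    funext τ
    simp only [Pi.mul_apply, _root_.pow_add]
    ring
  refine ⟨m₁ + m₂, he ▸ hf.1.mul hg.1, ?_⟩
  rw [he, qExpansion_mul hf.1.analyticAt hg.1.analyticAt, map_mul, hf.2, hg.2, Nat.cast_add,
    ← mul_one (1 : ℂ), ← HahnSeries.single_mul_single, mul_one]
  ring

theorem HasLExp.const (N : ℕ) [NeZero N] (c : ℂ) :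
    HasLExp N (fun _ => c) (HahnSeries.C c) := by
  have he : (fun τ : ℍ => (fun _ : ℍ => c) τ * qPar N τ ^ 0) = fun _ => c := by
    funext τ; simp
  refine ⟨0, ?_, ?_⟩
  · rw [he]; exact IsNice.const N c
  · rw [he, lexp_qExpansion_const, HahnSeries.ofPowerSeries_C]
    simp

theorem HasLExp.unique {N : ℕ} [NeZero N] {f : ℍ → ℂ} {Ψ Φ : LaurentSeries ℂ}
    (hf : HasLExp N f Ψ) (hg : HasLExp N f Φ) : Ψ = Φ := by
  obtain ⟨m₁, hf⟩ := hf
  obtain ⟨m₂, hg⟩ := hg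
  have hf' : HasLExpAt N f Ψ (m₁ + m₂) := HasLExpAt.raise hf m₂
  have hg' : HasLExpAt N f Φ (m₁ + m₂) := HasLExpAt.raise' hg m₁
  exact lexp_single_mul_cancel (hf'.2.symm.trans hg'.2)

theorem HasLExp.eq_of_eq {N : ℕ} [NeZero N] {f g : ℍ → ℂ} {Ψ : LaurentSeries ℂ}
    (hf : HasLExp N f Ψ) (hg : HasLExp N g Ψ) : f = g := by
  obtain ⟨m₁, hf⟩ := hf
  obtain ⟨m₂, hg⟩ := hg
  have hf' : HasLExpAt N f Ψ (m₁ + m₂) := HasLExpAt.raise hf m₂
  have hg' : HasLExpAt N g Ψ (m₁ + m₂) := HasLExpAt.raise' hg m₁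
  have h1 := HahnSeries.ofPowerSeries_injective (hf'.2.trans hg'.2.symm)
  have h2 := qExpansion_sub hf'.1.analyticAt hg'.1.analyticAt
  rw [h1, sub_self] at h2
  have h3 := (qExpansion_eq_zero_iff (lexp_natCast_pos N) (hf'.1.sub hg'.1).1 (hf'.1.sub hg'.1).2.1
    (hf'.1.sub hg'.1).2.2).mp h2
  funext τ
  have h4 := congrFun h3 τ
  simp only [Pi.sub_apply, Pi.zero_apply, sub_eq_zero] at h4
  exact mul_right_cancel₀ (pow_ne_zero _ (qPar_ne_zero N τ)) h4

theorem HasLExp.mdiff {N : ℕ} [NeZero N] {f : ℍ → ℂ} {Ψ : LaurentSeries ℂ}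
    (hf : HasLExp N f Ψ) : MDiff f := by
  obtain ⟨m, hf⟩ := hf
  have he : f = (fun τ => f τ * qPar N τ ^ m) *
      (fun τ : ℍ => (fun z : ℂ => (Periodic.qParam (N : ℝ) z ^ m)⁻¹) (τ : ℂ)) := by
    funext τ
    have := pow_ne_zero m (qPar_ne_zero N τ)
    simp only [Pi.mul_apply]
    rw [mul_assoc]
    change f τ = f τ * (qPar N τ ^ m * (qPar N τ ^ m)⁻¹)
    rw [mul_inv_cancel₀ this, mul_one]
  rw [he]
  refine hf.1.2.1.mul
    (lexp_mdiff_of_differentiable (F := fun z : ℂ => (Periodic.qParam (N : ℝ) z ^ m)⁻¹) ?_)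
  exact (Periodic.differentiable_qParam.pow m).inv
    (fun z => pow_ne_zero _ (Periodic.qParam_ne_zero z))

theorem lexp_algebraMap_eq_C (a : ℂ) : algebraMap ℂ (LaurentSeries ℂ) a = HahnSeries.C a := by
  rw [ModularCurve.algebraMap_laurentSeries_eq_single]; rfl

theorem HasLExp.zero (N : ℕ) [NeZero N] : HasLExp N 0 0 := by
  have := HasLExp.const N 0
  rw [map_zero] at this
  exact this

theorem HasLExp.one (N : ℕ) [NeZero N] : HasLExp N 1 1 := by
  have := HasLExp.const N 1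
  rw [map_one] at this
  exact this

theorem HasLExp.sum {N : ℕ} [NeZero N] {ι : Type*} (s : Finset ι) {F : ι → ℍ → ℂ}
    {E : ι → LaurentSeries ℂ} (h : ∀ i ∈ s, HasLExp N (F i) (E i)) :
    HasLExp N (∑ i ∈ s, F i) (∑ i ∈ s, E i) := by
  classical
  induction s using Finset.induction_on with
  | empty => simpa using HasLExp.zero N
  | insert a s ha ih =>
    rw [Finset.sum_insert ha, Finset.sum_insert ha]
    exact (h a (Finset.mem_insert_self a s)).add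
      (ih fun i hi => h i (Finset.mem_insert_of_mem hi))

theorem HasLExp.aeval {N : ℕ} [NeZero N] {ι : Type*} {F : ι → ℍ → ℂ} {E : ι → LaurentSeries ℂ}
    (h : ∀ i, HasLExp N (F i) (E i)) (P : MvPolynomial ι ℂ) :
    HasLExp N (MvPolynomial.aeval F P) (MvPolynomial.aeval E P) := by
  induction P using MvPolynomial.induction_on with
  | C a =>
    rw [MvPolynomial.aeval_C, MvPolynomial.aeval_C, lexp_algebraMap_eq_C]
    exact HasLExp.const N a
  | add p q hp hq => rw [map_add, map_add]; exact hp.add hq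
  | mul_X p i hp => rw [map_mul, map_mul, MvPolynomial.aeval_X, MvPolynomial.aeval_X]; exact hp.mul (h i)

theorem HasLExp.pow {N : ℕ} [NeZero N] {f : ℍ → ℂ} {Ψ : LaurentSeries ℂ}
    (h : HasLExp N f Ψ) (n : ℕ) : HasLExp N (f ^ n) (Ψ ^ n) := by
  induction n with
  | zero => simpa using HasLExp.one N
  | succ n ih => rw [pow_succ, pow_succ]; exact ih.mul h

theorem HasLExp.polyEval {N : ℕ} [NeZero N] {f : ℍ → ℂ} {Ψ : LaurentSeries ℂ}
    (h : HasLExp N f Ψ) (T : Polynomial ℂ) :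
    HasLExp N (fun τ => T.eval (f τ)) (Polynomial.aeval Ψ T) := by
  induction T using Polynomial.induction_on' with
  | add p q hp hq =>
    rw [map_add]
    have : (fun τ => (p + q).eval (f τ)) = (fun τ => p.eval (f τ)) + fun τ => q.eval (f τ) := by
      funext τ; simp
    rw [this]
    exact hp.add hq
  | monomial n a =>
    have : (fun τ => (Polynomial.monomial n a).eval (f τ)) = (fun _ => a) * f ^ n := by
      funext τ; simp
    rw [this, Polynomial.aeval_monomial, lexp_algebraMap_eq_C]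
    exact (HasLExp.const N a).mul (h.pow n)

theorem qPar_one_eq (N : ℕ) [NeZero N] (τ : ℍ) : qPar 1 τ = qPar N τ ^ N := by
  have hN : (N : ℂ) ≠ 0 := by exact_mod_cast NeZero.ne N
  unfold qPar Periodic.qParam
  rw [← Complex.exp_nat_mul]
  congr 1
  push_cast
  field_simp

theorem HasLExp.bdd {N : ℕ} [NeZero N] {f : ℍ → ℂ} {Ψ : LaurentSeries ℂ}
    (h : HasLExp N f Ψ) : ∃ m : ℕ, IsBoundedAtImInfty (fun τ => f τ * qPar 1 τ ^ m) := by
  obtain ⟨m, h⟩ := h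
  refine ⟨m, ?_⟩
  obtain ⟨N', rfl⟩ : ∃ N', N = N' + 1 := ⟨N - 1, (Nat.succ_pred_eq_of_pos (NeZero.pos N)).symm⟩
  have he : (fun τ => f τ * qPar 1 τ ^ m) =
      (fun τ => f τ * qPar (N' + 1) τ ^ m) * qPar (N' + 1) ^ (N' * m) := by
    funext τ
    simp only [Pi.mul_apply, Pi.pow_apply]
    rw [qPar_one_eq (N' + 1), ← pow_mul, mul_assoc, ← _root_.pow_add]
    congr 2
    ring
  rw [he]
  exact h.1.2.2.mul ((isNice_qPar (N' + 1)).pow _).2.2

/-! ### Substitution `τ ↦ (a τ + b) / d` -/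

theorem mdiff_comp_aff {f : ℍ → ℂ} (hf : MDiff f) (a d : ℕ+) (b : ℕ) :
    MDiff (fun τ => f (aff a d b τ)) := by
  rw [UpperHalfPlane.mdifferentiable_iff] at hf ⊢
  have hmaps : Set.MapsTo (fun z : ℂ => ((a : ℂ) * z + b) / d) {z : ℂ | 0 < z.im}
      {z : ℂ | 0 < z.im} := by
    intro z hz
    exact (aff a d b ⟨z, hz⟩).im_pos
  have hd : DifferentiableOn ℂ (fun z : ℂ => ((a : ℂ) * z + b) / d) {z : ℂ | 0 < z.im} := by
    fun_prop
  refine (hf.comp hd hmaps).congr fun z hz => ?_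
  have hz' : 0 < (((a : ℂ) * z + b) / d).im := hmaps hz
  simp only [Function.comp_apply, ofComplex_apply_of_im_pos hz, ofComplex_apply_of_im_pos hz']
  rfl

theorem qPar_one_aff {N : ℕ} [NeZero N] (a d : ℕ+) (b : ℕ) (hd : (d : ℕ) ∣ N) (k : ℕ+)
    (hk : (k : ℕ) = a * (N / d)) (τ : ℍ) :
    qPar 1 (aff a d b τ) = ((zetaC N ^ ((N / d) * b) : ℂˣ) : ℂ) * qPar N τ ^ (k : ℕ) := by
  obtain ⟨e, he⟩ := hd
  have hd0 : (d : ℂ) ≠ 0 := by exact_mod_cast d.pos.ne'
  have hN : (N : ℂ) ≠ 0 := by exact_mod_cast NeZero.ne N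
  have he' : N / (d : ℕ) = e := by rw [he]; exact Nat.mul_div_cancel_left e d.pos
  have hNe : (N : ℂ) = d * e := by exact_mod_cast he
  have he0 : (e : ℂ) ≠ 0 := by
    intro h0; rw [h0, mul_zero] at hNe; exact hN hNe
  rw [hk, he', Units.val_pow_eq_pow_val]
  unfold qPar Periodic.qParam zetaC
  rw [Units.val_mk0, ← Complex.exp_nat_mul, ← Complex.exp_nat_mul, ← Complex.exp_add, coe_aff]
  congr 1
  push_cast
  rw [hNe]
  field_simp
  ring

theorem lexp_ofPS_coeff_neg (P : PowerSeries ℂ) {i : ℤ} (hi : i < 0) :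
    (HahnSeries.ofPowerSeries ℤ ℂ P).coeff i = 0 := by
  rw [PowerSeries.coeff_coe, if_pos hi]

/-- substitution `τ ↦ (a τ + b) / d`, `d ∣ N` -/
theorem HasLExp.comp_aff {N : ℕ} [NeZero N] {f : ℍ → ℂ} {Ψ : LaurentSeries ℂ}
    (h : HasLExp 1 f Ψ) (a d : ℕ+) (b : ℕ) (hd : (d : ℕ) ∣ N) (k : ℕ+)
    (hk : (k : ℕ) = a * (N / d)) :
    HasLExp N (fun τ => f (aff a d b τ)) (sub (zetaC N ^ ((N / d) * b)) k Ψ) := by
  have hfmd := h.mdiff
  obtain ⟨m, hnice, hexp⟩ := h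
  have hq_all : ∀ τ : ℍ, qPar 1 (aff a d b τ) =
      ((zetaC N ^ ((N / d) * b) : ℂˣ) : ℂ) * qPar N τ ^ (k : ℕ) := qPar_one_aff a d b hd k hk
  generalize zetaC N ^ ((N / d) * b) = u at hq_all ⊢
  set g : ℍ → ℂ := fun τ => f τ * qPar 1 τ ^ m with hg
  set P := qExpansion ((1 : ℕ) : ℝ) g with hP
  have hkpos : 0 < (k : ℕ) := k.pos
  -- the coefficients
  set C : ℕ → ℂ := fun j => if (k : ℕ) ∣ j then
    ((u ^ (((j / (k : ℕ) : ℕ) : ℤ) - m) : ℂˣ) : ℂ) * P.coeff (j / (k : ℕ)) else 0 with hC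
  set G : ℍ → ℂ := fun τ => (fun τ => f (aff a d b τ)) τ * qPar N τ ^ ((k : ℕ) * m) with hG
  have hsum : ∀ τ : ℍ, HasSum (fun j => C j • Periodic.qParam (N : ℝ) (τ : ℂ) ^ j) (G τ) := by
    intro τ
    have h1 := hasSum_qExpansion (lexp_natCast_pos 1) hnice.1 hnice.2.1 hnice.2.2 (aff a d b τ)
    have h2 := h1.mul_left (((u ^ m : ℂˣ)⁻¹ : ℂˣ) : ℂ)
    have hq : Periodic.qParam ((1 : ℕ) : ℝ) ((aff a d b τ : ℍ) : ℂ) =
        (u : ℂ) * qPar N τ ^ (k : ℕ) := hq_all τ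
    have hval : (((u ^ m : ℂˣ)⁻¹ : ℂˣ) : ℂ) * g (aff a d b τ) = G τ := by
      simp only [hg, hG]
      have : qPar 1 (aff a d b τ) = (u : ℂ) * qPar N τ ^ (k : ℕ) := hq
      rw [this, mul_pow, ← pow_mul, Units.val_inv_eq_inv_val, Units.val_pow_eq_pow_val]
      have hu0 : (u : ℂ) ^ m ≠ 0 := pow_ne_zero _ u.ne_zero
      field_simp
    rw [hval] at h2
    have hinj : Function.Injective (fun n : ℕ => (k : ℕ) * n) :=
      fun x y hxy => Nat.eq_of_mul_eq_mul_left hkpos hxy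
    rw [← hinj.hasSum_iff]
    · have hfun : ((fun j => C j • Periodic.qParam (N : ℝ) (τ : ℂ) ^ j) ∘
            fun n : ℕ => (k : ℕ) * n) =
          fun i => (((u ^ m : ℂˣ)⁻¹ : ℂˣ) : ℂ) * ((PowerSeries.coeff i) P •
            Periodic.qParam ((1 : ℕ) : ℝ) ((aff a d b τ : ℍ) : ℂ) ^ i) := by
        funext n
        simp only [Function.comp_apply, hC, dvd_mul_right, if_true,
          Nat.mul_div_cancel_left n hkpos, smul_eq_mul]
        rw [hq, mul_pow, ← pow_mul, zpow_sub, zpow_natCast, zpow_natCast, Units.val_mul,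
          Units.val_pow_eq_pow_val]
        change _ * qPar N τ ^ _ = _
        ring
      rw [hfun]
      exact h2
    · intro j hj
      have : ¬ (k : ℕ) ∣ j := fun ⟨n, hn⟩ => hj ⟨n, hn.symm⟩
      simp [hC, this]
  have hGnice : IsNice N G := by
    refine ⟨?_, ?_, isBoundedAtImInfty_of_hasSum_qExpansion (lexp_natCast_pos N) hsum⟩
    · apply lexp_periodic_comp_ofComplex
      intro τ τ' hτ
      have h1 := hsum τ'
      rw [hτ, lexp_qParam_add_period (lexp_natCast_pos N).ne'] at h1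
      exact h1.unique (hsum τ)
    · exact (mdiff_comp_aff hfmd a d b).mul ((isNice_qPar N).pow _).2.1
  refine ⟨(k : ℕ) * m, hGnice, ?_⟩
  have hcoeff : ∀ j, C j = (qExpansion (N : ℝ) G).coeff j :=
    lexp_coeff_unique (lexp_natCast_pos N) hGnice.analyticAt hsum
  have hΨ : ∀ i : ℤ, Ψ.coeff (i - m) = (HahnSeries.ofPowerSeries ℤ ℂ P).coeff i := by
    intro i
    rw [hexp, HahnSeries.coeff_mul_single, mul_one]
  ext j
  rw [HahnSeries.coeff_mul_single, mul_one]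
  simp only [sub, RingHom.comp_apply]
  by_cases hkj : ((k : ℕ) : ℤ) ∣ j
  · obtain ⟨i, rfl⟩ := hkj
    rw [show ((k : ℕ) : ℤ) * i - (((k : ℕ) * m : ℕ) : ℤ) = ((k : ℕ) : ℤ) * (i - m) by
      push_cast; ring, qExpand_coeff_mul, twist_coeff, hΨ]
    rcases lt_or_ge i 0 with hi | hi
    · rw [lexp_ofPS_coeff_neg _ hi, mul_zero]
      exact lexp_ofPS_coeff_neg _ (mul_neg_of_pos_of_neg (by exact_mod_cast hkpos) hi)
    · obtain ⟨n, rfl⟩ := Int.eq_ofNat_of_zero_le hi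
      rw [HahnSeries.ofPowerSeries_apply_coeff, ← Nat.cast_mul,
        HahnSeries.ofPowerSeries_apply_coeff, ← hcoeff]
      simp only [hC, dvd_mul_right, if_true, Nat.mul_div_cancel_left n hkpos]
  · rw [qExpand_coeff_of_not_dvd _ _ (by
      intro hdvd
      apply hkj
      have := dvd_add hdvd (Dvd.intro (m : ℤ) rfl : ((k : ℕ) : ℤ) ∣ ((k : ℕ) : ℤ) * m)
      simpa using this)]
    rcases lt_or_ge j 0 with hj | hj
    · exact lexp_ofPS_coeff_neg _ hj
    · obtain ⟨n, rfl⟩ := Int.eq_ofNat_of_zero_le hj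
      rw [HahnSeries.ofPowerSeries_apply_coeff, ← hcoeff]
      have : ¬ (k : ℕ) ∣ n := fun hh => hkj (Int.natCast_dvd_natCast.mpr hh)
      simp [hC, this]

end Fermat.Agent.S28T
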