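import Mathlib
import Fermat.Agent.S28T.AnDefs
import Fermat.Agent.S28T.LExp
import Fermat.Agent.S28T.DeltaExp
import Fermat.Agent.S28T.HNF
import Fermat.Agent.S24.JInvariant
set_option autoImplicit false
noncomputable section
namespace Fermat.Agent.S28T
open ModularCurve HahnSeries UpperHalfPlane Function
open scoped MatrixGroups Manifold

namespace Analytic

/-! ### Chosen Hermite normal forms -/

theorem exists_hnf_total (n : ℕ) (γ : SL(2, ℤ)) :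
    ∃ x : ℕ+ × ℕ+ × ℕ × SL(2, ℤ), 0 < n →
      ((x.1 : ℕ) = Nat.gcd n (γ 1 0).natAbs ∧ (x.1 : ℕ) * x.2.1 = n ∧ x.2.2.1 < x.2.1 ∧
      (!![(n : ℤ) * γ 0 0, (n : ℤ) * γ 0 1; γ 1 0, γ 1 1] : Matrix (Fin 2) (Fin 2) ℤ) =
        (x.2.2.2 : Matrix (Fin 2) (Fin 2) ℤ) * !![(x.1 : ℤ), (x.2.2.1 : ℤ); 0, (x.2.1 : ℤ)]) := by
  by_cases hn : 0 < n
  · obtain ⟨a, d, b, γ', h⟩ := exists_hnf n hn γ
    exact ⟨(a, d, b, γ'), fun _ => h⟩
  · exact ⟨(1, 1, 0, 1), fun h => absurd h hn⟩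

def hA (n : ℕ) (γ : SL(2, ℤ)) : ℕ+ := (exists_hnf_total n γ).choose.1
def hD (n : ℕ) (γ : SL(2, ℤ)) : ℕ+ := (exists_hnf_total n γ).choose.2.1
def hB (n : ℕ) (γ : SL(2, ℤ)) : ℕ := (exists_hnf_total n γ).choose.2.2.1
def hG (n : ℕ) (γ : SL(2, ℤ)) : SL(2, ℤ) := (exists_hnf_total n γ).choose.2.2.2

theorem hnf_spec (n : ℕ) (hn : 0 < n) (γ : SL(2, ℤ)) :
    (hA n γ : ℕ) = Nat.gcd n (γ 1 0).natAbs ∧ (hA n γ : ℕ) * hD n γ = n ∧ hB n γ < hD n γ ∧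
      (!![(n : ℤ) * γ 0 0, (n : ℤ) * γ 0 1; γ 1 0, γ 1 1] : Matrix (Fin 2) (Fin 2) ℤ) =
        (hG n γ : Matrix (Fin 2) (Fin 2) ℤ) * !![(hA n γ : ℤ), (hB n γ : ℤ); 0, (hD n γ : ℤ)] :=
  (exists_hnf_total n γ).choose_spec hn

theorem mem_Gamma0_iff_dvd (N : ℕ) (γ : SL(2, ℤ)) :
    γ ∈ CongruenceSubgroup.Gamma0 N ↔ N ∣ (γ 1 0).natAbs := by
  rw [CongruenceSubgroup.Gamma0_mem, ZMod.intCast_zmod_eq_zero_iff_dvd, Int.natCast_dvd]

variable (N : ℕ) [NeZero N]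

/-- The coset space. -/
abbrev Cos : Type := SL(2, ℤ) ⧸ CongruenceSubgroup.Gamma0 N

/-- Representatives of the right cosets. -/
def gam (q : Cos N) : SL(2, ℤ) := (Quotient.out q)⁻¹

variable {N}

theorem pos_of_dvd {n : ℕ} (hn : n ∣ N) : 0 < n := Nat.pos_of_dvd_of_pos hn (NeZero.pos N)

theorem hD_dvd {n : ℕ} (hn : n ∣ N) (γ : SL(2, ℤ)) : (hD n γ : ℕ) ∣ N :=
  (Dvd.intro_left _ (hnf_spec n (pos_of_dvd hn) γ).2.1).trans hn

theorem kval_pos {n : ℕ} (hn : n ∣ N) (γ : SL(2, ℤ)) : 0 < (hA n γ : ℕ) * (N / hD n γ) :=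
  Nat.mul_pos (hA n γ).pos (Nat.div_pos (Nat.le_of_dvd (NeZero.pos N) (hD_dvd hn γ)) (hD n γ).pos)

theorem k_mul_aux {n : ℕ} (hn : n ∣ N) (γ : SL(2, ℤ)) :
    (hA n γ : ℕ) * (N / hD n γ) * n = N * (Nat.gcd n (γ 1 0).natAbs) ^ 2 := by
  obtain ⟨h1, h2, h3, -⟩ := hnf_spec n (pos_of_dvd hn) γ
  rw [← h1]
  obtain ⟨c, hc⟩ := hD_dvd hn γ
  rw [hc, Nat.mul_div_cancel_left _ (hD n γ).pos]
  calc (hA n γ : ℕ) * c * n = (hA n γ : ℕ) * c * ((hA n γ : ℕ) * hD n γ) := by rw [h2]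
    _ = _ := by ring

theorem e_lt_aux {n : ℕ} (hn : n ∣ N) (γ : SL(2, ℤ)) : (N / hD n γ) * hB n γ < N := by
  obtain ⟨h1, h2, h3, -⟩ := hnf_spec n (pos_of_dvd hn) γ
  obtain ⟨c, hc⟩ := hD_dvd hn γ
  have hcpos : 0 < c := by
    rcases Nat.eq_zero_or_pos c with h | h
    · exact absurd (by rw [hc, h, mul_zero]) (NeZero.ne N)
    · exact h
  rw [hc, Nat.mul_div_cancel_left _ (hD n γ).pos, mul_comm _ c]
  exact Nat.mul_lt_mul_of_pos_left h3 hcpos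

theorem inj_aux (γ₁ γ₂ : SL(2, ℤ))
    (hk : (hA N γ₁ : ℕ) * (N / hD N γ₁) = (hA N γ₂ : ℕ) * (N / hD N γ₂))
    (he : (N / hD N γ₁) * hB N γ₁ = (N / hD N γ₂) * hB N γ₂) :
    γ₂ * γ₁⁻¹ ∈ CongruenceSubgroup.Gamma0 N := by
  obtain ⟨-, h2, -, h4⟩ := hnf_spec N (NeZero.pos N) γ₁
  obtain ⟨-, h2', -, h4'⟩ := hnf_spec N (NeZero.pos N) γ₂
  have e1 : N / hD N γ₁ = hA N γ₁ := Nat.div_eq_of_eq_mul_left (hD N γ₁).pos h2.symm
  have e2 : N / hD N γ₂ = hA N γ₂ := Nat.div_eq_of_eq_mul_left (hD N γ₂).pos h2'.symm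
  rw [e1, e2] at hk he
  have hA : (hA N γ₁ : ℕ) = hA N γ₂ := by
    have : (hA N γ₁ : ℕ) ^ 2 = (hA N γ₂ : ℕ) ^ 2 := by rw [sq, sq, hk]
    exact Nat.pow_left_injective (n := 2) (by norm_num) this
  have hB : hB N γ₁ = hB N γ₂ := by
    rw [hA] at he
    exact Nat.eq_of_mul_eq_mul_left (Analytic.hA N γ₂).pos he
  have hD : (hD N γ₁ : ℕ) = hD N γ₂ := by
    have h5 := h2.trans h2'.symm
    rw [hA] at h5
    exact Nat.eq_of_mul_eq_mul_left (Analytic.hA N γ₂).pos h5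
  have hA' : Analytic.hA N γ₁ = Analytic.hA N γ₂ := PNat.coe_injective hA
  have hD' : Analytic.hD N γ₁ = Analytic.hD N γ₂ := PNat.coe_injective hD
  rw [hA', hB, hD'] at h4
  exact mem_Gamma0_of_hnf_eq ⟨N, NeZero.pos N⟩ _ _ _ γ₁ γ₂ _ _ h4 h4'

variable (N)

/-- The combinatorial data. -/
def conjData : ConjData N where
  ι := Cos N
  fintype := Fintype.ofFinite _
  inf := QuotientGroup.mk 1
  z q := (gam N q 1 0).natAbs
  k q n := ((hA n (gam N q) : ℕ) * (N / hD n (gam N q))).toPNat'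
  e q n := (N / hD n (gam N q)) * hB n (gam N q)
  d q n := hD n (gam N q)
  k_mul q n hn := by
    rw [Nat.toPNat'_coe, if_pos (kval_pos hn _)]
    exact k_mul_aux hn _
  d_mul q n hn := by
    obtain ⟨h1, h2, h3, -⟩ := hnf_spec n (pos_of_dvd hn) (gam N q)
    rw [← h1, mul_comm, h2]
  e_lt q n hn := e_lt_aux hn _
  e_eq_zero q n hn h := by
    obtain ⟨h1, h2, h3, -⟩ := hnf_spec n (pos_of_dvd hn) (gam N q)
    have : hB n (gam N q) = 0 := by omega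
    rw [this, mul_zero]
  z_inf := by
    rw [← mem_Gamma0_iff_dvd, gam, inv_mem_iff]
    obtain ⟨h, hh⟩ := QuotientGroup.mk_out_eq_mul (CongruenceSubgroup.Gamma0 N) (1 : SL(2, ℤ))
    rw [hh, one_mul]
    exact h.2
  z_ne q hq hdvd := by
    rw [← mem_Gamma0_iff_dvd, gam, inv_mem_iff] at hdvd
    apply hq
    rw [← QuotientGroup.out_eq' q, QuotientGroup.eq]
    simpa using hdvd
  inj q q' hk he := by
    have hk' := congrArg (fun x : ℕ+ => (x : ℕ)) hk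
    simp only [Nat.toPNat'_coe, if_pos (kval_pos (dvd_refl N) _)] at hk'
    have := inj_aux (gam N q) (gam N q') hk' he
    rw [gam, gam, inv_inv] at this
    rw [← QuotientGroup.out_eq' q, ← QuotientGroup.out_eq' q']
    exact (QuotientGroup.eq.mpr this).symm

/-! ### Expansions of the basic functions at all conjugates -/

variable {N}

theorem twist_one_apply {A : Type*} [CommRing A] (f : LaurentSeries A) :
    twist (1 : Aˣ) f = f := by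
  ext n; simp

theorem aff_one_one_zero (τ : ℍ) : aff 1 1 0 τ = τ := by
  apply UpperHalfPlane.ext; simp

theorem hasLExp_lift {f : ℍ → ℂ} {Ψ : LaurentSeries ℂ} (h : HasLExp 1 f Ψ) :
    HasLExp N f (qExpand ℂ N Ψ) := by
  have := h.comp_aff (N := N) 1 1 0 (one_dvd _) ⟨N, NeZero.pos N⟩ (by simp)
  simp only [aff_one_one_zero, mul_zero, pow_zero] at this
  have e : sub (1 : ℂˣ) ⟨N, NeZero.pos N⟩ Ψ = qExpand ℂ N Ψ := by
    show qExpand ℂ N (twist 1 Ψ) = _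
    rw [twist_one_apply]
  rwa [e] at this

theorem hasLExp_J {n : ℕ} (hn : n ∣ N) (γ : SL(2, ℤ)) (k : ℕ+)
    (hk : (k : ℕ) = hA n γ * (N / hD n γ)) :
    HasLExp N (fun τ => Jfun (aff ⟨n, pos_of_dvd hn⟩ 1 0 (γ • τ)))
      (sub (zetaC N ^ ((N / hD n γ) * hB n γ)) k (jqModC ℂ)) := by
  have h4 := (hnf_spec n (pos_of_dvd hn) γ).2.2.2
  have : (fun τ => Jfun (aff ⟨n, pos_of_dvd hn⟩ 1 0 (γ • τ))) =
      fun τ => Jfun (aff (hA n γ) (hD n γ) (hB n γ) τ) := by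
    funext τ
    rw [aff_smul_eq ⟨n, pos_of_dvd hn⟩ _ _ _ γ (hG n γ) h4 τ, Jfun_smul]
  rw [this]
  exact hasLExp_Jfun.comp_aff _ _ _ (hD_dvd hn γ) k hk

theorem cast_aux {n : ℕ} (hn : n ∣ N) (γ : SL(2, ℤ)) :
    (N : ℂ)⁻¹ * ((N / hD n γ : ℕ) : ℂ) = ((hD n γ : ℕ) : ℂ)⁻¹ := by
  have hd0 : ((hD n γ : ℕ) : ℂ) ≠ 0 := by exact_mod_cast (hD n γ).pos.ne'
  have hN0 : (N : ℂ) ≠ 0 := by exact_mod_cast NeZero.ne N
  rw [Nat.cast_div (hD_dvd hn γ) hd0]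
  field_simp

theorem hasLExp_U {n : ℕ} (hn : n ∣ N) (γ : SL(2, ℤ)) (k : ℕ+)
    (hk : (k : ℕ) = hA n γ * (N / hD n γ)) :
    HasLExp N (fun τ => Dfun (aff ⟨n, pos_of_dvd hn⟩ 1 0 (γ • τ)) / Dfun (γ • τ))
      (HahnSeries.C (((N : ℂ)⁻¹ * ((N / hD n γ : ℕ) : ℂ)) ^ 12) *
        sub (zetaC N ^ ((N / hD n γ) * hB n γ)) k (DeltaS ℂ) * qExpand ℂ N (DeltaInvS ℂ)) := by
  have h4 := (hnf_spec n (pos_of_dvd hn) γ).2.2.2
  have : (fun τ => Dfun (aff ⟨n, pos_of_dvd hn⟩ 1 0 (γ • τ)) / Dfun (γ • τ)) =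
      (fun _ => ((N : ℂ)⁻¹ * ((N / hD n γ : ℕ) : ℂ)) ^ 12) *
        (fun τ => Dfun (aff (hA n γ) (hD n γ) (hB n γ) τ)) * (fun τ => (Dfun τ)⁻¹) := by
    funext τ
    rw [Dfun_ratio ⟨n, pos_of_dvd hn⟩ _ _ _ γ (hG n γ) h4 τ, cast_aux hn]
    simp only [Pi.mul_apply, div_eq_mul_inv]
  rw [this]
  exact ((HasLExp.const N _).mul (hasLExp_Dfun.comp_aff _ _ _ (hD_dvd hn γ) k hk)).mul
    (hasLExp_lift hasLExp_Dfun_inv)

theorem hasLExp_V {n : ℕ} (hn : n ∣ N) (γ : SL(2, ℤ)) (k : ℕ+)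
    (hk : (k : ℕ) = hA n γ * (N / hD n γ)) :
    HasLExp N (fun τ => Dfun (γ • τ) / Dfun (aff ⟨n, pos_of_dvd hn⟩ 1 0 (γ • τ)))
      (HahnSeries.C (((hD n γ : ℕ) : ℂ) ^ 12) *
        sub (zetaC N ^ ((N / hD n γ) * hB n γ)) k (DeltaInvS ℂ) * qExpand ℂ N (DeltaS ℂ)) := by
  have h4 := (hnf_spec n (pos_of_dvd hn) γ).2.2.2
  have : (fun τ => Dfun (γ • τ) / Dfun (aff ⟨n, pos_of_dvd hn⟩ 1 0 (γ • τ))) =
      (fun _ => ((hD n γ : ℕ) : ℂ) ^ 12) *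
        (fun τ => (Dfun (aff (hA n γ) (hD n γ) (hB n γ) τ))⁻¹) * Dfun := by
    funext τ
    rw [← inv_div, Dfun_ratio ⟨n, pos_of_dvd hn⟩ _ _ _ γ (hG n γ) h4 τ]
    simp only [Pi.mul_apply, div_eq_mul_inv, mul_inv, inv_inv, inv_pow]
  rw [this]
  exact ((HasLExp.const N _).mul (hasLExp_Dfun_inv.comp_aff _ _ _ (hD_dvd hn γ) k hk)).mul
    (hasLExp_lift hasLExp_Dfun)

theorem conjData_k_coe (q : Cos N) {n : ℕ} (hn : n ∣ N) :
    (((conjData N).k q n : ℕ+) : ℕ) = hA n (gam N q) * (N / hD n (gam N q)) := by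
  show ((((hA n (gam N q) : ℕ) * (N / hD n (gam N q))).toPNat' : ℕ+) : ℕ) = _
  rw [Nat.toPNat'_coe, if_pos (kval_pos hn _)]

theorem hasLExp_Fvar (q : (conjData N).ι) (v : Var N) :
    HasLExp N (fun τ => Fvar v (gam N q • τ)) (expn (conjData N) (zetaC N) ((N : ℂ)⁻¹) q v) := by
  cases v with
  | J n => exact hasLExp_J n.2 (gam N q) _ (conjData_k_coe q n.2)
  | U n => exact hasLExp_U n.2 (gam N q) _ (conjData_k_coe q n.2)
  | V n => exact hasLExp_V n.2 (gam N q) _ (conjData_k_coe q n.2)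

/-! ### Invariance under `Γ₀(N)` -/

omit [NeZero N] in
theorem exists_conj_of_mem {n : ℕ} (hn : n ∣ N) (h : SL(2, ℤ))
    (hh : h ∈ CongruenceSubgroup.Gamma0 N) :
    ∃ γ' : SL(2, ℤ),
      (!![(n : ℤ) * h 0 0, (n : ℤ) * h 0 1; h 1 0, h 1 1] : Matrix (Fin 2) (Fin 2) ℤ) =
        (γ' : Matrix (Fin 2) (Fin 2) ℤ) * !![(n : ℤ), ((0 : ℕ) : ℤ); 0, (((1 : ℕ+) : ℕ) : ℤ)] := by
  rw [CongruenceSubgroup.Gamma0_mem, ZMod.intCast_zmod_eq_zero_iff_dvd] at hh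
  obtain ⟨c, hc⟩ : (n : ℤ) ∣ h 1 0 := (Int.natCast_dvd_natCast.mpr hn).trans hh
  have hdet : h 0 0 * h 1 1 - h 0 1 * h 1 0 = 1 := by
    have := h.det_coe
    rwa [Matrix.det_fin_two] at this
  refine ⟨⟨!![h 0 0, (n : ℤ) * h 0 1; c, h 1 1], ?_⟩, ?_⟩
  · rw [Matrix.det_fin_two_of]
    rw [hc] at hdet
    linear_combination hdet
  · ext i j
    fin_cases i <;> fin_cases j <;> simp [Matrix.mul_apply, Fin.sum_univ_two, hc] <;> ring

theorem Fvar_smul_of_mem (v : Var N) (h : SL(2, ℤ)) (hh : h ∈ CongruenceSubgroup.Gamma0 N)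
    (τ : ℍ) : Fvar v (h • τ) = Fvar v τ := by
  cases v with
  | J n =>
    obtain ⟨γ', hγ'⟩ := exists_conj_of_mem n.2 h hh
    show Jfun (aff ⟨n, pos_of_dvd n.2⟩ 1 0 (h • τ)) = Jfun (aff ⟨n, pos_of_dvd n.2⟩ 1 0 τ)
    rw [aff_smul_eq ⟨n, pos_of_dvd n.2⟩ ⟨n, pos_of_dvd n.2⟩ 1 0 h γ' hγ' τ, Jfun_smul]
  | U n =>
    obtain ⟨γ', hγ'⟩ := exists_conj_of_mem n.2 h hh
    show Dfun (aff ⟨n, pos_of_dvd n.2⟩ 1 0 (h • τ)) / Dfun (h • τ) =
      Dfun (aff ⟨n, pos_of_dvd n.2⟩ 1 0 τ) / Dfun τ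
    rw [Dfun_ratio ⟨n, pos_of_dvd n.2⟩ ⟨n, pos_of_dvd n.2⟩ 1 0 h γ' hγ' τ]
    simp
  | V n =>
    obtain ⟨γ', hγ'⟩ := exists_conj_of_mem n.2 h hh
    show Dfun (h • τ) / Dfun (aff ⟨n, pos_of_dvd n.2⟩ 1 0 (h • τ)) =
      Dfun τ / Dfun (aff ⟨n, pos_of_dvd n.2⟩ 1 0 τ)
    rw [← inv_div, Dfun_ratio ⟨n, pos_of_dvd n.2⟩ ⟨n, pos_of_dvd n.2⟩ 1 0 h γ' hγ' τ, ← inv_div
      (Dfun (aff ⟨n, pos_of_dvd n.2⟩ 1 0 τ))]
    simp

theorem aeval_pi_apply {σ X : Type*} (F : σ → X → ℂ) (P : MvPolynomial σ ℂ) (x : X) :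
    (MvPolynomial.aeval F P) x = MvPolynomial.aeval (fun v => F v x) P :=
  MvPolynomial.comp_aeval_apply (f := F) (Pi.evalAlgHom ℂ (fun _ : X => ℂ) x) P

theorem aeval_Fvar_smul_of_mem (P : MvPolynomial (Var N) ℂ) (h : SL(2, ℤ))
    (hh : h ∈ CongruenceSubgroup.Gamma0 N) (τ : ℍ) :
    (MvPolynomial.aeval (Fvar (N := N)) P) (h • τ) = (MvPolynomial.aeval (Fvar (N := N)) P) τ := by
  rw [aeval_pi_apply, aeval_pi_apply]
  have : (fun v : Var N => Fvar v (h • τ)) = fun v => Fvar v τ := by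
    funext v
    exact Fvar_smul_of_mem v h hh τ
  rw [this]

theorem aeval_comp_gam (P : MvPolynomial (Var N) ℂ) (γ : SL(2, ℤ)) (τ : ℍ) :
    (MvPolynomial.aeval (fun (v : Var N) (τ : ℍ) => Fvar v (γ • τ)) P) τ =
      (MvPolynomial.aeval (Fvar (N := N)) P) (γ • τ) := by
  rw [aeval_pi_apply, aeval_pi_apply]

omit [NeZero N] in
theorem exists_gam_smul (q : Cos N) (γ : SL(2, ℤ)) :
    ∃ h ∈ CongruenceSubgroup.Gamma0 N, gam N (γ⁻¹ • q) = h * (gam N q * γ) := by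
  have hq : γ⁻¹ • q = QuotientGroup.mk (γ⁻¹ * Quotient.out q) := by
    conv_lhs => rw [← QuotientGroup.out_eq' q]
    rfl
  obtain ⟨h, hh⟩ := QuotientGroup.mk_out_eq_mul (CongruenceSubgroup.Gamma0 N)
    (γ⁻¹ * Quotient.out q)
  refine ⟨(h : SL(2, ℤ))⁻¹, inv_mem h.2, ?_⟩
  rw [gam, gam, hq, hh]
  group

omit [NeZero N] in
theorem sum_gam_invariant [Fintype (Cos N)] (Φ : ℍ → ℂ)
    (hΦ : ∀ h ∈ CongruenceSubgroup.Gamma0 N, ∀ τ : ℍ, Φ (h • τ) = Φ τ) (γ : SL(2, ℤ)) (τ : ℍ) :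
    ∑ q : Cos N, Φ (gam N q • γ • τ) = ∑ q : Cos N, Φ (gam N q • τ) := by
  rw [← Equiv.sum_comp (MulAction.toPerm (γ⁻¹ : SL(2, ℤ)) : Equiv.Perm (Cos N))
    (fun q => Φ (gam N q • τ))]
  refine Finset.sum_congr rfl fun q _ => ?_
  obtain ⟨h, hh, e⟩ := exists_gam_smul q γ
  rw [MulAction.toPerm_apply, e, mul_smul, hΦ h hh, mul_smul]

/-- growth bound from boundedness after multiplication by a power of `q`. -/
theorem isBigO_of_bdd (g : ℍ → ℂ) (m : ℕ)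
    (hb : IsBoundedAtImInfty (fun τ => g τ * qPar 1 τ ^ m)) :
    g =O[atImInfty] fun τ : ℍ => Real.exp (2 * Real.pi * m * τ.im) := by
  rw [IsBoundedAtImInfty, Filter.BoundedAtFilter, Asymptotics.isBigO_iff] at hb
  obtain ⟨c, hc⟩ := hb
  rw [Asymptotics.isBigO_iff]
  refine ⟨c, hc.mono fun τ hτ => ?_⟩
  have hq : ‖qPar 1 τ‖ = Real.exp (-2 * Real.pi * τ.im) := by
    rw [qPar, Function.Periodic.norm_qParam]; simp
  rw [norm_mul, norm_pow, hq, ← Real.exp_nat_mul] at hτ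
  simp only [Pi.one_apply, norm_one, mul_one] at hτ
  rw [Real.norm_eq_abs, abs_of_pos (Real.exp_pos _)]
  have h1 : Real.exp (2 * Real.pi * m * τ.im) * Real.exp (m * (-2 * Real.pi * τ.im)) = 1 := by
    rw [← Real.exp_add]
    have : 2 * Real.pi * m * τ.im + m * (-2 * Real.pi * τ.im) = 0 := by ring
    rw [this, Real.exp_zero]
  calc ‖g τ‖ = ‖g τ‖ * Real.exp (m * (-2 * Real.pi * τ.im)) * Real.exp (2 * Real.pi * m * τ.im) := by
        rw [mul_assoc, mul_comm (Real.exp (m * _)), h1, mul_one]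
    _ ≤ c * Real.exp (2 * Real.pi * m * τ.im) :=
        mul_le_mul_of_nonneg_right hτ (Real.exp_pos _).le

variable (N)

theorem conjData_isAnalytic : (conjData N).IsAnalytic where
  trace P := by
    set g : ℍ → ℂ := ∑ q : (conjData N).ι,
      MvPolynomial.aeval (fun (v : Var N) (τ : ℍ) => Fvar v (gam N q • τ)) P with hgdef
    have hg : HasLExp N g
        (∑ q, MvPolynomial.aeval (expn (conjData N) (zetaC N) ((N : ℂ)⁻¹) q) P) :=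
      HasLExp.sum Finset.univ fun q _ => HasLExp.aeval (hasLExp_Fvar q) P
    have hgval : ∀ τ, g τ = ∑ q : (conjData N).ι,
        (MvPolynomial.aeval (Fvar (N := N)) P) (gam N q • τ) := fun τ => by
      rw [hgdef, Finset.sum_apply]
      exact Finset.sum_congr rfl fun q _ => aeval_comp_gam P _ τ
    have hinv : ∀ (γ : SL(2, ℤ)) (τ : ℍ), g (γ • τ) = g τ := fun γ τ => by
      rw [hgval, hgval]
      exact @sum_gam_invariant N (conjData N).fintype _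
        (fun h hh τ => aeval_Fvar_smul_of_mem P h hh τ) γ τ
    obtain ⟨m, hm⟩ := hg.bdd
    obtain ⟨T, -, hT⟩ := Fermat.Agent.S24.JInvariant.exists_poly_of_invariant g m hg.mdiff hinv
      (Fermat.Agent.S24.JInvariant.isBoundedAtImInfty_mul_discriminant_pow g m
        (isBigO_of_bdd g m hm))
    refine ⟨T, ?_⟩
    have h2 : HasLExp N g (Polynomial.aeval (jt N ℂ) T) := by
      have := (hasLExp_lift (N := N) hasLExp_Jfun).polyEval T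
      have e : g = fun τ => T.eval (Jfun τ) := funext hT
      rw [e]
      exact this
    exact hg.unique h2
  ker P s s' h := by
    have h0 : HasLExp N (fun _ => (0 : ℂ)) 0 := by
      simpa using HasLExp.const N 0
    have hs : HasLExp N (MvPolynomial.aeval (fun (v : Var N) (τ : ℍ) => Fvar v (gam N s • τ)) P)
        (MvPolynomial.aeval (expn (conjData N) (zetaC N) ((N : ℂ)⁻¹) s) P) :=
      HasLExp.aeval (hasLExp_Fvar s) P
    have hs' : HasLExp N (MvPolynomial.aeval (fun (v : Var N) (τ : ℍ) => Fvar v (gam N s' • τ)) P)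
        (MvPolynomial.aeval (expn (conjData N) (zetaC N) ((N : ℂ)⁻¹) s') P) :=
      HasLExp.aeval (hasLExp_Fvar s') P
    rw [h] at hs
    have e := hs.eq_of_eq h0
    have hΦ : ∀ τ, (MvPolynomial.aeval (Fvar (N := N)) P) τ = 0 := fun τ => by
      have := congrFun e ((gam N s)⁻¹ • τ)
      rwa [aeval_comp_gam, smul_inv_smul] at this
    have e' : MvPolynomial.aeval (fun (v : Var N) (τ : ℍ) => Fvar v (gam N s' • τ)) P =
        fun _ => (0 : ℂ) := by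
      funext τ
      rw [aeval_comp_gam, hΦ]
    rw [e'] at hs'
    exact hs'.unique h0

end Analytic

theorem exists_conjData (N : ℕ) [NeZero N] : ∃ D : ConjData N, D.IsAnalytic :=
  ⟨Analytic.conjData N, Analytic.conjData_isAnalytic N⟩

end Fermat.Agent.S28T
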