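import Mathlib
import Fermat.Agent.S28T.AnDefs

set_option autoImplicit false

noncomputable section

namespace Fermat.Agent.S28T

open ModularCurve HahnSeries UpperHalfPlane Function
open scoped MatrixGroups Manifold

namespace Artin

section Low

variable {R : Type*} [CommRing R]

/-- all coefficients of exponent `< a` vanish -/
def Low (a : ℤ) (f : LaurentSeries R) : Prop := ∀ n : ℤ, n < a → f.coeff n = 0

theorem Low.mono {a b : ℤ} {f : LaurentSeries R} (hf : Low b f) (hab : a ≤ b) : Low a f :=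
  fun n hn => hf n (lt_of_lt_of_le hn hab)

theorem exists_low (f : LaurentSeries R) : ∃ a : ℤ, Low a f :=
  ⟨f.order, fun _ hn => HahnSeries.coeff_eq_zero_of_lt_order hn⟩

theorem low_zero (a : ℤ) : Low a (0 : LaurentSeries R) := fun _ _ => rfl

theorem Low.add {a : ℤ} {f g : LaurentSeries R} (hf : Low a f) (hg : Low a g) : Low a (f + g) :=
  fun n hn => by rw [HahnSeries.coeff_add, hf n hn, hg n hn, add_zero]

theorem Low.sum {ι : Type*} {a : ℤ} (s : Finset ι) {f : ι → LaurentSeries R}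
    (hf : ∀ i ∈ s, Low a (f i)) : Low a (∑ i ∈ s, f i) := fun n hn => by
  rw [HahnSeries.coeff_sum]
  exact Finset.sum_eq_zero fun i hi => hf i hi n hn

theorem Low.mul {a b : ℤ} {f g : LaurentSeries R} (hf : Low a f) (hg : Low b g) :
    Low (a + b) (f * g) := fun n hn => by
  rw [HahnSeries.coeff_mul]
  refine Finset.sum_eq_zero fun ij hij => ?_
  rw [Finset.mem_antidiagonal] at hij
  obtain ⟨h1, h2, h3⟩ := hij
  exfalso
  have h1' : a ≤ ij.1 := by
    by_contra hlt
    exact h1 (hf _ (not_le.mp hlt))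
  have h2' : b ≤ ij.2 := by
    by_contra hlt
    exact h2 (hg _ (not_le.mp hlt))
  omega

theorem Low.coeff_mul {a b : ℤ} {f g : LaurentSeries R} (hf : Low a f) (hg : Low b g) :
    (f * g).coeff (a + b) = f.coeff a * g.coeff b := by
  rw [HahnSeries.coeff_mul]
  rw [Finset.sum_eq_single (a, b)]
  · intro ij hij hne
    rw [Finset.mem_antidiagonal] at hij
    obtain ⟨h1, h2, h3⟩ := hij
    exfalso
    have h1' : a ≤ ij.1 := by
      by_contra hlt
      exact h1 (hf _ (not_le.mp hlt))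
    have h2' : b ≤ ij.2 := by
      by_contra hlt
      exact h2 (hg _ (not_le.mp hlt))
    apply hne
    ext <;> simp <;> omega
  · intro hnot
    rw [Finset.mem_antidiagonal] at hnot
    by_cases h1 : f.coeff a = 0
    · simp [h1]
    · by_cases h2 : g.coeff b = 0
      · simp [h2]
      · exact absurd ⟨h1, h2, rfl⟩ hnot

theorem low_one : Low 0 (1 : LaurentSeries R) := fun n hn => by
  rw [HahnSeries.coeff_one, if_neg hn.ne]

theorem Low.pow {a : ℤ} {f : LaurentSeries R} (hf : Low a f) (n : ℕ) : Low (n * a) (f ^ n) := by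
  induction n with
  | zero => simpa using low_one
  | succ n ih =>
    rw [pow_succ]
    have := ih.mul hf
    convert this using 1
    push_cast
    ring

theorem Low.coeff_pow {a : ℤ} {f : LaurentSeries R} (hf : Low a f) (n : ℕ) :
    (f ^ n).coeff (n * a) = f.coeff a ^ n := by
  induction n with
  | zero => simp
  | succ n ih =>
    rw [pow_succ, pow_succ, ← ih, ← (hf.pow n).coeff_mul hf]
    congr 1
    push_cast
    ring

theorem algebraMap_eq_C (a : R) : algebraMap R (LaurentSeries R) a = HahnSeries.C a := by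
  rw [HahnSeries.algebraMap_apply']
  simp

theorem coeff_alg_smul (a : R) (f : LaurentSeries R) (n : ℤ) :
    (a • f).coeff n = a * f.coeff n := by
  simp

/-- the coefficient of exponent `-κ deg T` of `T(j)` is the leading coefficient of `T` -/
theorem coeff_aeval_top (j : LaurentSeries R) (κ : ℕ) (hκ : 0 < κ)
    (hj0 : j.coeff (-(κ : ℤ)) = 1) (hj1 : Low (-(κ : ℤ)) j) (T : Polynomial R) :
    (Polynomial.aeval j T).coeff ((T.natDegree : ℤ) * (-(κ : ℤ))) = T.leadingCoeff := by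
  rw [Polynomial.aeval_eq_sum_range]
  simp only [Algebra.smul_def, algebraMap_eq_C, HahnSeries.C_mul_eq_smul]
  rw [HahnSeries.coeff_sum, Finset.sum_range_succ,
    Finset.sum_eq_zero, zero_add, HahnSeries.coeff_smul, hj1.coeff_pow, hj0, one_pow, smul_eq_mul,
    mul_one, Polynomial.leadingCoeff]
  intro i hi
  rw [Finset.mem_range] at hi
  rw [HahnSeries.coeff_smul, hj1.pow i _ ?_, smul_zero]
  have h1 : (i : ℤ) < T.natDegree := by exact_mod_cast hi
  have h2 : (0 : ℤ) < κ := by exact_mod_cast hκ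
  nlinarith

theorem eq_zero_of_low_aeval (j : LaurentSeries R) (κ : ℕ) (hκ : 0 < κ)
    (hj0 : j.coeff (-(κ : ℤ)) = 1) (hj1 : Low (-(κ : ℤ)) j) (T : Polynomial R)
    (hT : Low 1 (Polynomial.aeval j T)) : T = 0 := by
  rw [← Polynomial.leadingCoeff_eq_zero, ← coeff_aeval_top j κ hκ hj0 hj1 T]
  apply hT
  have h1 : (0 : ℤ) ≤ T.natDegree := by positivity
  have h2 : (0 : ℤ) < κ := by exact_mod_cast hκ
  nlinarith

theorem coeffMap_aeval {S : Type*} [CommRing S] (f : R →+* S) (j : LaurentSeries R)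
    (T : Polynomial R) :
    coeffMap f (Polynomial.aeval j T) = Polynomial.aeval (coeffMap f j) (T.map f) := by
  rw [Polynomial.aeval_def, Polynomial.aeval_def, Polynomial.hom_eval₂, Polynomial.eval₂_map]
  congr 1
  ext a : 1
  simp only [RingHom.comp_apply, algebraMap_eq_C]
  exact coeffMap_single f 0 a

theorem C_dvd_iff (r : R) (f : LaurentSeries R) :
    (HahnSeries.C r : LaurentSeries R) ∣ f ↔ ∀ n : ℤ, r ∣ f.coeff n := by
  classical
  constructor
  · rintro ⟨g, rfl⟩ n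
    rw [HahnSeries.C_mul_eq_smul, HahnSeries.coeff_smul]
    exact ⟨_, rfl⟩
  · intro h
    choose c hc using h
    refine ⟨⟨fun n => if f.coeff n = 0 then 0 else c n, f.isPWO_support.mono ?_⟩, ?_⟩
    · intro n hn
      simp only [Function.mem_support, ne_eq, ite_eq_left_iff, not_forall] at hn
      exact hn.1
    · ext n
      rw [HahnSeries.C_mul_eq_smul, HahnSeries.coeff_smul]
      simp only [smul_eq_mul]
      split_ifs with h0
      · rw [h0, mul_zero]
      · exact hc n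

end Low

section Core

open Classical in
theorem artin_core {ι B L : Type*} [Fintype ι] [CommRing B] [CommRing L] [IsDomain L]
    (χ : ι → B →+* L) (hdist : ∀ s s', s ≠ s' → ∃ b, χ s b ≠ χ s' b) (h : B) :
    ∀ (N : ℕ) (c : ι → L), (Finset.univ.filter fun s => c s ≠ 0).card ≤ N →
      (∀ s, c s ≠ 0 → χ s h ≠ 0) →
      (∀ b, ∃ n0 : ℕ, ∀ n, n0 ≤ n → ∑ s, c s * χ s (b * h ^ n) = 0) → ∀ s, c s = 0 := by
  classical
  intro N
  induction N with
  | zero =>
    intro c hcard _ _ s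
    by_contra hs
    have hmem : s ∈ Finset.univ.filter fun s => c s ≠ 0 := by simp [hs]
    have := Finset.card_pos.mpr ⟨s, hmem⟩
    omega
  | succ N ih =>
    intro c hcard hh hrel
    by_contra hne
    push Not at hne
    obtain ⟨s1, hs1⟩ := hne
    have key : ∀ b s, c s * (χ s b - χ s1 b) = 0 := by
      intro b
      apply ih (fun s => c s * (χ s b - χ s1 b))
      · have hsub : (Finset.univ.filter fun s => c s * (χ s b - χ s1 b) ≠ 0) ⊆
            (Finset.univ.filter fun s => c s ≠ 0).erase s1 := by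
          intro s hs
          simp only [Finset.mem_filter, Finset.mem_univ, true_and] at hs
          simp only [Finset.mem_erase, Finset.mem_filter, Finset.mem_univ, true_and]
          refine ⟨?_, left_ne_zero_of_mul hs⟩
          rintro rfl
          simp at hs
        have h1 := Finset.card_le_card hsub
        rw [Finset.card_erase_of_mem (by simp [hs1])] at h1
        omega
      · intro s hs
        exact hh s (left_ne_zero_of_mul hs)
      · intro b'
        obtain ⟨n1, hn1⟩ := hrel (b * b')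
        obtain ⟨n2, hn2⟩ := hrel b'
        refine ⟨max n1 n2, fun n hn => ?_⟩
        have e1 := hn1 n (le_trans (le_max_left _ _) hn)
        have e2 := hn2 n (le_trans (le_max_right _ _) hn)
        have e3 : ∑ s, c s * (χ s b - χ s1 b) * χ s (b' * h ^ n) =
            ∑ s, c s * χ s (b * b' * h ^ n) - χ s1 b * ∑ s, c s * χ s (b' * h ^ n) := by
          rw [Finset.mul_sum, ← Finset.sum_sub_distrib]
          refine Finset.sum_congr rfl fun s _ => ?_
          rw [mul_assoc b, map_mul (χ s) b]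
          ring
        rw [e3, e1, e2]
        simp
    have hz : ∀ s, s ≠ s1 → c s = 0 := by
      intro s hs
      obtain ⟨b, hb⟩ := hdist s s1 hs
      rcases mul_eq_zero.mp (key b s) with h0 | h0
      · exact h0
      · exact absurd (sub_eq_zero.mp h0) hb
    obtain ⟨n0, hn0⟩ := hrel 1
    have e := hn0 n0 le_rfl
    rw [Finset.sum_eq_single s1 (fun s _ hs => by rw [hz s hs, zero_mul])
      (fun h => absurd (Finset.mem_univ _) h), one_mul, map_pow] at e
    exact mul_ne_zero hs1 (pow_ne_zero _ (hh s1 hs1)) e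

end Core

section Main

variable {𝒪 : Type*} [CommRing 𝒪]

/-- reduction of the coefficients modulo `π` -/
def red (π : 𝒪) : LaurentSeries 𝒪 →+* LaurentSeries (𝒪 ⧸ Ideal.span {π}) :=
  coeffMap (Ideal.Quotient.mk _)

theorem red_coeff_eq_zero_iff (π : 𝒪) (f : LaurentSeries 𝒪) (n : ℤ) :
    (red π f).coeff n = 0 ↔ π ∣ f.coeff n := by
  rw [red, coeffMap_coeff, Ideal.Quotient.eq_zero_iff_mem, Ideal.mem_span_singleton]

theorem red_eq_zero_iff (π : 𝒪) (f : LaurentSeries 𝒪) :
    red π f = 0 ↔ (HahnSeries.C π : LaurentSeries 𝒪) ∣ f := by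
  rw [C_dvd_iff]
  constructor
  · intro h n
    rw [← red_coeff_eq_zero_iff, h]
    rfl
  · intro h
    ext n
    rw [(red_coeff_eq_zero_iff π f n).mpr (h n)]
    rfl

theorem C_dvd_of_dvd_aeval (π : 𝒪) (j : LaurentSeries 𝒪) (κ : ℕ) (hκ : 0 < κ)
    (hj0 : j.coeff (-(κ : ℤ)) = 1) (hj1 : ∀ n : ℤ, n < -(κ : ℤ) → j.coeff n = 0)
    (T : Polynomial 𝒪) (h : (HahnSeries.C π : LaurentSeries 𝒪) ∣ Polynomial.aeval j T) :
    Polynomial.C π ∣ T := by
  rw [← red_eq_zero_iff, red, coeffMap_aeval] at h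
  have h0 := eq_zero_of_low_aeval (coeffMap (Ideal.Quotient.mk (Ideal.span {π})) j) κ hκ
    (by simp [hj0]) (fun n hn => by simp [hj1 n hn]) _ (by rw [h]; exact low_zero 1)
  rw [Polynomial.C_dvd_iff_dvd_coeff]
  intro n
  have h1 := congrArg (fun p => p.coeff n) h0
  simp only [Polynomial.coeff_map, Polynomial.coeff_zero] at h1
  rwa [Ideal.Quotient.eq_zero_iff_mem, Ideal.mem_span_singleton] at h1

variable {π : 𝒪}

theorem prime_C (hπ : Prime π) : Prime (HahnSeries.C π : LaurentSeries 𝒪) := by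
  have : (Ideal.span {π}).IsPrime := (Ideal.span_singleton_prime hπ.ne_zero).mpr hπ
  refine ⟨HahnSeries.C_ne_zero hπ.ne_zero, ?_, ?_⟩
  · intro hu
    have h1 : (HahnSeries.C π : LaurentSeries 𝒪) ∣ 1 := hu.dvd
    rw [← red_eq_zero_iff, map_one] at h1
    exact one_ne_zero h1
  · intro a b hab
    rw [← red_eq_zero_iff, map_mul] at hab
    rw [← red_eq_zero_iff, ← red_eq_zero_iff]
    exact mul_eq_zero.mp hab

variable [IsDomain 𝒪] {ι : Type*} [Fintype ι] {B : Type*} [CommRing B]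

/-- the trace hypothesis -/
def HX (σ : ι → B →+* LaurentSeries 𝒪) (j : LaurentSeries 𝒪) (w : ι → LaurentSeries 𝒪) : Prop :=
  ∀ b : B, ∃ T : Polynomial 𝒪, ∑ s, w s * σ s b = Polynomial.aeval j T

theorem HX.div (hπ : Prime π) {σ : ι → B →+* LaurentSeries 𝒪} {j : LaurentSeries 𝒪} (κ : ℕ)
    (hκ : 0 < κ) (hj0 : j.coeff (-(κ : ℤ)) = 1) (hj1 : ∀ n : ℤ, n < -(κ : ℤ) → j.coeff n = 0)
    {y : ι → LaurentSeries 𝒪} (hw : HX σ j (fun s => HahnSeries.C π * y s)) : HX σ j y := by
  intro b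
  obtain ⟨T, hT⟩ := hw b
  have h1 : (HahnSeries.C π : LaurentSeries 𝒪) ∣ Polynomial.aeval j T := by
    rw [← hT]
    exact Finset.dvd_sum fun s _ => ⟨y s * σ s b, by ring⟩
  obtain ⟨T', rfl⟩ := C_dvd_of_dvd_aeval π j κ hκ hj0 hj1 T h1
  refine ⟨T', ?_⟩
  have hne : (HahnSeries.C π : LaurentSeries 𝒪) ≠ 0 := HahnSeries.C_ne_zero hπ.ne_zero
  apply mul_left_cancel₀ hne
  rw [map_mul, Polynomial.aeval_C, algebraMap_eq_C] at hT
  rw [Finset.mul_sum, ← hT]
  exact Finset.sum_congr rfl fun s _ => by ring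

omit [IsDomain 𝒪] in
theorem one_step (hπ : Prime π) (inf : ι) (σ : ι → B →+* LaurentSeries 𝒪)
    (j : LaurentSeries 𝒪) (κ : ℕ) (hκ : 0 < κ) (hj0 : j.coeff (-(κ : ℤ)) = 1)
    (hj1 : ∀ n : ℤ, n < -(κ : ℤ) → j.coeff n = 0)
    (hdist : ∀ s s', s ≠ s' → ∃ (b : B) (n : ℤ), ¬ π ∣ (σ s b - σ s' b).coeff n)
    (h : B) (hh0 : ∀ s, s ≠ inf → ∀ n : ℤ, n ≤ 0 → π ∣ (σ s h).coeff n)
    (hh1 : ∀ s, s ≠ inf → ∃ n : ℤ, ¬ π ∣ (σ s h).coeff n)
    (w : ι → LaurentSeries 𝒪) (hw : HX σ j w)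
    (hinf : (HahnSeries.C π : LaurentSeries 𝒪) ∣ w inf) (s : ι) :
    (HahnSeries.C π : LaurentSeries 𝒪) ∣ w s := by
  have : (Ideal.span {π}).IsPrime := (Ideal.span_singleton_prime hπ.ne_zero).mpr hπ
  rw [← red_eq_zero_iff]
  revert s
  apply artin_core (fun s => (red π).comp (σ s)) ?_ h (Fintype.card ι) (fun s => red π (w s))
    (Finset.card_le_univ _) ?_ ?_
  · intro s s' hne
    obtain ⟨b, n, hbn⟩ := hdist s s' hne
    refine ⟨b, fun heq => hbn ?_⟩
    have h0 : red π (σ s b - σ s' b) = 0 := by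
      rw [map_sub]
      exact sub_eq_zero.mpr heq
    rw [red_eq_zero_iff, C_dvd_iff] at h0
    exact h0 n
  · intro s hs
    have hsinf : s ≠ inf := by
      rintro rfl
      exact hs ((red_eq_zero_iff _ _).mpr hinf)
    obtain ⟨n, hn⟩ := hh1 s hsinf
    intro h0
    rw [RingHom.comp_apply, red_eq_zero_iff, C_dvd_iff] at h0
    exact hn (h0 n)
  · intro b
    choose a ha using fun s => exists_low (red π (w s) * red π (σ s b))
    refine ⟨Finset.univ.sup fun s => (1 - a s).toNat, fun n hn => ?_⟩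
    obtain ⟨T, hT⟩ := hw (b * h ^ n)
    have hT' := congrArg (red π) hT
    rw [map_sum] at hT'
    simp only [map_mul (red π)] at hT'
    have hlow : Low 1 (∑ s, red π (w s) * red π (σ s (b * h ^ n))) := by
      apply Low.sum
      intro s _
      by_cases hs : s = inf
      · subst hs
        rw [(red_eq_zero_iff _ _).mpr hinf, zero_mul]
        exact low_zero 1
      · rw [map_mul (σ s), map_mul, map_pow, map_pow, ← mul_assoc]
        have h1 : Low 1 (red π (σ s h)) := fun i hi =>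
          (red_coeff_eq_zero_iff _ _ _).mpr (hh0 s hs i (by omega))
        refine ((ha s).mul (h1.pow n)).mono ?_
        have h2 : (1 - a s).toNat ≤ n :=
          le_trans (Finset.le_sup (f := fun s => (1 - a s).toNat) (Finset.mem_univ s)) hn
        omega
    have hT0 : T.map (Ideal.Quotient.mk (Ideal.span {π})) = 0 := by
      refine eq_zero_of_low_aeval (coeffMap (Ideal.Quotient.mk (Ideal.span {π})) j) κ hκ
        (by simp [hj0]) (fun n hn => by simp [hj1 n hn]) _ ?_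
      rw [← coeffMap_aeval]
      rw [hT'] at hlow
      exact hlow
    simp only [RingHom.comp_apply]
    rw [hT', red, coeffMap_aeval, hT0, map_zero]

theorem pow_step (hπ : Prime π) (inf : ι) (σ : ι → B →+* LaurentSeries 𝒪)
    (j : LaurentSeries 𝒪) (κ : ℕ) (hκ : 0 < κ) (hj0 : j.coeff (-(κ : ℤ)) = 1)
    (hj1 : ∀ n : ℤ, n < -(κ : ℤ) → j.coeff n = 0)
    (hdist : ∀ s s', s ≠ s' → ∃ (b : B) (n : ℤ), ¬ π ∣ (σ s b - σ s' b).coeff n)
    (h : B) (hh0 : ∀ s, s ≠ inf → ∀ n : ℤ, n ≤ 0 → π ∣ (σ s h).coeff n)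
    (hh1 : ∀ s, s ≠ inf → ∃ n : ℤ, ¬ π ∣ (σ s h).coeff n) (a : ℕ) :
    ∀ (w : ι → LaurentSeries 𝒪), HX σ j w →
      (HahnSeries.C π : LaurentSeries 𝒪) ^ a ∣ w inf →
      ∀ s, (HahnSeries.C π : LaurentSeries 𝒪) ^ a ∣ w s := by
  have hne : (HahnSeries.C π : LaurentSeries 𝒪) ≠ 0 := HahnSeries.C_ne_zero hπ.ne_zero
  induction a with
  | zero => intro w _ _ s; simp
  | succ a ih =>
    intro w hw hinf
    have h1 : ∀ s, (HahnSeries.C π : LaurentSeries 𝒪) ∣ w s :=
      one_step hπ inf σ j κ hκ hj0 hj1 hdist h hh0 hh1 w hw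
        (dvd_trans (dvd_pow_self _ (Nat.succ_ne_zero a)) hinf)
    choose y hy using h1
    have hwy : w = fun s => HahnSeries.C π * y s := funext hy
    rw [hwy] at hw
    have hy' := hw.div hπ κ hκ hj0 hj1
    have h2 : (HahnSeries.C π : LaurentSeries 𝒪) ^ a ∣ y inf := by
      rw [hy inf, pow_succ'] at hinf
      exact (mul_dvd_mul_iff_left hne).mp hinf
    intro s
    rw [hy s, pow_succ']
    exact mul_dvd_mul_left _ (ih y hy' h2 s)

end Main

end Artin

theorem artin_qep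
    {𝒪 : Type*} [CommRing 𝒪] [IsDomain 𝒪] [UniqueFactorizationMonoid 𝒪] {π : 𝒪} (hπ : Prime π)
    {ι : Type*} [Fintype ι] (inf : ι)
    {B : Type*} [CommRing B] (σ : ι → B →+* LaurentSeries 𝒪)
    (j : LaurentSeries 𝒪) (κ : ℕ) (hκ : 0 < κ) (hj0 : j.coeff (-(κ : ℤ)) = 1)
    (hj1 : ∀ n : ℤ, n < -(κ : ℤ) → j.coeff n = 0)
    (hdist : ∀ s s', s ≠ s' → ∃ (b : B) (n : ℤ), ¬ π ∣ (σ s b - σ s' b).coeff n)
    (h : B) (hh0 : ∀ s, s ≠ inf → ∀ n : ℤ, n ≤ 0 → π ∣ (σ s h).coeff n)
    (hh1 : ∀ s, s ≠ inf → ∃ n : ℤ, ¬ π ∣ (σ s h).coeff n)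
    (x : ι → LaurentSeries 𝒪) (δ : Polynomial 𝒪) (hδ : δ ≠ 0)
    (hx : ∀ b : B, ∃ T : Polynomial 𝒪,
      ∑ s, Polynomial.aeval j δ * x s * σ s b = Polynomial.aeval j T)
    (m : ℕ) (hinf : ∀ n : ℤ, π ^ m ∣ (x inf).coeff n) :
    ∀ (s : ι) (n : ℤ), π ^ m ∣ (x s).coeff n := by
  have hCπ : Prime (Polynomial.C π) := Polynomial.prime_C_iff.mpr hπ
  obtain ⟨a, δ', hδ', rfl⟩ := WfDvdMonoid.max_power_factor hδ hCπ.irreducible
  have hP : Prime (HahnSeries.C π : LaurentSeries 𝒪) := Artin.prime_C hπ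
  have hδj : Polynomial.aeval j (Polynomial.C π ^ a * δ') =
      (HahnSeries.C π : LaurentSeries 𝒪) ^ a * Polynomial.aeval j δ' := by
    rw [map_mul, map_pow, Polynomial.aeval_C, Artin.algebraMap_eq_C]
  have hnd : ¬ (HahnSeries.C π : LaurentSeries 𝒪) ∣ Polynomial.aeval j δ' := fun hd =>
    hδ' (Artin.C_dvd_of_dvd_aeval π j κ hκ hj0 hj1 δ' hd)
  have hinf' : (HahnSeries.C π : LaurentSeries 𝒪) ^ m ∣ x inf := by
    rw [← map_pow, Artin.C_dvd_iff]
    exact hinf
  have hall := Artin.pow_step hπ inf σ j κ hκ hj0 hj1 hdist h hh0 hh1 (a + m)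
    (fun s => Polynomial.aeval j (Polynomial.C π ^ a * δ') * x s) hx (by
      rw [hδj, _root_.pow_add, mul_assoc]
      exact mul_dvd_mul_left _ (Dvd.dvd.mul_left hinf' _))
  intro s n
  have h1 := hall s
  rw [hδj, _root_.pow_add, mul_assoc] at h1
  have h2 := (mul_dvd_mul_iff_left (pow_ne_zero a hP.ne_zero)).mp h1
  have h3 := hP.pow_dvd_of_dvd_mul_left m hnd h2
  rw [← map_pow, Artin.C_dvd_iff] at h3
  exact h3 n

end Fermat.Agent.S28T
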