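import Mathlib
import Fermat.Agent.S28T.Defs

set_option autoImplicit false

noncomputable section

namespace Fermat.Agent.S28T

open ModularCurve

/-- Transfer of integrality along ring homomorphisms into a common ring. -/
theorem isIntegralElem_transfer {AX X AY Y Z : Type*} [CommRing AX] [CommRing X] [CommRing AY]
    [CommRing Y] [CommRing Z] (iX : AX →+* X) (iY : AY →+* Y) (φ : X →+* Z) (ψ : Y →+* Z)
    (hψ : Function.Injective ψ) (hA : ∀ a : AX, ∃ a' : AY, ψ (iY a') = φ (iX a))
    {x : X} {y : Y} (hxy : φ x = ψ y) (hx : iX.IsIntegralElem x) : iY.IsIntegralElem y := by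
  obtain ⟨p, hp, hpx⟩ := hx
  have hl : p.map (φ.comp iX) ∈ Polynomial.lifts (ψ.comp iY) := by
    rw [Polynomial.lifts_iff_coeff_lifts]
    intro n
    obtain ⟨a', ha'⟩ := hA (p.coeff n)
    exact ⟨a', by rw [Polynomial.coeff_map]; exact ha'⟩
  obtain ⟨p', hp', -, hmon⟩ := Polynomial.lifts_and_natDegree_eq_and_monic hl (hp.map _)
  refine ⟨p', hmon, hψ ?_⟩
  rw [map_zero, Polynomial.hom_eval₂, ← hxy, Polynomial.eval₂_eq_eval_map, hp',
    ← Polynomial.eval₂_eq_eval_map, ← Polynomial.hom_eval₂, hpx, map_zero]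

/-- Coefficientwise divisibility gives divisibility by a constant. -/
theorem exists_eq_C_mul {A : Type*} [CommRing A] (c : A) (f : LaurentSeries A)
    (h : ∀ n : ℤ, c ∣ f.coeff n) : ∃ f' : LaurentSeries A, f = HahnSeries.C c * f' := by
  classical
  choose g hg using h
  refine ⟨⟨fun n => if f.coeff n = 0 then 0 else g n, f.isPWO_support.mono fun n hn => ?_⟩, ?_⟩
  · simp only [Function.mem_support, ne_eq, ite_eq_left_iff, not_forall] at hn
    exact hn.1
  · ext n
    rw [HahnSeries.C_mul_eq_smul, HahnSeries.coeff_smul, smul_eq_mul]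
    by_cases h0 : f.coeff n = 0
    · simp [h0]
    · simp only [h0, if_false]
      exact hg n

theorem coeffMap_injective' {A A' : Type*} [CommRing A] [CommRing A'] (φ : A →+* A')
    (hφ : Function.Injective φ) : Function.Injective (coeffMap φ) := by
  intro x y h
  ext n
  apply hφ
  have := congrArg (fun z => z.coeff n) h
  simpa using this

theorem coeffMap_C {A A' : Type*} [CommRing A] [CommRing A'] (φ : A →+* A') (c : A) :
    coeffMap φ (HahnSeries.C c) = HahnSeries.C (φ c) := by
  rw [HahnSeries.C_apply, HahnSeries.C_apply, coeffMap_single]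

theorem algebraMap_laurent {A : Type*} [CommRing A] (c : A) :
    algebraMap A (LaurentSeries A) c = HahnSeries.C c := by
  have h1 : algebraMap A (PowerSeries A) c = PowerSeries.C c := by
    simp
  rw [HahnSeries.algebraMap_apply', h1, HahnSeries.ofPowerSeries_C]

/-- Elementary symmetric functions of a finite family. -/
def es {ι Ω : Type*} [Fintype ι] [CommRing Ω] (y : ι → Ω) (i : ℕ) : Ω :=
  (Finset.univ.val.map y).esymm i

theorem es_eq_sum {ι Ω : Type*} [Fintype ι] [CommRing Ω] (y : ι → Ω) (i : ℕ) :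
    es y i = ∑ t ∈ Finset.univ.powersetCard i, ∏ s ∈ t, y s :=
  Finset.esymm_map_val y Finset.univ i

theorem map_es {ι Ω Ω' : Type*} [Fintype ι] [CommRing Ω] [CommRing Ω'] (φ : Ω →+* Ω')
    (y : ι → Ω) (i : ℕ) : φ (es y i) = es (fun s => φ (y s)) i := by
  rw [es_eq_sum, es_eq_sum, map_sum]
  exact Finset.sum_congr rfl fun t _ => map_prod φ _ _

theorem es_mul {ι Ω : Type*} [Fintype ι] [CommRing Ω] (c : Ω) (y : ι → Ω) (i : ℕ) :
    es (fun s => c * y s) i = c ^ i * es y i := by
  rw [es_eq_sum, es_eq_sum, Finset.mul_sum]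
  refine Finset.sum_congr rfl fun t ht => ?_
  rw [Finset.prod_mul_distrib, Finset.prod_const, (Finset.mem_powersetCard.mp ht).2]

theorem prod_X_sub_C_eq {ι Ω : Type*} [Fintype ι] [CommRing Ω] (y : ι → Ω) :
    ∏ s, (Polynomial.X - Polynomial.C (y s)) = ∑ j ∈ Finset.range (Fintype.card ι + 1),
      (-1) ^ j * (Polynomial.C (es y j) * Polynomial.X ^ (Fintype.card ι - j)) := by
  have h := Multiset.prod_X_sub_X_eq_sum_esymm (Finset.univ.val.map y)
  simp only [Multiset.map_map, Function.comp_def, Multiset.card_map, Finset.card_val,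
    Finset.card_univ] at h
  exact h

end Fermat.Agent.S28T
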