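import Mathlib
import Fermat.Agent.S28T.AnDefs

set_option autoImplicit false

noncomputable section

namespace Fermat.Agent.S28T

open ModularCurve HahnSeries UpperHalfPlane Function
open scoped MatrixGroups Manifold

/-- `A((t))` is integrally closed when `A` is a PID. -/
theorem intClosed_laurentSeries (A : Type*) [CommRing A] [IsDomain A] [IsPrincipalIdealRing A] :
    IsIntegrallyClosed (LaurentSeries A) :=
  isIntegrallyClosed_of_isLocalization (R := PowerSeries A) (LaurentSeries A)
    (Submonoid.powers (PowerSeries.X : PowerSeries A))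
    (Submonoid.powers_le.mpr (mem_nonZeroDivisors_of_ne_zero PowerSeries.X_ne_zero))

theorem intClosed_coeffMap_injective {A L : Type*} [CommRing A] [CommRing L] (φ : A →+* L)
    (hφ : Function.Injective φ) : Function.Injective (coeffMap φ) := by
  intro x y hxy
  ext n
  apply hφ
  have := congrArg (fun s => s.coeff n) hxy
  simpa using this

theorem laurent_mem_of_isIntegralElem {A : Type*} [CommRing A] [IsDomain A]
    [IsPrincipalIdealRing A] {L : Type*} [Field L] (φ : A →+* L) (hφ : Function.Injective φ)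
    (u : LaurentSeries L) (a b : LaurentSeries A) (hb : b ≠ 0)
    (hu : u * coeffMap φ b = coeffMap φ a)
    (hint : (coeffMap φ).IsIntegralElem u) : ∃ c : LaurentSeries A, coeffMap φ c = u := by
  haveI := intClosed_laurentSeries A
  have hinj := intClosed_coeffMap_injective φ hφ
  let K := FractionRing (LaurentSeries A)
  let g : K →+* LaurentSeries L := IsFractionRing.lift hinj
  have hg : ∀ x, g (algebraMap (LaurentSeries A) K x) = coeffMap φ x :=
    fun x => IsFractionRing.lift_algebraMap hinj x
  have hb' : algebraMap (LaurentSeries A) K b ≠ 0 := by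
    rw [Ne, IsFractionRing.to_map_eq_zero_iff]
    exact hb
  have hb'' : coeffMap φ b ≠ 0 := by
    rw [Ne, map_eq_zero_iff _ hinj]
    exact hb
  set w : K := algebraMap (LaurentSeries A) K a / algebraMap (LaurentSeries A) K b with hw
  have hgw : g w = u := by
    rw [hw, map_div₀, hg, hg, ← hu, mul_div_cancel_right₀ _ hb'']
  obtain ⟨p, hp, hpu⟩ := hint
  have hwint : IsIntegral (LaurentSeries A) w := by
    refine ⟨p, hp, ?_⟩
    apply g.injective
    rw [map_zero, Polynomial.hom_eval₂, hgw]
    have : g.comp (algebraMap (LaurentSeries A) K) = coeffMap φ := RingHom.ext hg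
    rw [this]
    exact hpu
  obtain ⟨c, hc⟩ := IsIntegrallyClosed.isIntegral_iff.mp hwint
  exact ⟨c, by rw [← hg, hc, hgw]⟩

theorem intClosed_coeff_mul_of_lt {A : Type*} [CommRing A] {x y : LaurentSeries A} {o o' : ℤ}
    (hx : ∀ k < o, x.coeff k = 0) (hy : ∀ k < o', y.coeff k = 0) :
    ∀ k < o + o', (x * y).coeff k = 0 := by
  intro k hk
  rw [HahnSeries.coeff_mul]
  refine Finset.sum_eq_zero ?_
  rintro ⟨i, j⟩ hij
  rw [Finset.mem_addAntidiagonal] at hij
  obtain ⟨-, -, hij⟩ := hij
  simp only at hij ⊢
  by_cases hi : i < o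
  · rw [hx i hi, zero_mul]
  · rw [hy j (by omega), mul_zero]

theorem intClosed_coeff_mul_add {A : Type*} [CommRing A] {x y : LaurentSeries A} {o o' : ℤ}
    (hx : ∀ k < o, x.coeff k = 0) (hy : ∀ k < o', y.coeff k = 0) :
    (x * y).coeff (o + o') = x.coeff o * y.coeff o' := by
  rw [HahnSeries.coeff_mul]
  rw [Finset.sum_eq_single (o, o')]
  · rintro ⟨i, j⟩ hij hne
    rw [Finset.mem_addAntidiagonal] at hij
    obtain ⟨-, -, hij⟩ := hij
    simp only at hij ⊢
    by_cases hi : i < o
    · rw [hx i hi, zero_mul]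
    · by_cases hj : j < o'
      · rw [hy j hj, mul_zero]
      · exfalso
        apply hne
        have h1 : i = o := by omega
        have h2 : j = o' := by omega
        rw [h1, h2]
  · intro h
    rw [Finset.mem_addAntidiagonal] at h
    simp only [HahnSeries.mem_support, ne_eq, and_true, not_and_or, not_not] at h
    rcases h with h | h
    · rw [h, zero_mul]
    · rw [h, mul_zero]

theorem intClosed_coeff_pow {A : Type*} [CommRing A] {x : LaurentSeries A} {o : ℤ}
    (hx : ∀ k < o, x.coeff k = 0) (n : ℕ) :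
    (∀ k < (n : ℤ) * o, (x ^ n).coeff k = 0) ∧ (x ^ n).coeff ((n : ℤ) * o) = x.coeff o ^ n := by
  induction n with
  | zero =>
      constructor
      · intro k hk
        rw [pow_zero, HahnSeries.coeff_one, if_neg]
        simp only [Nat.cast_zero, zero_mul] at hk
        omega
      · simp
  | succ n ih =>
      have e : ((n + 1 : ℕ) : ℤ) * o = (n : ℤ) * o + o := by push_cast; ring
      rw [e, pow_succ, pow_succ]
      exact ⟨intClosed_coeff_mul_of_lt ih.1 hx, by rw [intClosed_coeff_mul_add ih.1 hx, ih.2]⟩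

theorem laurent_nonneg_of_isIntegralElem {A : Type*} [CommRing A] [IsDomain A]
    (u : LaurentSeries A)
    (hint : (HahnSeries.ofPowerSeries ℤ A).IsIntegralElem u) : ∀ n : ℤ, n < 0 → u.coeff n = 0 := by
  by_contra hcon
  push_neg at hcon
  obtain ⟨n₀, hn₀, hne⟩ := hcon
  have hu0 : u ≠ 0 := by
    rintro rfl
    exact hne rfl
  set m : ℤ := u.order with hm
  have hm0 : m < 0 := lt_of_le_of_lt (HahnSeries.order_le_of_coeff_ne_zero hne) hn₀
  have hlow : ∀ k < m, u.coeff k = 0 := fun k hk => HahnSeries.coeff_eq_zero_of_lt_order hk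
  have hlead : u.coeff m ≠ 0 := fun h => hu0 (HahnSeries.coeff_order_eq_zero.mp h)
  obtain ⟨p, hp, hpu⟩ := hint
  set d := p.natDegree with hd
  rw [Polynomial.eval₂_eq_sum_range, Finset.sum_range_succ] at hpu
  have h1 := congrArg (fun s => s.coeff ((d : ℤ) * m)) hpu
  simp only [HahnSeries.coeff_add, HahnSeries.coeff_zero, HahnSeries.coeff_sum] at h1
  have h2 : ∑ i ∈ Finset.range d,
      ((HahnSeries.ofPowerSeries ℤ A) (p.coeff i) * u ^ i).coeff ((d : ℤ) * m) = 0 := by
    refine Finset.sum_eq_zero ?_
    intro i hi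
    rw [Finset.mem_range] at hi
    have hps : ∀ k < (0 : ℤ), ((HahnSeries.ofPowerSeries ℤ A) (p.coeff i)).coeff k = 0 := by
      intro k hk
      have := PowerSeries.coeff_coe (p.coeff i) k
      rw [if_pos hk] at this
      exact this
    refine intClosed_coeff_mul_of_lt hps (intClosed_coeff_pow hlow i).1 _ ?_
    rw [zero_add]
    have : (i : ℤ) < d := by exact_mod_cast hi
    nlinarith
  rw [h2, zero_add, hd, hp.coeff_natDegree, map_one, one_mul, ← hd,
    (intClosed_coeff_pow hlow d).2] at h1
  exact pow_ne_zero d hlead h1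

end Fermat.Agent.S28T
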