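import Mathlib
import Fermat.Agent.S28T.AnDefs
import Fermat.Agent.S28T.IntClosed

set_option autoImplicit false

noncomputable section

namespace Fermat.Agent.S28T

open ModularCurve HahnSeries UpperHalfPlane Function
open scoped MatrixGroups Manifold

section Aux

open Polynomial

variable {R : Type*} [CommRing R]

theorem polyLemmas_algebraMap (a : R) : algebraMap R (LaurentSeries R) a = HahnSeries.C a := by
  rw [HahnSeries.algebraMap_apply']
  simp

theorem polyLemmas_coeff_smul (a : R) (g : LaurentSeries R) (n : ℤ) :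
    (Algebra.toSMul.smul a g : LaurentSeries R).coeff n = a * g.coeff n := by
  have : (Algebra.toSMul.smul a g : LaurentSeries R) = HahnSeries.C a * g := by
    rw [← polyLemmas_algebraMap]
    exact Algebra.smul_def a g
  rw [this, HahnSeries.C_mul_eq_smul, HahnSeries.coeff_smul, smul_eq_mul]

theorem polyLemmas_coeff_aeval (g : LaurentSeries R) (W : R[X]) (n : ℤ) :
    (aeval g W).coeff n = ∑ i ∈ Finset.range (W.natDegree + 1), W.coeff i * (g ^ i).coeff n := by
  rw [aeval_eq_sum_range, HahnSeries.coeff_sum]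
  refine Finset.sum_congr rfl fun i _ => ?_
  exact polyLemmas_coeff_smul _ _ _

/-- The key computation: the coefficient of `W(g)` at an exponent reached by only one monomial. -/
theorem polyLemmas_coeff_aeval_key (g : LaurentSeries R) (κ : ℤ) (hg0 : g.coeff κ = 1)
    (hg1 : ∀ n : ℤ, n < κ → g.coeff n = 0) (W : R[X]) (e : ℕ)
    (he : ∀ i : ℕ, i ≠ e → W.coeff i = 0 ∨ (e : ℤ) * κ < (i : ℤ) * κ) :
    (aeval g W).coeff ((e : ℤ) * κ) = W.coeff e := by
  rw [polyLemmas_coeff_aeval]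
  have hterm : ∀ i : ℕ, i ≠ e → W.coeff i * (g ^ i).coeff ((e : ℤ) * κ) = 0 := by
    intro i hi
    rcases he i hi with h | h
    · rw [h, zero_mul]
    · rw [(intClosed_coeff_pow hg1 i).1 _ h, mul_zero]
  have hmain : W.coeff e * (g ^ e).coeff ((e : ℤ) * κ) = W.coeff e := by
    rw [(intClosed_coeff_pow hg1 e).2, hg0, one_pow, mul_one]
  by_cases hmem : e ∈ Finset.range (W.natDegree + 1)
  · rw [Finset.sum_eq_single_of_mem e hmem (fun i _ hi => hterm i hi), hmain]
  · rw [Finset.sum_eq_zero]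
    · rw [Finset.mem_range, not_lt] at hmem
      exact (coeff_eq_zero_of_natDegree_lt (by omega)).symm
    · intro i hi
      exact hterm i (fun h => hmem (h ▸ hi))

theorem polyLemmas_coeffMap_aeval {S : Type*} [CommRing S] (φ : R →+* S) (g : LaurentSeries R)
    (W : R[X]) : coeffMap φ (aeval g W) = aeval (coeffMap φ g) (W.map φ) := by
  induction W using Polynomial.induction_on' with
  | add p q hp hq => rw [map_add, map_add, hp, hq, Polynomial.map_add, map_add]
  | monomial n a =>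
      rw [Polynomial.map_monomial, aeval_monomial, aeval_monomial, map_mul, map_pow]
      congr 1
      ext k
      rw [coeffMap_coeff, polyLemmas_algebraMap, polyLemmas_algebraMap, HahnSeries.C_apply,
        HahnSeries.C_apply, HahnSeries.coeff_single, HahnSeries.coeff_single]
      split_ifs <;> simp

/-- `W ↦ W(g)` is injective if `g` has leading coefficient `1` at a nonzero exponent. -/
theorem polyLemmas_aeval_eq_zero (g : LaurentSeries R) (κ : ℤ) (hκ : κ ≠ 0)
    (hg0 : g.coeff κ = 1) (hg1 : ∀ n : ℤ, n < κ → g.coeff n = 0) (W : R[X])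
    (h : aeval g W = 0) : W = 0 := by
  by_contra hW
  rcases lt_or_gt_of_ne hκ with hneg | hpos
  · have := polyLemmas_coeff_aeval_key g κ hg0 hg1 W W.natDegree (by
      intro i hi
      rcases lt_or_gt_of_ne hi with h1 | h1
      · right
        have : (i : ℤ) < W.natDegree := by exact_mod_cast h1
        nlinarith
      · left
        exact coeff_eq_zero_of_natDegree_lt h1)
    rw [h, HahnSeries.coeff_zero] at this
    exact hW (leadingCoeff_eq_zero.mp this.symm)
  · have := polyLemmas_coeff_aeval_key g κ hg0 hg1 W W.natTrailingDegree (by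
      intro i hi
      rcases lt_or_gt_of_ne hi with h1 | h1
      · left
        exact coeff_eq_zero_of_lt_natTrailingDegree h1
      · right
        have : (W.natTrailingDegree : ℤ) < i := by exact_mod_cast h1
        nlinarith)
    rw [h, HahnSeries.coeff_zero] at this
    exact hW (trailingCoeff_eq_zero.mp this.symm)

theorem polyLemmas_aeval_injective (g : LaurentSeries R) (κ : ℤ) (hκ : κ ≠ 0)
    (hg0 : g.coeff κ = 1) (hg1 : ∀ n : ℤ, n < κ → g.coeff n = 0) :
    Function.Injective (aeval g : R[X] →ₐ[R] LaurentSeries R) := by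
  rw [injective_iff_map_eq_zero]
  exact polyLemmas_aeval_eq_zero g κ hκ hg0 hg1

end Aux

open Polynomial in
theorem exists_poly_of_coeffMap {𝒪 : Type*} [CommRing 𝒪] (emb : 𝒪 →+* ℂ)
    (hemb : Function.Injective emb) (j : LaurentSeries 𝒪) (κ : ℕ) (hκ : 0 < κ)
    (hj0 : j.coeff (-(κ : ℤ)) = 1) (hj1 : ∀ n : ℤ, n < -(κ : ℤ) → j.coeff n = 0)
    (T : ℂ[X]) (y : LaurentSeries 𝒪) (h : aeval (coeffMap emb j) T = coeffMap emb y) :
    ∃ T₀ : 𝒪[X], T₀.map emb = T ∧ aeval j T₀ = y := by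
  have hJ0 : (coeffMap emb j).coeff (-(κ : ℤ)) = 1 := by rw [coeffMap_coeff, hj0, map_one]
  have hJ1 : ∀ n : ℤ, n < -(κ : ℤ) → (coeffMap emb j).coeff n = 0 := by
    intro n hn
    rw [coeffMap_coeff, hj1 n hn, map_zero]
  have key : ∀ (d : ℕ) (T : ℂ[X]), (∀ m, d ≤ m → T.coeff m = 0) → ∀ y : LaurentSeries 𝒪,
      aeval (coeffMap emb j) T = coeffMap emb y → ∃ T₀ : 𝒪[X], T₀.map emb = T := by
    intro d
    induction d with
    | zero =>
        intro T hT y _
        refine ⟨0, ?_⟩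
        ext m
        rw [hT m (Nat.zero_le m)]
        simp
    | succ d ih =>
        intro T hT y h
        have h1 := polyLemmas_coeff_aeval_key (coeffMap emb j) (-(κ : ℤ)) hJ0 hJ1 T d (by
          intro i hi
          rcases lt_or_gt_of_ne hi with h1 | h1
          · right
            have h2 : (i : ℤ) < d := by exact_mod_cast h1
            have h3 : (0 : ℤ) < κ := by exact_mod_cast hκ
            nlinarith
          · left
            exact hT i h1)
        rw [h, coeffMap_coeff] at h1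
        set c₀ : 𝒪 := y.coeff ((d : ℤ) * -(κ : ℤ)) with hc₀
        obtain ⟨T₁, hT₁⟩ := ih (T - monomial d (T.coeff d)) (by
          intro m hm
          rw [Polynomial.coeff_sub, Polynomial.coeff_monomial]
          rcases Nat.eq_or_lt_of_le hm with rfl | hm'
          · simp
          · rw [if_neg (by omega), hT m hm', sub_zero]) (y - HahnSeries.C c₀ * j ^ d) (by
          rw [map_sub, map_sub, h, aeval_monomial, map_mul, map_pow, polyLemmas_algebraMap,
            HahnSeries.C_apply, HahnSeries.C_apply, coeffMap_single, h1])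
        refine ⟨T₁ + monomial d c₀, ?_⟩
        rw [Polynomial.map_add, hT₁, Polynomial.map_monomial, h1]
        ring
  obtain ⟨T₀, hT₀⟩ := key (T.natDegree + 1) T
    (fun m hm => coeff_eq_zero_of_natDegree_lt hm) y h
  refine ⟨T₀, hT₀, ?_⟩
  apply intClosed_coeffMap_injective emb hemb
  rw [polyLemmas_coeffMap_aeval, hT₀, h]

open Polynomial in
theorem dvd_coeff_of_dvd_aeval {𝒪 : Type*} [CommRing 𝒪] (g : LaurentSeries 𝒪) (κ : ℤ)
    (hκ : κ ≠ 0) (hg0 : g.coeff κ = 1) (hg1 : ∀ n : ℤ, n < κ → g.coeff n = 0) (c : 𝒪) (W : 𝒪[X])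
    (h : ∀ n : ℤ, c ∣ (aeval g W).coeff n) : ∀ i, c ∣ W.coeff i := by
  set φ := Ideal.Quotient.mk (Ideal.span {c}) with hφ
  have hφ0 : ∀ x : 𝒪, φ x = 0 ↔ c ∣ x := fun x => by
    rw [hφ, Ideal.Quotient.eq_zero_iff_mem, Ideal.mem_span_singleton]
  have h1 : aeval (coeffMap φ g) (W.map φ) = 0 := by
    rw [← polyLemmas_coeffMap_aeval]
    ext n
    rw [coeffMap_coeff, HahnSeries.coeff_zero, hφ0]
    exact h n
  have h2 := polyLemmas_aeval_eq_zero (coeffMap φ g) κ hκ (by rw [coeffMap_coeff, hg0, map_one])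
    (fun n hn => by rw [coeffMap_coeff, hg1 n hn, map_zero]) _ h1
  intro i
  rw [← hφ0, ← Polynomial.coeff_map, h2, Polynomial.coeff_zero]

open Polynomial in
theorem exists_poly_of_isIntegral {𝒪 : Type*} [CommRing 𝒪] [IsDomain 𝒪] [IsIntegrallyClosed 𝒪]
    (g : LaurentSeries 𝒪) (κ : ℤ) (hκ : κ ≠ 0) (hg0 : g.coeff κ = 1)
    (hg1 : ∀ n : ℤ, n < κ → g.coeff n = 0) (E : LaurentSeries 𝒪) (δ T : 𝒪[X]) (hδ : δ ≠ 0)
    (h : aeval g δ * E = aeval g T) (hint : IsIntegral ↥(Algebra.adjoin 𝒪 {g}) E) :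
    ∃ W : 𝒪[X], E = aeval g W := by
  have hinj := polyLemmas_aeval_injective g κ hκ hg0 hg1
  -- integrality over `𝒪[X]` through `aeval g`
  have hint' : ((aeval g : 𝒪[X] →ₐ[𝒪] LaurentSeries 𝒪) : 𝒪[X] →+* LaurentSeries 𝒪).IsIntegralElem
      E := by
    obtain ⟨p, hp, hpE⟩ := hint
    have hsurj : Function.Surjective
        ((aeval g : 𝒪[X] →ₐ[𝒪] LaurentSeries 𝒪).codRestrict (Algebra.adjoin 𝒪 {g}) (fun W => by
          rw [Algebra.adjoin_singleton_eq_range_aeval]
          exact ⟨W, rfl⟩)) := by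
      rintro ⟨x, hx⟩
      rw [Algebra.adjoin_singleton_eq_range_aeval] at hx
      obtain ⟨W, rfl⟩ := hx
      exact ⟨W, rfl⟩
    set f : 𝒪[X] →ₐ[𝒪] ↥(Algebra.adjoin 𝒪 {g}) :=
      (aeval g : 𝒪[X] →ₐ[𝒪] LaurentSeries 𝒪).codRestrict (Algebra.adjoin 𝒪 {g}) (fun W => by
          rw [Algebra.adjoin_singleton_eq_range_aeval]
          exact ⟨W, rfl⟩) with hf
    have hlift : p ∈ Polynomial.lifts (f : 𝒪[X] →+* ↥(Algebra.adjoin 𝒪 {g})) := by
      rw [Polynomial.mem_lifts]
      exact Polynomial.map_surjective _ hsurj p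
    obtain ⟨q, hq, -, hqm⟩ := Polynomial.lifts_and_natDegree_eq_and_monic hlift hp
    refine ⟨q, hqm, ?_⟩
    rw [← hq, Polynomial.eval₂_map] at hpE
    exact hpE
  let Ω := FractionRing (LaurentSeries 𝒪)
  let K := FractionRing 𝒪[X]
  have hinjΩ : Function.Injective (algebraMap (LaurentSeries 𝒪) Ω) := IsFractionRing.injective _ _
  let θ : 𝒪[X] →+* Ω := (algebraMap (LaurentSeries 𝒪) Ω).comp
    ((aeval g : 𝒪[X] →ₐ[𝒪] LaurentSeries 𝒪) : 𝒪[X] →+* LaurentSeries 𝒪)
  have hθ : Function.Injective θ := hinjΩ.comp hinj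
  let ψ : K →+* Ω := IsFractionRing.lift hθ
  have hψ : ∀ x, ψ (algebraMap 𝒪[X] K x) = algebraMap (LaurentSeries 𝒪) Ω (aeval g x) :=
    fun x => IsFractionRing.lift_algebraMap hθ x
  have hδ' : algebraMap (LaurentSeries 𝒪) Ω (aeval g δ) ≠ 0 := by
    rw [Ne, map_eq_zero_iff _ hinjΩ, map_eq_zero_iff _ hinj]
    exact hδ
  set w : K := algebraMap 𝒪[X] K T / algebraMap 𝒪[X] K δ with hw
  have hψw : ψ w = algebraMap (LaurentSeries 𝒪) Ω E := by
    rw [hw, map_div₀, hψ, hψ, ← h, map_mul, mul_div_cancel_left₀ _ hδ']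
  obtain ⟨q, hqm, hqE⟩ := hint'
  have hwint : IsIntegral 𝒪[X] w := by
    refine ⟨q, hqm, ?_⟩
    apply ψ.injective
    rw [map_zero, Polynomial.hom_eval₂, hψw]
    have e : ψ.comp (algebraMap 𝒪[X] K) = θ := RingHom.ext hψ
    rw [e]
    show Polynomial.eval₂ ((algebraMap (LaurentSeries 𝒪) Ω).comp _) _ q = 0
    rw [← Polynomial.hom_eval₂, hqE, map_zero]
  obtain ⟨W, hW⟩ := IsIntegrallyClosed.isIntegral_iff.mp hwint
  refine ⟨W, hinjΩ ?_⟩
  rw [← hψ, hW, hψw]

theorem esymm_mem_of_psum_mem {K : Type*} [Field K] [CharZero K] {Ω : Type*} [CommRing Ω]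
    [Algebra K Ω] (S : Subalgebra K Ω) {ι : Type*} [Fintype ι] (y : ι → Ω)
    (h : ∀ k : ℕ, 0 < k → ∑ s, y s ^ k ∈ S) (i : ℕ) :
    MvPolynomial.aeval y (MvPolynomial.esymm ι K i) ∈ S := by
  induction i using Nat.strong_induction_on with
  | _ i ih =>
    rcases Nat.eq_zero_or_pos i with rfl | hi
    · simp
    · have h1 := congrArg (MvPolynomial.aeval y) (MvPolynomial.mul_esymm_eq_sum ι K i)
      simp only [map_mul, map_natCast, map_pow, map_neg, map_one, map_sum] at h1
      have h2 : (-1 : Ω) ^ (i + 1) * ∑ a ∈ Finset.HasAntidiagonal.antidiagonal i with a.1 < i,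
          (-1) ^ a.1 * MvPolynomial.aeval y (MvPolynomial.esymm ι K a.1) *
            MvPolynomial.aeval y (MvPolynomial.psum ι K a.2) ∈ S := by
        refine S.mul_mem (S.pow_mem (S.neg_mem S.one_mem) _) (S.sum_mem ?_)
        intro a ha
        rw [Finset.mem_filter, Finset.HasAntidiagonal.mem_antidiagonal] at ha
        refine S.mul_mem (S.mul_mem (S.pow_mem (S.neg_mem S.one_mem) _) (ih _ ha.2)) ?_
        have : MvPolynomial.aeval y (MvPolynomial.psum ι K a.2) = ∑ s, y s ^ a.2 := by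
          simp [MvPolynomial.psum]
        rw [this]
        exact h _ (by omega)
      rw [← h1] at h2
      have h3 : MvPolynomial.aeval y (MvPolynomial.esymm ι K i) =
          ((i : K)⁻¹) • ((i : Ω) * MvPolynomial.aeval y (MvPolynomial.esymm ι K i)) := by
        have hi' : (i : K) ≠ 0 := by exact_mod_cast hi.ne'
        rw [← nsmul_eq_mul, ← Nat.cast_smul_eq_nsmul K, smul_smul, inv_mul_cancel₀ hi', one_smul]
      rw [h3]
      exact S.smul_mem h2 _

theorem dvd_of_forall_prime_pow_dvd {𝒪 : Type*} [CommRing 𝒪] [IsDomain 𝒪]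
    [UniqueFactorizationMonoid 𝒪] (a c : 𝒪) (ha : a ≠ 0)
    (h : ∀ (π : 𝒪) (m : ℕ), Prime π → π ^ m ∣ a → π ^ m ∣ c) : a ∣ c := by
  revert ha h
  refine UniqueFactorizationMonoid.induction_on_coprime
    (P := fun a => a ≠ 0 → (∀ (π : 𝒪) (m : ℕ), Prime π → π ^ m ∣ a → π ^ m ∣ c) → a ∣ c) a
    ?_ ?_ ?_ ?_
  · intro h0; exact absurd rfl h0
  · intro x hx _ _; exact hx.dvd
  · intro p i hp _ h; exact h p i hp dvd_rfl
  · intro x y hxy hx hy hne h
    have hx0 : x ≠ 0 := left_ne_zero_of_mul hne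
    have hy0 : y ≠ 0 := right_ne_zero_of_mul hne
    exact hxy.mul_dvd (hx hx0 fun π m hπ hd => h π m hπ (hd.mul_right y))
      (hy hy0 fun π m hπ hd => h π m hπ (hd.mul_left x))

end Fermat.Agent.S28T
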