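import Mathlib
import Fermat.Agent.S28T.DescentAux
import Fermat.Agent.S28T.Artin
import Fermat.Agent.S28T.PolyLemmas

set_option autoImplicit false

noncomputable section

namespace Fermat.Agent.S28T

open ModularCurve

/-- The norm trick (Cayley–Hamilton): a uniform cofactor of the norm. -/
theorem exists_cofactor {ι Ω B P : Type*} [Fintype ι] [CommRing Ω] [CommRing B] [CommRing P]
    (sg : ι → B →+* Ω) (β : P →+* B) (β' : P →+* Ω)
    (hβ : ∀ s T, sg s (β T) = β' T)
    (hes : ∀ (b : B) (i : ℕ), ∃ T : P, es (fun s => sg s b) i = β' T) (b : B) :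
    ∃ (b' : B) (δ : P), (∀ s, sg s (b' * b) = β' δ) ∧
      β' δ = (-1) ^ (Fintype.card ι) * ∏ s, sg s b := by
  classical
  choose T hT using hes b
  set n := Fintype.card ι with hn
  refine ⟨-∑ j ∈ Finset.range n, (-1) ^ j * β (T j) * b ^ (n - j - 1), (-1) ^ n * T n, ?_, ?_⟩
  · intro s
    have h := congrArg (Polynomial.eval (sg s b)) (prod_X_sub_C_eq (fun s => sg s b))
    rw [Polynomial.eval_prod, Finset.prod_eq_zero (Finset.mem_univ s) (by simp),
      Polynomial.eval_finsetSum, Finset.sum_range_succ] at h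
    simp only [Polynomial.eval_mul, Polynomial.eval_pow, Polynomial.eval_neg, Polynomial.eval_one,
      Polynomial.eval_C, Polynomial.eval_X, Nat.sub_self, pow_zero, mul_one, ← hn] at h
    rw [map_mul, map_neg, map_sum, map_mul, map_pow, map_neg, map_one, ← hT, neg_mul,
      Finset.sum_mul, neg_eq_iff_add_eq_zero, add_comm, h]
    rw [add_comm]
    congr 1
    refine Finset.sum_congr rfl fun i hi => ?_
    have hi' : n - i = (n - i - 1) + 1 := by
      have := Finset.mem_range.mp hi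
      omega
    rw [map_mul, map_mul, map_pow, map_pow, map_neg, map_one, hβ, ← hT, hi', pow_succ,
      Nat.add_sub_cancel]
    ring
  · rw [map_mul, map_pow, map_neg, map_one, ← hT, es_eq_sum, hn, ← Finset.card_univ,
      Finset.powersetCard_self, Finset.sum_singleton]

/-- If all elementary symmetric functions of a family lie in a subalgebra, the members of the
family are integral over it. -/
theorem isIntegral_of_es_mem {R Ω : Type*} [CommRing R] [CommRing Ω] [Algebra R Ω]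
    {ι : Type*} [Fintype ι] (A : Subalgebra R Ω) (y : ι → Ω) (h : ∀ i, es y i ∈ A) (s : ι) :
    IsIntegral A (y s) := by
  classical
  have hl : (∏ s, (Polynomial.X - Polynomial.C (y s))) ∈ Polynomial.lifts (algebraMap A Ω) := by
    rw [Polynomial.mem_lifts]
    refine ⟨∑ j ∈ Finset.range (Fintype.card ι + 1),
      (-1) ^ j * (Polynomial.C (⟨es y j, h j⟩ : A) * Polynomial.X ^ (Fintype.card ι - j)), ?_⟩
    rw [prod_X_sub_C_eq, Polynomial.map_sum]
    refine Finset.sum_congr rfl fun j _ => ?_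
    simp only [Polynomial.map_mul, Polynomial.map_pow, Polynomial.map_neg, Polynomial.map_one,
      Polynomial.map_C, Polynomial.map_X]
    rfl
  obtain ⟨q, hq, -, hmon⟩ := Polynomial.lifts_and_natDegree_eq_and_monic hl
    (Polynomial.monic_prod_of_monic _ _ fun s _ => Polynomial.monic_X_sub_C (y s))
  refine ⟨q, hmon, ?_⟩
  rw [Polynomial.eval₂_eq_eval_map, hq, Polynomial.eval_prod]
  exact Finset.prod_eq_zero (Finset.mem_univ s) (by simp)

/-- Passing from polynomials in `j` to polynomials in `g = j⁻¹`. -/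
theorem exists_reflect {𝒪 Ω : Type*} [CommRing 𝒪] [CommRing Ω] [Algebra 𝒪 Ω] (g j : Ω)
    (hgj : g * j = 1) (E : Ω) (δ T : Polynomial 𝒪) (hδ : δ ≠ 0)
    (h : Polynomial.aeval j δ * E = Polynomial.aeval j T) :
    ∃ δ' T' : Polynomial 𝒪, δ' ≠ 0 ∧ Polynomial.aeval g δ' * E = Polynomial.aeval g T' := by
  set M := max δ.natDegree T.natDegree with hM
  let _ : Invertible j := ⟨g, hgj, by rw [mul_comm]; exact hgj⟩
  have h1 : Polynomial.aeval g (Polynomial.reflect M δ) * j ^ M = Polynomial.aeval j δ :=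
    Polynomial.eval₂_reflect_mul_pow (algebraMap 𝒪 Ω) j M δ (le_max_left _ _)
  have h2 : Polynomial.aeval g (Polynomial.reflect M T) * j ^ M = Polynomial.aeval j T :=
    Polynomial.eval₂_reflect_mul_pow (algebraMap 𝒪 Ω) j M T (le_max_right _ _)
  have h3 : j ^ M * g ^ M = 1 := by rw [← mul_pow, mul_comm, hgj, one_pow]
  refine ⟨Polynomial.reflect M δ, Polynomial.reflect M T, ?_, ?_⟩
  · rwa [Ne, Polynomial.reflect_eq_zero_iff]
  · calc Polynomial.aeval g (Polynomial.reflect M δ) * E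
        = (Polynomial.aeval g (Polynomial.reflect M δ) * j ^ M) * E * g ^ M := by
          rw [mul_right_comm _ (j ^ M) E, mul_assoc _ (j ^ M), h3, mul_one]
      _ = (Polynomial.aeval g (Polynomial.reflect M T) * j ^ M) * g ^ M := by rw [h1, h, h2]
      _ = Polynomial.aeval g (Polynomial.reflect M T) := by rw [mul_assoc, h3, mul_one]

theorem coeff_C_mul' {A : Type*} [CommRing A] (c : A) (f : LaurentSeries A) (n : ℤ) :
    (HahnSeries.C c * f).coeff n = c * f.coeff n := by
  rw [HahnSeries.C_mul_eq_smul, HahnSeries.coeff_smul, smul_eq_mul]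

theorem C_ne_zero' {A : Type*} [CommRing A] {c : A} (hc : c ≠ 0) :
    (HahnSeries.C c : LaurentSeries A) ≠ 0 := by
  intro h
  have := congrArg (fun z => z.coeff 0) h
  simp at this
  exact hc this

/-- The abstract descent: the `q`-expansion principle for the integral closure of `𝒪[g]`. -/
theorem descent_core
    {𝒪 : Type*} [CommRing 𝒪] [IsDomain 𝒪] [IsPrincipalIdealRing 𝒪]
    {ι : Type*} [Fintype ι] (inf : ι)
    {B : Type*} [CommRing B] (sg : ι → B →+* LaurentSeries 𝒪)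
    (j : LaurentSeries 𝒪) (κ : ℕ) (hκ : 0 < κ) (hj0 : j.coeff (-(κ : ℤ)) = 1)
    (hj1 : ∀ n : ℤ, n < -(κ : ℤ) → j.coeff n = 0)
    (β : Polynomial 𝒪 →+* B) (hβ : ∀ s T, sg s (β T) = Polynomial.aeval j T)
    (htr : ∀ b : B, ∃ T : Polynomial 𝒪, ∑ s, sg s b = Polynomial.aeval j T)
    (hes : ∀ (b : B) (i : ℕ), ∃ T : Polynomial 𝒪,
      es (fun s => sg s b) i = Polynomial.aeval j T)
    (hdist : ∀ s s', s ≠ s' → ∃ (b : B) (n : ℤ), IsUnit ((sg s b - sg s' b).coeff n))
    (h : B) (hh0 : ∀ s, s ≠ inf → ∀ n : ℤ, n ≤ 0 → (sg s h).coeff n = 0)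
    (hh1 : ∀ s, ∃ n : ℤ, IsUnit ((sg s h).coeff n))
    (g : LaurentSeries 𝒪) (κ' : ℤ) (hκ' : κ' ≠ 0) (hg0 : g.coeff κ' = 1)
    (hg1 : ∀ n : ℤ, n < κ' → g.coeff n = 0) (hg : g = j ∨ g * j = 1)
    (a : 𝒪) (ha : a ≠ 0)
    (x : ι → LaurentSeries 𝒪) (P Q : B) (hQ : ∀ s, sg s Q ≠ 0)
    (hPQ : ∀ s, x s * sg s Q = sg s P)
    (hint : ∀ s, IsIntegral ↥(Algebra.adjoin 𝒪 {g}) (x s))
    (hinf : ∀ n : ℤ, a ∣ (x inf).coeff n) :
    ∃ x' : LaurentSeries 𝒪, x inf = HahnSeries.C a * x' ∧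
      IsIntegral ↥(Algebra.adjoin 𝒪 {g}) x' := by
  classical
  -- the norm trick
  obtain ⟨Q', δ, hδ1, hδ2⟩ := exists_cofactor sg β (Polynomial.aeval j).toRingHom hβ hes Q
  have hδ1' : ∀ s, sg s (Q' * Q) = Polynomial.aeval j δ := hδ1
  have hδ2' : Polynomial.aeval j δ = (-1) ^ (Fintype.card ι) * ∏ s, sg s Q := hδ2
  have hδ : δ ≠ 0 := by
    rintro rfl
    rw [map_zero] at hδ2'
    have h1 : (∏ s, sg s Q) ≠ 0 := Finset.prod_ne_zero_iff.mpr fun s _ => hQ s
    exact (mul_ne_zero (pow_ne_zero _ (neg_ne_zero.mpr one_ne_zero)) h1) hδ2'.symm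
  have hY : ∀ s, Polynomial.aeval j δ * x s = sg s (Q' * P) := by
    intro s
    rw [← hδ1' s, map_mul, map_mul, ← hPQ s]
    ring
  have hx : ∀ b : B, ∃ T : Polynomial 𝒪,
      ∑ s, Polynomial.aeval j δ * x s * sg s b = Polynomial.aeval j T := by
    intro b
    obtain ⟨T, hT⟩ := htr (Q' * P * b)
    refine ⟨T, ?_⟩
    rw [← hT]
    exact Finset.sum_congr rfl fun s _ => by rw [hY s, map_mul (sg s) (Q' * P) b]
  -- divisibility at all conjugates
  have hdvd : ∀ s n, a ∣ (x s).coeff n := by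
    intro s n
    apply dvd_of_forall_prime_pow_dvd a _ ha
    intro π m hπ hπm
    refine artin_qep hπ inf sg j κ hκ hj0 hj1 ?_ h ?_ ?_ x δ hδ hx m
      (fun n => hπm.trans (hinf n)) s n
    · intro s s' hss
      obtain ⟨b, n, hu⟩ := hdist s s' hss
      exact ⟨b, n, fun hd => hπ.not_isUnit (isUnit_of_dvd_unit hd hu)⟩
    · intro s hs n hn
      rw [hh0 s hs n hn]
      exact dvd_zero _
    · intro s _
      obtain ⟨n, hu⟩ := hh1 s
      exact ⟨n, fun hd => hπ.not_isUnit (isUnit_of_dvd_unit hd hu)⟩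
  choose x' hx' using fun s => exists_eq_C_mul a (x s) (hdvd s)
  have hCa : (HahnSeries.C a : LaurentSeries 𝒪) ≠ 0 := C_ne_zero' ha
  -- the elementary symmetric functions
  have key : ∀ i, es x' i ∈ Algebra.adjoin 𝒪 {g} := by
    intro i
    have hE : es x i = HahnSeries.C a ^ i * es x' i := by
      rw [← es_mul]
      congr 1
      funext s
      exact hx' s
    have hEint : IsIntegral ↥(Algebra.adjoin 𝒪 {g}) (es x i) := by
      rw [es_eq_sum]
      exact IsIntegral.sum _ fun t _ => IsIntegral.prod _ fun s _ => hint s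
    obtain ⟨T, hT⟩ := hes (Q' * P) i
    have hE2 : Polynomial.aeval j (δ ^ i) * es x i = Polynomial.aeval j T := by
      rw [← hT, map_pow, ← es_mul]
      congr 1
      funext s
      exact hY s
    obtain ⟨δ', T', hδ', hE3⟩ : ∃ δ' T' : Polynomial 𝒪, δ' ≠ 0 ∧
        Polynomial.aeval g δ' * es x i = Polynomial.aeval g T' := by
      rcases hg with rfl | hgj
      · exact ⟨δ ^ i, T, pow_ne_zero _ hδ, hE2⟩
      · exact exists_reflect g j hgj _ _ T (pow_ne_zero _ hδ) hE2
    obtain ⟨W, hW⟩ := exists_poly_of_isIntegral g κ' hκ' hg0 hg1 (es x i) δ' T' hδ' hE3 hEint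
    have hdiv : ∀ k, a ^ i ∣ W.coeff k := by
      apply dvd_coeff_of_dvd_aeval g κ' hκ' hg0 hg1
      intro n
      rw [← hW, hE, ← map_pow, coeff_C_mul']
      exact dvd_mul_right _ _
    obtain ⟨W', rfl⟩ := (Polynomial.C_dvd_iff_dvd_coeff _ _).mpr hdiv
    have h2 : es x' i = Polynomial.aeval g W' := by
      apply mul_left_cancel₀ (pow_ne_zero i hCa)
      rw [← hE, hW, map_mul, Polynomial.aeval_C, algebraMap_laurent, map_pow]
    rw [h2, Algebra.adjoin_singleton_eq_range_aeval]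
    exact ⟨W', rfl⟩
  exact ⟨x' inf, hx' inf, isIntegral_of_es_mem _ x' key inf⟩

end Fermat.Agent.S28T
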