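import Mathlib
import Fermat.Agent.S28T.AnDefs
import Fermat.Agent.S28.CComb

set_option autoImplicit false

noncomputable section

namespace Fermat.Agent.S28T

open ModularCurve HahnSeries UpperHalfPlane Function
open scoped MatrixGroups Manifold

section Lead

variable {A : Type*} [CommRing A]

/-- `x = c t^k (1 + O(t))`. -/
def IsLead (x : LaurentSeries A) (k : ℤ) (c : A) : Prop :=
  ∃ f : PowerSeries A, PowerSeries.constantCoeff f = 1 ∧
    x = HahnSeries.single k c * HahnSeries.ofPowerSeries ℤ A f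

theorem IsLead.congr {x : LaurentSeries A} {k l : ℤ} {c d : A} (hx : IsLead x k c)
    (hk : k = l) (hc : c = d) : IsLead x l d := by
  subst hk; subst hc; exact hx

theorem IsLead.mul {x y : LaurentSeries A} {k l : ℤ} {c d : A} (hx : IsLead x k c)
    (hy : IsLead y l d) : IsLead (x * y) (k + l) (c * d) := by
  obtain ⟨f, hf, rfl⟩ := hx
  obtain ⟨g, hg, rfl⟩ := hy
  refine ⟨f * g, by rw [map_mul, hf, hg, one_mul], ?_⟩
  rw [map_mul (HahnSeries.ofPowerSeries ℤ A), ← HahnSeries.single_mul_single]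
  ring

theorem IsLead.one : IsLead (1 : LaurentSeries A) 0 1 := by
  refine ⟨1, map_one _, ?_⟩
  rw [map_one (HahnSeries.ofPowerSeries ℤ A), mul_one]
  rfl

theorem IsLead.C (c : A) : IsLead (HahnSeries.C c : LaurentSeries A) 0 c := by
  refine ⟨1, map_one _, ?_⟩
  rw [map_one (HahnSeries.ofPowerSeries ℤ A), mul_one]
  rfl

theorem IsLead.pow {x : LaurentSeries A} {k : ℤ} {c : A} (hx : IsLead x k c) (n : ℕ) :
    IsLead (x ^ n) (n * k) (c ^ n) := by
  induction n with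
  | zero => simpa using IsLead.one (A := A)
  | succ n ih =>
    rw [pow_succ, pow_succ]
    exact (ih.mul hx).congr (by push_cast; ring) rfl

theorem IsLead.prod {ι : Type*} (s : Finset ι) (x : ι → LaurentSeries A) (k : ι → ℤ) (c : ι → A)
    (h : ∀ i ∈ s, IsLead (x i) (k i) (c i)) :
    IsLead (∏ i ∈ s, x i) (∑ i ∈ s, k i) (∏ i ∈ s, c i) := by
  classical
  induction s using Finset.induction_on with
  | empty => simpa using IsLead.one (A := A)
  | insert a s ha ih =>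
    rw [Finset.prod_insert ha, Finset.sum_insert ha, Finset.prod_insert ha]
    exact (h a (Finset.mem_insert_self a s)).mul
      (ih fun i hi => h i (Finset.mem_insert_of_mem hi))

theorem series_qExpand_ofPowerSeries (p : ℕ) [NeZero p] (f : PowerSeries A) :
    qExpand A p (HahnSeries.ofPowerSeries ℤ A f) = HahnSeries.ofPowerSeries ℤ A
      (PowerSeries.mk fun n => if p ∣ n then PowerSeries.coeff (n / p) f else 0) := by
  have hp : 0 < p := Nat.pos_of_ne_zero (NeZero.ne p)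
  ext n
  by_cases hn : n < 0
  · rw [ofPowerSeries_coeff_of_neg _ hn]
    by_cases hd : (p : ℤ) ∣ n
    · obtain ⟨m, rfl⟩ := hd
      rw [qExpand_coeff_mul]
      apply ofPowerSeries_coeff_of_neg
      by_contra hm
      push Not at hm
      have : 0 ≤ (p : ℤ) * m := mul_nonneg (by positivity) hm
      omega
    · exact qExpand_coeff_of_not_dvd _ _ hd
  · push Not at hn
    obtain ⟨m, rfl⟩ := Int.eq_ofNat_of_zero_le hn
    rw [HahnSeries.ofPowerSeries_apply_coeff, PowerSeries.coeff_mk]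
    by_cases hd : p ∣ m
    · rw [if_pos hd]
      obtain ⟨r, rfl⟩ := hd
      rw [Nat.mul_div_cancel_left _ hp]
      push_cast
      rw [qExpand_coeff_mul, HahnSeries.ofPowerSeries_apply_coeff]
    · rw [if_neg hd]
      apply qExpand_coeff_of_not_dvd
      intro h
      exact hd (Int.natCast_dvd_natCast.mp h)

theorem IsLead.qExpand (p : ℕ) [NeZero p] {x : LaurentSeries A} {k : ℤ} {c : A}
    (hx : IsLead x k c) : IsLead (qExpand A p x) (p * k) c := by
  obtain ⟨f, hf, rfl⟩ := hx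
  refine ⟨_, ?_, by rw [map_mul, qExpand_single, series_qExpand_ofPowerSeries]⟩
  rw [← PowerSeries.coeff_zero_eq_constantCoeff_apply, PowerSeries.coeff_mk, if_pos (dvd_zero p),
    Nat.zero_div, PowerSeries.coeff_zero_eq_constantCoeff_apply, hf]

theorem series_twist_ofPowerSeries (e : Aˣ) (f : PowerSeries A) :
    twist e (HahnSeries.ofPowerSeries ℤ A f) =
      HahnSeries.ofPowerSeries ℤ A (PowerSeries.rescale (e : A) f) := by
  ext n
  rw [twist_coeff]
  by_cases hn : n < 0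
  · rw [ofPowerSeries_coeff_of_neg _ hn, ofPowerSeries_coeff_of_neg _ hn, mul_zero]
  · push Not at hn
    obtain ⟨m, rfl⟩ := Int.eq_ofNat_of_zero_le hn
    rw [HahnSeries.ofPowerSeries_apply_coeff, HahnSeries.ofPowerSeries_apply_coeff,
      PowerSeries.coeff_rescale, zpow_natCast, Units.val_pow_eq_pow_val]

theorem series_twist_single (e : Aˣ) (k : ℤ) (c : A) :
    twist e (HahnSeries.single k c) = HahnSeries.single k (((e ^ k : Aˣ) : A) * c) := by
  ext n
  rw [twist_coeff]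
  by_cases h : n = k
  · subst h; rw [HahnSeries.coeff_single_same, HahnSeries.coeff_single_same]
  · rw [HahnSeries.coeff_single_of_ne h, HahnSeries.coeff_single_of_ne h, mul_zero]

theorem IsLead.twist (e : Aˣ) {x : LaurentSeries A} {k : ℤ} {c : A}
    (hx : IsLead x k c) : IsLead (twist e x) k (((e ^ k : Aˣ) : A) * c) := by
  obtain ⟨f, hf, rfl⟩ := hx
  refine ⟨_, ?_, by rw [map_mul, series_twist_single, series_twist_ofPowerSeries]⟩
  rw [← PowerSeries.coeff_zero_eq_constantCoeff_apply, PowerSeries.coeff_rescale, pow_zero, one_mul,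
    PowerSeries.coeff_zero_eq_constantCoeff_apply, hf]

theorem IsLead.sub (e : Aˣ) (k' : ℕ+) {x : LaurentSeries A} {k : ℤ} {c : A}
    (hx : IsLead x k c) : IsLead (sub e k' x) ((k' : ℕ) * k) (((e ^ k : Aˣ) : A) * c) :=
  (hx.twist e).qExpand (k' : ℕ)

theorem series_constantCoeff_map {f : PowerSeries ℤ} (hf : PowerSeries.constantCoeff f = 1) :
    PowerSeries.constantCoeff (f.map (Int.castRingHom A)) = 1 := by
  rw [← PowerSeries.coeff_zero_eq_constantCoeff_apply, PowerSeries.coeff_map,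
    PowerSeries.coeff_zero_eq_constantCoeff_apply, hf]
  simp

theorem IsLead.DeltaS : IsLead (DeltaS A) 1 1 :=
  ⟨_, series_constantCoeff_map constantCoeff_dedekindEtaUnit, rfl⟩

theorem IsLead.DeltaInvS : IsLead (DeltaInvS A) (-1) 1 :=
  ⟨_, series_constantCoeff_map constantCoeff_dedekindEtaUnitInv, rfl⟩

theorem IsLead.jqModC : IsLead (jqModC A) (-1) 1 :=
  ⟨_, series_constantCoeff_map constantCoeff_jNum, rfl⟩

theorem IsLead.coeff_of_lt {x : LaurentSeries A} {k : ℤ} {c : A} (hx : IsLead x k c) {n : ℤ}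
    (hn : n < k) : x.coeff n = 0 := by
  obtain ⟨f, _, rfl⟩ := hx
  rw [HahnSeries.coeff_single_mul, ofPowerSeries_coeff_of_neg _ (by omega), mul_zero]

theorem IsLead.coeff_self {x : LaurentSeries A} {k : ℤ} {c : A} (hx : IsLead x k c) :
    x.coeff k = c := by
  obtain ⟨f, hf, rfl⟩ := hx
  rw [HahnSeries.coeff_single_mul, sub_self, show (0 : ℤ) = ((0 : ℕ) : ℤ) from rfl,
    HahnSeries.ofPowerSeries_apply_coeff, PowerSeries.coeff_zero_eq_constantCoeff_apply, hf, mul_one]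

/-- a series with leading coefficient `1` is invertible. -/
theorem IsLead.exists_inv {x : LaurentSeries A} {k : ℤ} (hx : IsLead x k 1) :
    ∃ g : LaurentSeries A, g * x = 1 ∧ IsLead g (-k) 1 := by
  obtain ⟨f, hf, rfl⟩ := hx
  have h1 : f * f.invOfUnit 1 = 1 := PowerSeries.mul_invOfUnit _ _ (by rw [hf]; rfl)
  have h2 : PowerSeries.constantCoeff (f.invOfUnit 1) = 1 := by
    have h := congrArg (PowerSeries.constantCoeff (R := A)) h1
    rwa [map_mul, hf, one_mul, map_one] at h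
  refine ⟨HahnSeries.single (-k) 1 * HahnSeries.ofPowerSeries ℤ A (f.invOfUnit 1), ?_,
    ⟨_, h2, rfl⟩⟩
  calc HahnSeries.single (-k) (1 : A) * HahnSeries.ofPowerSeries ℤ A (f.invOfUnit 1) *
        (HahnSeries.single k 1 * HahnSeries.ofPowerSeries ℤ A f)
      = (HahnSeries.single (-k) (1 : A) * HahnSeries.single k 1) *
        (HahnSeries.ofPowerSeries ℤ A f * HahnSeries.ofPowerSeries ℤ A (f.invOfUnit 1)) := by ring
    _ = 1 := by
      rw [← map_mul (HahnSeries.ofPowerSeries ℤ A), h1, map_one (HahnSeries.ofPowerSeries ℤ A),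
        HahnSeries.single_mul_single, neg_add_cancel, mul_one, mul_one]
      rfl

end Lead

section CoeffMap

variable {A A' : Type*} [CommRing A] [CommRing A']

theorem series_coeffMap_twist (φ : A →+* A') (c : Aˣ) (f : LaurentSeries A) :
    coeffMap φ (twist c f) = twist (Units.map (φ : A →* A') c) (coeffMap φ f) := by
  ext n
  rw [coeffMap_coeff, twist_coeff, twist_coeff, coeffMap_coeff, map_mul, ← map_zpow]
  rfl

theorem series_coeffMap_sub (φ : A →+* A') (c : Aˣ) (k : ℕ+) (f : LaurentSeries A) :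
    coeffMap φ (sub c k f) = sub (Units.map (φ : A →* A') c) k (coeffMap φ f) := by
  simp only [sub, RingHom.comp_apply]
  rw [coeffMap_qExpand, series_coeffMap_twist]

theorem series_coeffMap_map (φ : A →+* A') (f : PowerSeries ℤ) :
    coeffMap φ (HahnSeries.ofPowerSeries ℤ A (f.map (Int.castRingHom A))) =
      HahnSeries.ofPowerSeries ℤ A' (f.map (Int.castRingHom A')) := by
  rw [coeffMap_ofPowerSeries,
    ← RingHom.comp_apply (PowerSeries.map φ) (PowerSeries.map (Int.castRingHom A)),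
    ← PowerSeries.map_comp, RingHom.ext_int (φ.comp (Int.castRingHom A)) (Int.castRingHom A')]

theorem series_coeffMap_DeltaS (φ : A →+* A') : coeffMap φ (DeltaS A) = DeltaS A' := by
  rw [DeltaS, map_mul, coeffMap_single, map_one, series_coeffMap_map]
  rfl

theorem series_coeffMap_DeltaInvS (φ : A →+* A') : coeffMap φ (DeltaInvS A) = DeltaInvS A' := by
  rw [DeltaInvS, map_mul, coeffMap_single, map_one, series_coeffMap_map]
  rfl

theorem series_coeffMap_C (φ : A →+* A') (c : A) :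
    coeffMap φ (HahnSeries.C c) = HahnSeries.C (φ c) :=
  coeffMap_single φ 0 c

end CoeffMap

section Series

variable {N : ℕ} [NeZero N] (D : ConjData N) {A : Type*} [CommRing A]

theorem coeffMap_expn {A' : Type*} [CommRing A'] (φ : A →+* A') (ζ : Aˣ) (ν : A) (s : D.ι)
    (v : Var N) :
    coeffMap φ (expn D ζ ν s v) = expn D (Units.map (φ : A →* A') ζ) (φ ν) s v := by
  cases v with
  | J n =>
    simp only [expn]
    rw [series_coeffMap_sub, coeffMap_jqModC, map_pow]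
  | U n =>
    simp only [expn]
    rw [map_mul, map_mul, series_coeffMap_C, series_coeffMap_sub, coeffMap_qExpand,
      series_coeffMap_DeltaS, series_coeffMap_DeltaInvS, map_pow φ, map_pow (Units.map _),
      map_mul, map_natCast]
  | V n =>
    simp only [expn]
    rw [map_mul, map_mul, series_coeffMap_C, series_coeffMap_sub, coeffMap_qExpand,
      series_coeffMap_DeltaS, series_coeffMap_DeltaInvS, map_pow φ, map_pow (Units.map _),
      map_natCast]

theorem series_twist_one (f : LaurentSeries A) : twist (1 : Aˣ) f = f := by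
  ext n
  simp

theorem series_sub_eq (ζ : Aˣ) {e : ℕ} (he : e = 0) (k : ℕ+) (M : ℕ) [NeZero M]
    (hk : (k : ℕ) = M) (f : LaurentSeries A) : sub (ζ ^ e) k f = qExpand A M f := by
  subst he
  simp only [sub, RingHom.comp_apply, pow_zero, series_twist_one]
  exact qExpand_congr hk f

theorem expn_J_one (ζ : Aˣ) (ν : A) (s : D.ι) :
    expn D ζ ν s (.J ⟨1, one_dvd N⟩) = jt N A := by
  have hk := D.k_mul s 1 (one_dvd N)
  have hd := D.d_mul s 1 (one_dvd N)
  simp only [Nat.gcd_one_left, mul_one, one_pow] at hk hd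
  exact series_sub_eq ζ (D.e_eq_zero s 1 (one_dvd N) hd) _ N hk _

theorem expn_inf_J (ζ : Aˣ) (ν : A) (n : {n : ℕ // n ∣ N}) [NeZero (n : ℕ)] :
    expn D ζ ν D.inf (.J n) = qExpand A N (qExpand A (n : ℕ) (jqModC A)) := by
  have hn : 0 < (n : ℕ) := Nat.pos_of_ne_zero (NeZero.ne _)
  have hg : Nat.gcd n (D.z D.inf) = n := Nat.gcd_eq_left (n.2.trans D.z_inf)
  have hk := D.k_mul D.inf n n.2
  have hd := D.d_mul D.inf n n.2
  rw [hg] at hk hd
  have hd1 : D.d D.inf n = 1 := by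
    have : D.d D.inf n * n = 1 * n := by rw [hd, one_mul]
    exact Nat.eq_of_mul_eq_mul_right hn this
  have hk1 : (D.k D.inf n : ℕ) = N * n := by
    have : (D.k D.inf n : ℕ) * n = (N * n) * n := by rw [hk]; ring
    exact Nat.eq_of_mul_eq_mul_right hn this
  rw [qExpand_qExpand]
  exact series_sub_eq ζ (D.e_eq_zero D.inf n n.2 hd1) _ (N * n) hk1 _

theorem series_DeltaS_mul_DeltaInvS : DeltaS A * DeltaInvS A = 1 := by
  have h : (HahnSeries.ofPowerSeries ℤ A (dedekindEtaUnit.map (Int.castRingHom A))) *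
      (HahnSeries.ofPowerSeries ℤ A (dedekindEtaUnitInv.map (Int.castRingHom A))) = 1 := by
    rw [← map_mul (HahnSeries.ofPowerSeries ℤ A), ← map_mul (PowerSeries.map (Int.castRingHom A)),
      dedekindEtaUnit_mul_inv, map_one, map_one]
  calc DeltaS A * DeltaInvS A
      = (HahnSeries.single (1 : ℤ) (1 : A) * HahnSeries.single (-1 : ℤ) 1) *
        ((HahnSeries.ofPowerSeries ℤ A (dedekindEtaUnit.map (Int.castRingHom A))) *
      (HahnSeries.ofPowerSeries ℤ A (dedekindEtaUnitInv.map (Int.castRingHom A)))) := by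
        rw [DeltaS, DeltaInvS]; ring
    _ = 1 := by
      rw [h, HahnSeries.single_mul_single, mul_one, mul_one]
      rfl

omit [NeZero N] in
theorem series_d_dvd (s : D.ι) (n : {n : ℕ // n ∣ N}) : D.d s n ∣ N :=
  (Dvd.intro _ (D.d_mul s n n.2)).trans n.2

omit [NeZero N] in
theorem series_nu_mul (ν : A) (hν : ν * (N : A) = 1) (s : D.ι) (n : {n : ℕ // n ∣ N}) :
    (ν * ((N / D.d s n : ℕ) : A)) * (D.d s n : A) = 1 := by
  rw [mul_assoc, ← Nat.cast_mul, Nat.div_mul_cancel (series_d_dvd D s n), hν]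

theorem expn_U_mul_V (ζ : Aˣ) (ν : A) (hν : ν * (N : A) = 1) (s : D.ι) (n : {n : ℕ // n ∣ N}) :
    expn D ζ ν s (.U n) * expn D ζ ν s (.V n) = 1 := by
  simp only [expn]
  have h1 : sub (ζ ^ D.e s n) (D.k s n) (DeltaS A) * sub (ζ ^ D.e s n) (D.k s n) (DeltaInvS A)
      = 1 := by
    rw [← map_mul, series_DeltaS_mul_DeltaInvS, map_one]
  have h2 : qExpand A N (DeltaS A) * qExpand A N (DeltaInvS A) = 1 := by
    rw [← map_mul, series_DeltaS_mul_DeltaInvS, map_one]
  have h3 : (HahnSeries.C ((ν * ((N / D.d s n : ℕ) : A)) ^ 12) : LaurentSeries A) *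
      HahnSeries.C ((D.d s n : A) ^ 12) = 1 := by
    rw [← map_mul, ← mul_pow, series_nu_mul D ν hν, one_pow, map_one]
  calc _ = ((HahnSeries.C ((ν * ((N / D.d s n : ℕ) : A)) ^ 12) : LaurentSeries A) *
      HahnSeries.C ((D.d s n : A) ^ 12)) *
      (sub (ζ ^ D.e s n) (D.k s n) (DeltaS A) * sub (ζ ^ D.e s n) (D.k s n) (DeltaInvS A)) *
      (qExpand A N (DeltaS A) * qExpand A N (DeltaInvS A)) := by ring
    _ = 1 := by rw [h1, h2, h3, one_mul, one_mul]

theorem isLead_jt : IsLead (jt N A) (-(N : ℤ)) 1 :=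
  ((IsLead.jqModC (A := A)).qExpand N).congr (by ring) rfl

theorem jt_coeff_lead : (jt N A).coeff (-(N : ℤ)) = 1 := isLead_jt.coeff_self

theorem jt_coeff_lt (m : ℤ) (hm : m < -(N : ℤ)) : (jt N A).coeff m = 0 :=
  isLead_jt.coeff_of_lt hm

theorem exists_jt_inv : ∃ g : LaurentSeries A, g * jt N A = 1 ∧ g.coeff (N : ℤ) = 1 ∧
    ∀ m : ℤ, m < (N : ℤ) → g.coeff m = 0 := by
  obtain ⟨g, hg, hl⟩ := (isLead_jt (N := N) (A := A)).exists_inv
  rw [neg_neg] at hl
  exact ⟨g, hg, hl.coeff_self, fun m hm => hl.coeff_of_lt hm⟩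

theorem isLead_expn_J (ζ : Aˣ) (ν : A) (s : D.ι) (n : {n : ℕ // n ∣ N}) :
    IsLead (expn D ζ ν s (.J n)) (-((D.k s n : ℕ) : ℤ)) (((ζ ^ D.e s n)⁻¹ : Aˣ) : A) :=
  ((IsLead.jqModC (A := A)).sub (ζ ^ D.e s n) (D.k s n)).congr (by ring) (by simp)

theorem exists_isUnit_coeff_sub (ζ : Aˣ) (ν : A)
    (hζ : ∀ i : ℕ, 0 < i → i < N → IsUnit (1 - (ζ : A) ^ i)) (s s' : D.ι) (h : s ≠ s') :
    ∃ m : ℤ, IsUnit ((expn D ζ ν s (.J ⟨N, dvd_rfl⟩) -
      expn D ζ ν s' (.J ⟨N, dvd_rfl⟩)).coeff m) := by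
  have h1 := isLead_expn_J D ζ ν s ⟨N, dvd_rfl⟩
  have h2 := isLead_expn_J D ζ ν s' ⟨N, dvd_rfl⟩
  simp only at h1 h2
  rcases lt_trichotomy (D.k s N : ℕ) (D.k s' N : ℕ) with hlt | heq | hgt
  · refine ⟨-((D.k s' N : ℕ) : ℤ), ?_⟩
    rw [HahnSeries.coeff_sub, h2.coeff_self, h1.coeff_of_lt (by omega), zero_sub]
    exact (Units.isUnit _).neg
  · have hk : D.k s N = D.k s' N := PNat.coe_injective heq
    have he : D.e s N ≠ D.e s' N := fun he => h (D.inj s s' hk he)
    refine ⟨-((D.k s N : ℕ) : ℤ), ?_⟩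
    rw [HahnSeries.coeff_sub, h1.coeff_self]
    rw [← hk] at h2
    rw [h2.coeff_self]
    have hl := D.e_lt s N dvd_rfl
    have hl' := D.e_lt s' N dvd_rfl
    rcases lt_or_gt_of_ne he with hlt | hgt
    · -- e < e'
      have hu := hζ (D.e s' N - D.e s N) (by omega) (by omega)
      have : (((ζ ^ D.e s N)⁻¹ : Aˣ) : A) - (((ζ ^ D.e s' N)⁻¹ : Aˣ) : A)
          = -((((ζ ^ D.e s' N)⁻¹ : Aˣ) : A) * (1 - (ζ : A) ^ (D.e s' N - D.e s N))) := by
        have h3 : (ζ ^ D.e s N)⁻¹ = (ζ ^ D.e s' N)⁻¹ * ζ ^ (D.e s' N - D.e s N) := by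
          rw [eq_inv_mul_iff_mul_eq, mul_inv_eq_iff_eq_mul, ← _root_.pow_add]
          congr 1; omega
        rw [h3]
        push_cast
        ring
      rw [this]
      exact ((Units.isUnit _).mul hu).neg
    · have hu := hζ (D.e s N - D.e s' N) (by omega) (by omega)
      have : (((ζ ^ D.e s N)⁻¹ : Aˣ) : A) - (((ζ ^ D.e s' N)⁻¹ : Aˣ) : A)
          = ((((ζ ^ D.e s N)⁻¹ : Aˣ) : A) * (1 - (ζ : A) ^ (D.e s N - D.e s' N))) := by
        have h3 : (ζ ^ D.e s' N)⁻¹ = (ζ ^ D.e s N)⁻¹ * ζ ^ (D.e s N - D.e s' N) := by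
          rw [eq_inv_mul_iff_mul_eq, mul_inv_eq_iff_eq_mul, ← _root_.pow_add]
          congr 1; omega
        rw [h3]
        push_cast
        ring
      rw [this]
      exact (Units.isUnit _).mul hu
  · refine ⟨-((D.k s N : ℕ) : ℤ), ?_⟩
    rw [HahnSeries.coeff_sub, h1.coeff_self, h2.coeff_of_lt (by omega), sub_zero]
    exact Units.isUnit _

/-- leading term with a unit coefficient. -/
def IsLeadU (x : LaurentSeries A) (k : ℤ) : Prop := ∃ c : A, IsUnit c ∧ IsLead x k c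

omit [NeZero N] in
theorem IsLeadU.pow {x : LaurentSeries A} {k : ℤ} (hx : IsLeadU x k) (n : ℕ) :
    IsLeadU (x ^ n) (n * k) := by
  obtain ⟨c, hc, h⟩ := hx
  exact ⟨c ^ n, hc.pow n, h.pow n⟩

omit [NeZero N] in
theorem IsLeadU.prod {ι : Type*} (s : Finset ι) (x : ι → LaurentSeries A) (k : ι → ℤ)
    (h : ∀ i ∈ s, IsLeadU (x i) (k i)) : IsLeadU (∏ i ∈ s, x i) (∑ i ∈ s, k i) := by
  classical
  induction s using Finset.induction_on with
  | empty => exact ⟨1, isUnit_one, by simpa using IsLead.one (A := A)⟩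
  | insert a s ha ih =>
    rw [Finset.prod_insert ha, Finset.sum_insert ha]
    obtain ⟨c, hc, h1⟩ := h a (Finset.mem_insert_self a s)
    obtain ⟨d, hd, h2⟩ := ih fun i hi => h i (Finset.mem_insert_of_mem hi)
    exact ⟨c * d, hc.mul hd, h1.mul h2⟩

theorem isLeadU_expn_U (ζ : Aˣ) (ν : A) (hν : ν * (N : A) = 1) (s : D.ι) (n : {n : ℕ // n ∣ N}) :
    IsLeadU (expn D ζ ν s (.U n)) (((D.k s n : ℕ) : ℤ) - N) := by
  have h := ((IsLead.C ((ν * ((N / D.d s n : ℕ) : A)) ^ 12)).mul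
    ((IsLead.DeltaS (A := A)).sub (ζ ^ D.e s n) (D.k s n))).mul
      ((IsLead.DeltaInvS (A := A)).qExpand N)
  refine ⟨_, ?_, h.congr (by ring) rfl⟩
  have hu : IsUnit (ν * ((N / D.d s n : ℕ) : A)) :=
    IsUnit.of_mul_eq_one _ (series_nu_mul D ν hν s n)
  exact (((hu.pow 12).mul ((Units.isUnit _).mul isUnit_one))).mul isUnit_one

theorem isLeadU_expn_V (ζ : Aˣ) (ν : A) (hν : ν * (N : A) = 1) (s : D.ι) (n : {n : ℕ // n ∣ N}) :
    IsLeadU (expn D ζ ν s (.V n)) ((N : ℤ) - ((D.k s n : ℕ) : ℤ)) := by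
  have h := ((IsLead.C ((D.d s n : A) ^ 12)).mul
    ((IsLead.DeltaInvS (A := A)).sub (ζ ^ D.e s n) (D.k s n))).mul
      ((IsLead.DeltaS (A := A)).qExpand N)
  refine ⟨_, ?_, h.congr (by ring) rfl⟩
  have hu : IsUnit (D.d s n : A) :=
    IsUnit.of_mul_eq_one _ ((mul_comm _ _).trans (series_nu_mul D ν hν s n))
  exact (((hu.pow 12).mul ((Units.isUnit _).mul isUnit_one))).mul isUnit_one

/-- the order of `hmon` at the conjugate `s`. -/
def hord (s : D.ι) : ℤ :=
  ∑ I ∈ N.primeFactors.powerset, ((∏ p ∈ N.primeFactors \ I, p : ℕ) : ℤ) *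
    ((-1) ^ I.card * ((N : ℤ) - ((D.k s (N / ∏ p ∈ I, p) : ℕ) : ℤ)))

theorem isLeadU_hmon (ζ : Aˣ) (ν : A) (hν : ν * (N : A) = 1) (s : D.ι) :
    IsLeadU (MvPolynomial.aeval (expn D ζ ν s) (hmon N)) (hord D s) := by
  rw [hmon, map_prod]
  apply IsLeadU.prod
  intro I hI
  rw [map_pow]
  apply IsLeadU.pow
  have hdvd : N / ∏ p ∈ I, p ∣ N := Fermat.Agent.S28.comb_div_dvd N (Finset.mem_powerset.mp hI)
  by_cases hev : Even I.card
  · rw [if_pos hev, varV, dif_pos hdvd, MvPolynomial.aeval_X, hev.neg_one_pow, one_mul]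
    exact isLeadU_expn_V D ζ ν hν s ⟨_, hdvd⟩
  · rw [if_neg hev, varU, dif_pos hdvd, MvPolynomial.aeval_X,
      (Nat.not_even_iff_odd.mp hev).neg_one_pow]
    have := isLeadU_expn_U D ζ ν hν s ⟨_, hdvd⟩
    obtain ⟨c, hc, h⟩ := this
    exact ⟨c, hc, h.congr (by ring) rfl⟩

theorem series_gcd_prime_mul {p : ℕ} (hp : p.Prime) (d z : ℕ) :
    Nat.gcd (p * d) z = p * Nat.gcd d z ∨ Nat.gcd (p * d) z = Nat.gcd d z := by
  have h1 : Nat.gcd d z ∣ Nat.gcd (p * d) z :=
    Nat.dvd_gcd ((Nat.gcd_dvd_left d z).mul_left p) (Nat.gcd_dvd_right d z)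
  have h2 : Nat.gcd (p * d) z ∣ p * Nat.gcd d z := by
    rw [← Nat.gcd_mul_left]
    exact Nat.dvd_gcd (Nat.gcd_dvd_left _ _) ((Nat.gcd_dvd_right _ _).mul_left p)
  obtain ⟨t, ht⟩ := h1
  rcases Nat.eq_zero_or_pos (Nat.gcd d z) with h0 | h0
  · right; rw [ht, h0, zero_mul]
  · rw [ht, mul_comm p] at h2
    have h3 : t ∣ p := Nat.dvd_of_mul_dvd_mul_left h0 h2
    rcases (Nat.dvd_prime hp).mp h3 with rfl | rfl
    · right; rw [ht, mul_one]
    · left; rw [ht, mul_comm]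

theorem series_altSum_lin (M : ℕ) (a b : ℚ) (f g : ℕ → ℚ) :
    Fermat.Agent.S28.altSum M (fun d => a * f d - b * g d) =
      a * Fermat.Agent.S28.altSum M f - b * Fermat.Agent.S28.altSum M g := by
  simp only [Fermat.Agent.S28.altSum, Finset.mul_sum, ← Finset.sum_sub_distrib]
  apply Finset.sum_congr rfl
  intro I _
  ring

theorem series_altSum_gcd (M z : ℕ) (hM : M ≠ 0) (hz : ¬ M ∣ z) :
    Fermat.Agent.S28.altSum M (fun d => ((Nat.gcd d z : ℕ) : ℚ) ^ 2 / d) = 0 := by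
  have hd0 : ∀ d : ℕ, d ∣ M → (d : ℚ) ≠ 0 := by
    intro d hd
    have : d ≠ 0 := fun h => hM (by rw [h] at hd; exact zero_dvd_iff.mp hd)
    exact_mod_cast this
  have hg0 : ∀ d : ℕ, d ∣ M → ((Nat.gcd d z : ℕ) : ℚ) ≠ 0 := by
    intro d hd
    have : d ≠ 0 := fun h => hM (by rw [h] at hd; exact zero_dvd_iff.mp hd)
    have h2 : Nat.gcd d z ≠ 0 := fun h => this (Nat.eq_zero_of_gcd_eq_zero_left h)
    exact_mod_cast h2
  have hroot : ∀ p d : ℕ, p.Prime → p * d ∣ M → Nat.gcd (p * d) z = Nat.gcd d z →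
      (p : ℚ) * (((Nat.gcd (p * d) z : ℕ) : ℚ) ^ 2 / ((p * d : ℕ) : ℚ))
        = ((Nat.gcd d z : ℕ) : ℚ) ^ 2 / d := by
    intro p d hp hpd h
    have h1 := hd0 _ hpd
    have h2 := hd0 d ((Dvd.intro_left p rfl).trans hpd)
    rw [h]
    push_cast at h1 ⊢
    have hp0 : (p : ℚ) ≠ 0 := left_ne_zero_of_mul h1
    field_simp
  have H1 : ∀ d, d ∣ M → ((Nat.gcd d z : ℕ) : ℚ) ^ 2 / d ≠ 0 := by
    intro d hd
    exact div_ne_zero (pow_ne_zero 2 (hg0 d hd)) (hd0 d hd)
  have H2 : ∀ p d : ℕ, p.Prime → p * d ∣ M →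
      ((Nat.gcd (p * d) z : ℕ) : ℚ) ^ 2 / ((p * d : ℕ) : ℚ)
        = p * (((Nat.gcd d z : ℕ) : ℚ) ^ 2 / d) ∨
      (p : ℚ) * (((Nat.gcd (p * d) z : ℕ) : ℚ) ^ 2 / ((p * d : ℕ) : ℚ))
        = ((Nat.gcd d z : ℕ) : ℚ) ^ 2 / d := by
    intro p d hp hpd
    rcases series_gcd_prime_mul hp d z with h | h
    · left
      have h1 := hd0 _ hpd
      have h2 := hd0 d ((Dvd.intro_left p rfl).trans hpd)
      rw [h]
      push_cast at h1 ⊢
      have hp0 : (p : ℚ) ≠ 0 := left_ne_zero_of_mul h1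
      field_simp
    · right
      exact hroot p d hp hpd h
  have H3 : ∀ p d : ℕ, p.Prime → p * (p * d) ∣ M →
      (p : ℚ) * (((Nat.gcd (p * d) z : ℕ) : ℚ) ^ 2 / ((p * d : ℕ) : ℚ))
        = ((Nat.gcd d z : ℕ) : ℚ) ^ 2 / d →
      (p : ℚ) * (((Nat.gcd (p * (p * d)) z : ℕ) : ℚ) ^ 2 / ((p * (p * d) : ℕ) : ℚ))
        = ((Nat.gcd (p * d) z : ℕ) : ℚ) ^ 2 / ((p * d : ℕ) : ℚ) := by
    intro p d hp hppd h
    have hpd : p * d ∣ M := (Dvd.intro_left p rfl).trans hppd
    have hdM : d ∣ M := (Dvd.intro_left p rfl).trans hpd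
    have hg : Nat.gcd (p * d) z = Nat.gcd d z := by
      rcases series_gcd_prime_mul hp d z with h' | h'
      · exfalso
        rw [h'] at h
        have h1 := hd0 _ hpd
        have h2 := hd0 d hdM
        have h3 := hg0 d hdM
        push_cast at h1 h
        have hp0 : (p : ℚ) ≠ 0 := left_ne_zero_of_mul h1
        field_simp at h
        have hp1 : (p : ℚ) ^ 2 = 1 := h
        have hp2 : p ^ 2 = 1 := by exact_mod_cast hp1
        have := hp.two_le
        nlinarith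
      · exact h'
    apply hroot p (p * d) hp hppd
    rcases series_gcd_prime_mul hp (p * d) z with h' | h'
    · exfalso
      have h1 : p * Nat.gcd d z ∣ Nat.gcd (p * d) z := by
        apply Nat.dvd_gcd
        · exact Nat.mul_dvd_mul_left p (Nat.gcd_dvd_left d z)
        · rw [← hg, ← h']; exact Nat.gcd_dvd_right _ _
      rw [hg] at h1
      have hpos : 0 < Nat.gcd d z := by
        have := hg0 d hdM
        exact Nat.pos_of_ne_zero (by exact_mod_cast this)
      have h2 := Nat.le_of_dvd hpos h1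
      have := hp.two_le
      nlinarith
    · exact h'
  rcases Fermat.Agent.S28.altSum_eq_zero_or M hM
    (fun d => ((Nat.gcd d z : ℕ) : ℚ) ^ 2 / d) (by simp) H1 H2 H3 with h | h
  · exfalso
    have h1 := h M dvd_rfl
    have h2 := hd0 M dvd_rfl
    rw [div_eq_iff h2, ← pow_two] at h1
    have h3 : (Nat.gcd M z) ^ 2 = M ^ 2 := by exact_mod_cast h1
    have h4 : Nat.gcd M z = M := Nat.pow_left_injective (n := 2) (by norm_num) h3
    exact hz (Nat.gcd_eq_left_iff_dvd.mp h4)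
  · exact h

theorem hord_pos (s : D.ι) (hs : s ≠ D.inf) : 0 < hord D s := by
  have hN : N ≠ 0 := NeZero.ne N
  have hNQ : (N : ℚ) ≠ 0 := by exact_mod_cast hN
  have h1 : ((hord D s : ℤ) : ℚ) = Fermat.Agent.S28.altSum N
      (fun d => (N : ℚ) * 1 - (N : ℚ) * (((Nat.gcd d (D.z s) : ℕ) : ℚ) ^ 2 / d)) := by
    rw [hord, Fermat.Agent.S28.altSum]
    push_cast
    apply Finset.sum_congr rfl
    intro I hI
    have hdvd : N / ∏ p ∈ I, p ∣ N := Fermat.Agent.S28.comb_div_dvd N (Finset.mem_powerset.mp hI)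
    have hk := D.k_mul s _ hdvd
    have hd0 : ((N / ∏ p ∈ I, p : ℕ) : ℚ) ≠ 0 := by
      have : N / ∏ p ∈ I, p ≠ 0 := fun h => hN (by rw [h] at hdvd; exact zero_dvd_iff.mp hdvd)
      exact_mod_cast this
    have hk' : ((D.k s (N / ∏ p ∈ I, p) : ℕ) : ℚ) =
        (N : ℚ) * (((Nat.gcd (N / ∏ p ∈ I, p) (D.z s) : ℕ) : ℚ) ^ 2 / ((N / ∏ p ∈ I, p : ℕ) : ℚ)) := by
      rw [mul_div_assoc', eq_div_iff hd0]
      exact_mod_cast hk
    rw [hk']
    ring
  rw [series_altSum_lin, series_altSum_gcd N (D.z s) hN (D.z_ne s hs), mul_zero, sub_zero,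
    Fermat.Agent.S28.altSum_one] at h1
  have h2 : (0 : ℚ) < (N : ℚ) * ∏ p ∈ N.primeFactors, ((p : ℚ) - 1) := by
    apply mul_pos (by exact_mod_cast Nat.pos_of_ne_zero hN)
    apply Finset.prod_pos
    intro p hp
    have : (2 : ℚ) ≤ p := by exact_mod_cast (Nat.prime_of_mem_primeFactors hp).two_le
    linarith
  rw [← h1] at h2
  exact_mod_cast h2

theorem hmon_coeff_nonpos (ζ : Aˣ) (ν : A) (hν : ν * (N : A) = 1) (s : D.ι) (hs : s ≠ D.inf)
    (m : ℤ) (hm : m ≤ 0) : (MvPolynomial.aeval (expn D ζ ν s) (hmon N)).coeff m = 0 := by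
  obtain ⟨c, _, h⟩ := isLeadU_hmon D ζ ν hν s
  exact h.coeff_of_lt (lt_of_le_of_lt hm (hord_pos D s hs))

theorem hmon_exists_isUnit_coeff (ζ : Aˣ) (ν : A) (hν : ν * (N : A) = 1) (s : D.ι) :
    ∃ m : ℤ, IsUnit ((MvPolynomial.aeval (expn D ζ ν s) (hmon N)).coeff m) := by
  obtain ⟨c, hc, h⟩ := isLeadU_hmon D ζ ν hν s
  exact ⟨hord D s, by rw [h.coeff_self]; exact hc⟩

end Series

end Fermat.Agent.S28T
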