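import Mathlib
import Fermat.Agent.S28T.AnDefs
set_option autoImplicit false
noncomputable section
namespace Fermat.Agent.S28T
open ModularCurve HahnSeries UpperHalfPlane Function
open scoped MatrixGroups Manifold

/-! ## Abstract extension of ring homomorphisms to a field of fractions -/

theorem sigma_exists_lift {R F L : Type*} [CommRing R] [Field F] [Field L]
    (ev : R →+* F) (ev' : R →+* L)
    (hker : ∀ W, ev W = 0 ↔ ev' W = 0)
    (hfrac : ∀ x : F, ∃ P Q, ev Q ≠ 0 ∧ x * ev Q = ev P) :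
    ∃ σ : F →+* L, ∀ W, σ (ev W) = ev' W := by
  classical
  choose P Q hQ hPQ using hfrac
  have hne : ∀ q, ev q ≠ 0 → ev' q ≠ 0 := fun q hq h => hq ((hker q).2 h)
  have key : ∀ (x : F) (p q : R), ev q ≠ 0 → x * ev q = ev p →
      ev' (P x) / ev' (Q x) = ev' p / ev' q := by
    intro x p q hq hpq
    rw [div_eq_div_iff (hne _ (hQ x)) (hne _ hq)]
    have h1 : ev (P x * q - p * Q x) = 0 := by
      rw [map_sub, map_mul, map_mul, ← hPQ, ← hpq]; ring
    have h2 := (hker _).1 h1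
    rw [map_sub, map_mul, map_mul, sub_eq_zero] at h2
    exact h2
  refine ⟨{ toFun := fun x => ev' (P x) / ev' (Q x), map_one' := ?_, map_mul' := ?_,
            map_zero' := ?_, map_add' := ?_ }, ?_⟩
  · rw [key 1 1 1 (by simp) (by simp)]; simp
  · intro x y
    rw [key (x * y) (P x * P y) (Q x * Q y) (by rw [map_mul]; exact mul_ne_zero (hQ x) (hQ y))
      (by rw [map_mul, map_mul, ← hPQ, ← hPQ]; ring)]
    rw [map_mul, map_mul, mul_div_mul_comm]
  · rw [key 0 0 1 (by simp) (by simp)]; simp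
  · intro x y
    rw [key (x + y) (P x * Q y + P y * Q x) (Q x * Q y)
      (by rw [map_mul]; exact mul_ne_zero (hQ x) (hQ y))
      (by rw [map_mul, map_add, map_mul, map_mul, ← hPQ, ← hPQ]; ring)]
    rw [map_mul, map_add, map_mul, map_mul, div_add_div _ _ (hne _ (hQ x)) (hne _ (hQ y))]
    congr 1
    ring
  · intro W
    show ev' (P (ev W)) / ev' (Q (ev W)) = ev' W
    rw [key (ev W) W 1 (by simp) (by simp)]; simp

theorem sigma_lift_unique {R F L : Type*} [CommRing R] [Field F] [Field L]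
    (ev : R →+* F) (hfrac : ∀ x : F, ∃ P Q, ev Q ≠ 0 ∧ x * ev Q = ev P)
    (σ τ : F →+* L) (h : ∀ W, σ (ev W) = τ (ev W)) : σ = τ := by
  ext x
  obtain ⟨P, Q, hQ, hPQ⟩ := hfrac x
  have h1 := congrArg σ hPQ
  have h2 := congrArg τ hPQ
  rw [map_mul] at h1 h2
  have hQ' : τ (ev Q) ≠ 0 := by
    rw [Ne, map_eq_zero]; exact hQ
  rw [h, h, ← h2] at h1
  exact mul_right_cancel₀ hQ' h1

/-! ## Fractions -/

/-- evaluation at the `j(q^n)`, with values in `ℚ((q))`. -/
def sigmaEv0 (N : ℕ) [NeZero N] : MvPolynomial {n : ℕ // n ∣ N} ℤ →+* LaurentSeries ℚ :=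
  (algebraMap ↥(modularFunctionFieldFull N) (LaurentSeries ℚ)).comp
    (MvPolynomial.aeval (jF N)).toRingHom

theorem sigmaEv0_apply (N : ℕ) [NeZero N] (P : MvPolynomial {n : ℕ // n ∣ N} ℤ) :
    sigmaEv0 N P = ((MvPolynomial.aeval (jF N) P : ↥(modularFunctionFieldFull N)) :
      LaurentSeries ℚ) := rfl

theorem sigma_exists_fraction0 {N : ℕ} [NeZero N] (x : LaurentSeries ℚ)
    (hx : x ∈ IntermediateField.adjoin ℚ (divisorExpansions N)) :
    ∃ P Q : MvPolynomial {n : ℕ // n ∣ N} ℤ, sigmaEv0 N Q ≠ 0 ∧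
      x * sigmaEv0 N Q = sigmaEv0 N P := by
  induction hx using IntermediateField.adjoin_induction with
  | mem x hx =>
    obtain ⟨d, hd0, hd, rfl⟩ := hx
    refine ⟨MvPolynomial.X ⟨d, hd⟩, 1, by simp, ?_⟩
    rw [map_one, mul_one, sigmaEv0_apply, MvPolynomial.aeval_X]
    rfl
  | algebraMap r =>
    refine ⟨MvPolynomial.C r.num, MvPolynomial.C (r.den : ℤ), ?_, ?_⟩
    · rw [← MvPolynomial.algebraMap_eq, eq_intCast, map_intCast,
        ← map_intCast (algebraMap ℚ (LaurentSeries ℚ)), Ne, map_eq_zero]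
      simp [r.den_ne_zero]
    · rw [← MvPolynomial.algebraMap_eq, eq_intCast, eq_intCast, map_intCast, map_intCast]
      rw [← map_intCast (algebraMap ℚ (LaurentSeries ℚ)),
        ← map_intCast (algebraMap ℚ (LaurentSeries ℚ)), ← map_mul]
      congr 1
      simp [Rat.mul_den_eq_num]
  | add x y hx hy ihx ihy =>
    obtain ⟨P, Q, hQ, hPQ⟩ := ihx
    obtain ⟨P', Q', hQ', hPQ'⟩ := ihy
    refine ⟨P * Q' + P' * Q, Q * Q', by rw [map_mul]; exact mul_ne_zero hQ hQ', ?_⟩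
    rw [map_mul, map_add, map_mul, map_mul, ← hPQ, ← hPQ']
    ring
  | inv x hx ihx =>
    obtain ⟨P, Q, hQ, hPQ⟩ := ihx
    by_cases hP : sigmaEv0 N P = 0
    · refine ⟨0, 1, by simp, ?_⟩
      rw [hP] at hPQ
      have hx0 : x = 0 := (mul_eq_zero.1 hPQ).resolve_right hQ
      subst hx0
      simp
    · refine ⟨Q, P, hP, ?_⟩
      rw [← hPQ]
      have hx0 : x ≠ 0 := by
        intro h
        rw [h, zero_mul] at hPQ
        exact hP hPQ.symm
      field_simp
  | mul x y hx hy ihx ihy =>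
    obtain ⟨P, Q, hQ, hPQ⟩ := ihx
    obtain ⟨P', Q', hQ', hPQ'⟩ := ihy
    refine ⟨P * P', Q * Q', by rw [map_mul]; exact mul_ne_zero hQ hQ', ?_⟩
    rw [map_mul, map_mul, ← hPQ, ← hPQ']
    ring

theorem exists_fraction {N : ℕ} [NeZero N] (x : ↥(modularFunctionFieldFull N)) :
    ∃ P Q : MvPolynomial {n : ℕ // n ∣ N} ℤ, MvPolynomial.aeval (jF N) Q ≠ 0 ∧
      x * MvPolynomial.aeval (jF N) Q = MvPolynomial.aeval (jF N) P := by
  obtain ⟨P, Q, hQ, hPQ⟩ := sigma_exists_fraction0 (N := N) x.1 x.2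
  refine ⟨P, Q, ?_, ?_⟩
  · intro h
    apply hQ
    rw [sigmaEv0_apply, h]
    rfl
  · apply Subtype.ext
    exact hPQ

/-! ## The embeddings -/

theorem sigma_twist_one {A : Type*} [CommRing A] (f : LaurentSeries A) : twist (1 : Aˣ) f = f := by
  ext n
  simp

theorem sigma_expn_inf_J {N : ℕ} [NeZero N] (D : ConjData N) {A : Type*} [CommRing A]
    (ζ : Aˣ) (ν : A) (n : {n : ℕ // n ∣ N}) [NeZero (n : ℕ)] :
    expn D ζ ν D.inf (.J n) = qExpand A N (qExpand A (n : ℕ) (jqModC A)) := by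
  have hn : (n : ℕ) ∣ N := n.2
  have hn0 : 0 < (n : ℕ) := NeZero.pos _
  have hg : Nat.gcd n (D.z D.inf) = n := Nat.gcd_eq_left (hn.trans D.z_inf)
  have hd : D.d D.inf n = 1 := by
    have := D.d_mul D.inf n hn
    rw [hg] at this
    exact Nat.eq_of_mul_eq_mul_right hn0 (by simpa using this)
  have he : D.e D.inf n = 0 := D.e_eq_zero _ _ hn hd
  have hk : (D.k D.inf n : ℕ) = N * n := by
    have := D.k_mul D.inf n hn
    rw [hg] at this
    exact Nat.eq_of_mul_eq_mul_right hn0 (by rw [this]; ring)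
  show qExpand A (D.k D.inf n : ℕ) (twist (ζ ^ D.e D.inf n) (jqModC A)) = _
  rw [he, pow_zero, sigma_twist_one, qExpand_qExpand, qExpand_congr hk]

/-- evaluation at the conjugate expansions of the `j(q^n)`. -/
def sigmaEvS {N : ℕ} [NeZero N] (D : ConjData N) (s : D.ι) :
    MvPolynomial {n : ℕ // n ∣ N} ℤ →+* LaurentSeries ℂ :=
  (MvPolynomial.aeval (fun n => expn D (zetaC N) ((N : ℂ)⁻¹) s (.J n))).toRingHom

theorem sigmaEvS_eq {N : ℕ} [NeZero N] (D : ConjData N) (s : D.ι)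
    (W : MvPolynomial {n : ℕ // n ∣ N} ℤ) :
    MvPolynomial.aeval (expn D (zetaC N) ((N : ℂ)⁻¹) s)
      (MvPolynomial.rename Var.J (MvPolynomial.map (algebraMap ℤ ℂ) W)) = sigmaEvS D s W := by
  have h : ((MvPolynomial.aeval (expn D (zetaC N) ((N : ℂ)⁻¹) s)).toRingHom.comp
      ((MvPolynomial.rename (R := ℂ) (Var.J (N := N))).toRingHom.comp
        (MvPolynomial.map (algebraMap ℤ ℂ)))) = sigmaEvS D s := by
    refine MvPolynomial.ringHom_ext (fun r => ?_) (fun n => ?_)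
    · rw [← MvPolynomial.algebraMap_eq, eq_intCast, map_intCast, map_intCast]
    · simp [sigmaEvS]
  exact RingHom.congr_fun h W

theorem sigmaEvS_eq_zero_iff {N : ℕ} [NeZero N] (D : ConjData N) (hD : D.IsAnalytic) (s s' : D.ι)
    (W : MvPolynomial {n : ℕ // n ∣ N} ℤ) : sigmaEvS D s W = 0 ↔ sigmaEvS D s' W = 0 := by
  rw [← sigmaEvS_eq, ← sigmaEvS_eq]
  exact ⟨hD.ker _ s s', hD.ker _ s' s⟩

theorem sigmaEvS_inf {N : ℕ} [NeZero N] (D : ConjData N) :
    sigmaEvS D D.inf = (embQ N).comp (sigmaEv0 N) := by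
  refine MvPolynomial.ringHom_ext (fun r => ?_) (fun n => ?_)
  · rw [← MvPolynomial.algebraMap_eq, eq_intCast, map_intCast, map_intCast]
  · have : NeZero (n : ℕ) := ⟨(Nat.pos_of_dvd_of_pos n.2 (NeZero.pos N)).ne'⟩
    have h1 : sigmaEvS D D.inf (MvPolynomial.X n) = expn D (zetaC N) ((N : ℂ)⁻¹) D.inf (.J n) := by
      show MvPolynomial.aeval _ (MvPolynomial.X n) = _
      rw [MvPolynomial.aeval_X]
    have h2 : sigmaEv0 N (MvPolynomial.X n) = qExpand ℚ (n : ℕ) jq := by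
      rw [sigmaEv0_apply, MvPolynomial.aeval_X]
      rfl
    rw [h1, RingHom.comp_apply, h2, sigma_expn_inf_J]
    show _ = qExpand ℂ N (coeffMap (algebraMap ℚ ℂ) (qExpand ℚ (n : ℕ) jq))
    rw [coeffMap_qExpand, ← jqModC_rat, coeffMap_jqModC]

theorem exists_sigma {N : ℕ} [NeZero N] (D : ConjData N) (hD : D.IsAnalytic) :
    ∃ σ : D.ι → (↥(modularFunctionFieldFull N) →+* LaurentSeries ℂ),
      (∀ x, σ D.inf x = embQ N (x : LaurentSeries ℚ)) ∧
      (∀ s n, σ s (jF N n) = expn D (zetaC N) ((N : ℂ)⁻¹) s (.J n)) := by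
  set ev : MvPolynomial {n : ℕ // n ∣ N} ℤ →+* ↥(modularFunctionFieldFull N) :=
    (MvPolynomial.aeval (jF N)).toRingHom with hev
  have hfrac : ∀ x : ↥(modularFunctionFieldFull N), ∃ P Q, ev Q ≠ 0 ∧ x * ev Q = ev P :=
    fun x => exists_fraction x
  have hker : ∀ s W, ev W = 0 ↔ sigmaEvS D s W = 0 := by
    intro s W
    rw [sigmaEvS_eq_zero_iff D hD s D.inf, sigmaEvS_inf, RingHom.comp_apply,
      map_eq_zero (embQ N), sigmaEv0_apply]
    exact (ZeroMemClass.coe_eq_zero (x := ev W)).symm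
  choose σ hσ using fun s => sigma_exists_lift ev (sigmaEvS D s) (hker s) hfrac
  refine ⟨σ, ?_, ?_⟩
  · have : σ D.inf = (embQ N).comp (algebraMap ↥(modularFunctionFieldFull N) (LaurentSeries ℚ)) := by
      refine sigma_lift_unique ev hfrac _ _ fun W => ?_
      rw [hσ, sigmaEvS_inf]
      rfl
    intro x
    rw [this]
    rfl
  · intro s n
    have h := hσ s (MvPolynomial.X n)
    have h1 : ev (MvPolynomial.X n) = jF N n := by
      show MvPolynomial.aeval _ (MvPolynomial.X n) = _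
      rw [MvPolynomial.aeval_X]
    have h2 : sigmaEvS D s (MvPolynomial.X n) = expn D (zetaC N) ((N : ℂ)⁻¹) s (.J n) := by
      show MvPolynomial.aeval _ (MvPolynomial.X n) = _
      rw [MvPolynomial.aeval_X]
    rw [h1, h2] at h
    exact h

end Fermat.Agent.S28T
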