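import Mathlib
import Fermat.Agent.S28T.DescentCore
import Fermat.Agent.S28T.IntClosed
import Fermat.Agent.S28T.Series
import Fermat.Agent.S28T.Sigma

set_option autoImplicit false

noncomputable section

namespace Fermat.Agent.S28T

open ModularCurve ModularCurve.IgusaScheme

/-- Integrality over `𝒪[g]` implies integrality over `R[g]` when `𝒪` is integral over `R`. -/
theorem isIntegralElem_of_adjoin {R 𝒪 Ω : Type*} [CommRing R] [CommRing 𝒪] [CommRing Ω]
    [Algebra R 𝒪] [Algebra.IsIntegral R 𝒪] [Algebra 𝒪 Ω] (g x : Ω)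
    (hx : IsIntegral ↥(Algebra.adjoin 𝒪 {g}) x) :
    ((Polynomial.aeval g : Polynomial 𝒪 →ₐ[𝒪] Ω).toRingHom.comp
      (Polynomial.mapRingHom (algebraMap R 𝒪))).IsIntegralElem x := by
  set f : Polynomial R →+* Ω := (Polynomial.aeval g : Polynomial 𝒪 →ₐ[𝒪] Ω).toRingHom.comp
      (Polynomial.mapRingHom (algebraMap R 𝒪)) with hf
  let _ : Algebra (Polynomial R) Ω := f.toAlgebra
  have hmem : ∀ a ∈ Algebra.adjoin 𝒪 {g}, a ∈ integralClosure (Polynomial R) Ω := by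
    intro a ha
    induction ha using Algebra.adjoin_induction with
    | mem y hy =>
      rw [Set.mem_singleton_iff] at hy
      subst hy
      have : y = algebraMap (Polynomial R) Ω Polynomial.X := by
        change y = f Polynomial.X
        simp [hf]
      rw [this]
      exact Subalgebra.algebraMap_mem _ _
    | algebraMap c =>
      have hc : (algebraMap R 𝒪).IsIntegralElem c := Algebra.IsIntegral.isIntegral c
      exact isIntegralElem_transfer (algebraMap R 𝒪) f (algebraMap 𝒪 Ω) (RingHom.id Ω)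
        Function.injective_id (fun a => ⟨Polynomial.C a, by simp [hf]⟩) rfl hc
    | add y z _ _ hy hz => exact add_mem hy hz
    | mul y z _ _ hy hz => exact mul_mem hy hz
  have h1 : IsIntegral ↥(integralClosure (Polynomial R) Ω) x :=
    isIntegralElem_transfer (algebraMap ↥(Algebra.adjoin 𝒪 {g}) Ω)
      (algebraMap ↥(integralClosure (Polynomial R) Ω) Ω) (RingHom.id Ω) (RingHom.id Ω)
      Function.injective_id (fun a => ⟨⟨a, hmem a a.2⟩, rfl⟩) rfl hx
  exact isIntegral_trans (R := Polynomial R) (A := ↥(integralClosure (Polynomial R) Ω)) x h1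

/-- Ring homomorphisms out of `ℤ_(ℓ)` into a field of characteristic zero are unique. -/
theorem ratLocalizedAt_ringHom_ext {ℓ : ℕ} {K : Type*} [Field K] [CharZero K]
    (f g : ↥(GaloisRep.ratLocalizedAt ℓ) →+* K) : f = g := by
  ext r
  have h : ((r : ℚ).den : ↥(GaloisRep.ratLocalizedAt ℓ)) * r =
      ((r : ℚ).num : ↥(GaloisRep.ratLocalizedAt ℓ)) := by
    apply Subtype.ext
    push_cast
    exact Rat.den_mul_eq_num _
  have hf := congrArg f h
  have hg := congrArg g h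
  rw [map_mul, map_natCast, map_intCast] at hf hg
  have hd : (((r : ℚ).den : ℕ) : K) ≠ 0 := by exact_mod_cast (r : ℚ).den_ne_zero
  exact mul_left_cancel₀ hd (hf.trans hg.symm)

theorem cm_aeval {A A' : Type*} [CommRing A] [CommRing A'] (φ : A →+* A') (j : LaurentSeries A)
    (T : Polynomial A) :
    coeffMap φ (Polynomial.aeval j T) = Polynomial.aeval (coeffMap φ j) (T.map φ) := by
  have h : (coeffMap φ).comp (algebraMap A (LaurentSeries A)) =
      (algebraMap A' (LaurentSeries A')).comp φ := by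
    ext1 c
    simp only [RingHom.comp_apply, algebraMap_laurent, coeffMap_C]
  rw [Polynomial.aeval_def, Polynomial.aeval_def, Polynomial.hom_eval₂, Polynomial.eval₂_map, h]

section Setup

variable {N : ℕ} [NeZero N] (D : ConjData N)
  {𝒪 : Type*} [CommRing 𝒪] (emb : 𝒪 →+* ℂ) (ζ : 𝒪ˣ) (ν : 𝒪)

/-- The evaluation at the conjugate `s`. -/
def sg (s : D.ι) : MvPolynomial (Var N) 𝒪 →+* LaurentSeries 𝒪 :=
  (MvPolynomial.aeval (expn D ζ ν s) : MvPolynomial (Var N) 𝒪 →ₐ[𝒪] LaurentSeries 𝒪).toRingHom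

/-- Polynomials in `j`. -/
def betaJ (N : ℕ) [NeZero N] (𝒪 : Type*) [CommRing 𝒪] :
    Polynomial 𝒪 →+* MvPolynomial (Var N) 𝒪 :=
  (Polynomial.aeval (MvPolynomial.X (Var.J ⟨1, one_dvd N⟩)) :
    Polynomial 𝒪 →ₐ[𝒪] MvPolynomial (Var N) 𝒪).toRingHom

theorem sg_betaJ (s : D.ι) (T : Polynomial 𝒪) :
    sg D ζ ν s (betaJ N 𝒪 T) = Polynomial.aeval (jt N 𝒪) T := by
  change MvPolynomial.aeval (expn D ζ ν s) (Polynomial.aeval _ T) = _
  rw [← Polynomial.aeval_algHom_apply, MvPolynomial.aeval_X, expn_J_one]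

variable {emb ζ ν}

theorem cm_sg (hζ : emb (ζ : 𝒪) = (zetaC N : ℂ)) (hν : ν * (N : 𝒪) = 1) (s : D.ι)
    (b : MvPolynomial (Var N) 𝒪) :
    coeffMap emb (sg D ζ ν s b) =
      MvPolynomial.aeval (expn D (zetaC N) ((N : ℂ)⁻¹) s) (MvPolynomial.map emb b) := by
  have h : (coeffMap emb).comp (sg D ζ ν s) =
      (MvPolynomial.aeval (expn D (zetaC N) ((N : ℂ)⁻¹) s) :
        MvPolynomial (Var N) ℂ →ₐ[ℂ] LaurentSeries ℂ).toRingHom.comp (MvPolynomial.map emb) := by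
    apply MvPolynomial.ringHom_ext
    · intro c
      simp only [sg, RingHom.comp_apply, AlgHom.toRingHom_eq_coe, RingHom.coe_coe,
        MvPolynomial.aeval_C, MvPolynomial.map_C, algebraMap_laurent, coeffMap_C]
    · intro v
      simp only [sg, RingHom.comp_apply, AlgHom.toRingHom_eq_coe, RingHom.coe_coe,
        MvPolynomial.aeval_X, MvPolynomial.map_X]
      rw [coeffMap_expn]
      have h1 : Units.map (emb : 𝒪 →* ℂ) ζ = zetaC N := Units.ext hζ
      have h2 : emb ν = (N : ℂ)⁻¹ := by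
        apply eq_inv_of_mul_eq_one_left
        rw [← map_natCast emb, ← map_mul, hν, map_one]
      rw [h1, h2]
  exact congrArg (fun f => f b) h

include D in
theorem cm_jt : coeffMap emb (jt N 𝒪) = jt N ℂ := by
  rw [← expn_J_one D (1 : 𝒪ˣ) 0 D.inf, coeffMap_expn, expn_J_one]

theorem sg_trace (hD : D.IsAnalytic) (hemb : Function.Injective emb)
    (hζ : emb (ζ : 𝒪) = (zetaC N : ℂ)) (hν : ν * (N : 𝒪) = 1) (b : MvPolynomial (Var N) 𝒪) :
    ∃ T : Polynomial 𝒪, ∑ s, sg D ζ ν s b = Polynomial.aeval (jt N 𝒪) T := by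
  obtain ⟨T, hT⟩ := hD.trace (MvPolynomial.map emb b)
  obtain ⟨T₀, -, hT₀⟩ := exists_poly_of_coeffMap emb hemb (jt N 𝒪) N (NeZero.pos N)
    jt_coeff_lead jt_coeff_lt T (∑ s, sg D ζ ν s b) (by
      rw [cm_jt D, ← hT, map_sum]
      exact Finset.sum_congr rfl fun s _ => (cm_sg D hζ hν s b).symm)
  exact ⟨T₀, hT₀.symm⟩

theorem sg_es (hD : D.IsAnalytic) (hemb : Function.Injective emb)
    (hζ : emb (ζ : 𝒪) = (zetaC N : ℂ)) (hν : ν * (N : 𝒪) = 1) (b : MvPolynomial (Var N) 𝒪)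
    (i : ℕ) :
    ∃ T : Polynomial 𝒪, es (fun s => sg D ζ ν s b) i = Polynomial.aeval (jt N 𝒪) T := by
  have h1 : MvPolynomial.aeval (fun s => coeffMap emb (sg D ζ ν s b))
      (MvPolynomial.esymm D.ι ℂ i) ∈ (Polynomial.aeval (jt N ℂ) : Polynomial ℂ →ₐ[ℂ] _).range := by
    apply esymm_mem_of_psum_mem
    intro k _
    obtain ⟨T, hT⟩ := sg_trace D hD hemb hζ hν (b ^ k)
    refine ⟨T.map emb, ?_⟩
    have h2 : ∑ s, coeffMap emb (sg D ζ ν s b) ^ k = coeffMap emb (∑ s, sg D ζ ν s (b ^ k)) := by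
      rw [map_sum]
      exact Finset.sum_congr rfl fun s _ => by rw [map_pow, map_pow]
    rw [h2, hT, cm_aeval, cm_jt D]
    rfl
  obtain ⟨T, hT⟩ := h1
  obtain ⟨T₀, -, hT₀⟩ := exists_poly_of_coeffMap emb hemb (jt N 𝒪) N (NeZero.pos N)
    jt_coeff_lead jt_coeff_lt T (es (fun s => sg D ζ ν s b) i) (by
      rw [cm_jt D, map_es]
      rw [MvPolynomial.aeval_esymm_eq_multiset_esymm] at hT
      exact hT)
  exact ⟨T₀, hT₀.symm⟩

theorem sg_X (s : D.ι) (v : Var N) : sg D ζ ν s (MvPolynomial.X v) = expn D ζ ν s v := by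
  simp [sg]

theorem sg_map_int (s : D.ι) (p : MvPolynomial (Var N) ℤ) :
    sg D ζ ν s (MvPolynomial.map (Int.castRingHom 𝒪) p) =
      MvPolynomial.aeval (expn D ζ ν s) p := by
  have h : (sg D ζ ν s).comp (MvPolynomial.map (Int.castRingHom 𝒪)) =
      (MvPolynomial.aeval (expn D ζ ν s) :
        MvPolynomial (Var N) ℤ →ₐ[ℤ] LaurentSeries 𝒪).toRingHom := by
    apply MvPolynomial.ringHom_ext
    · intro c
      simp
    · intro v
      simp [sg_X]
  exact congrArg (fun f => f p) h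

/-- From polynomials in the `j(q^n)` to `MvPolynomial (Var N) 𝒪`. -/
def hat (N : ℕ) [NeZero N] (𝒪 : Type*) [CommRing 𝒪] :
    MvPolynomial {n : ℕ // n ∣ N} ℤ →+* MvPolynomial (Var N) 𝒪 :=
  (MvPolynomial.map (Int.castRingHom 𝒪)).comp
    (MvPolynomial.rename (Var.J : {n : ℕ // n ∣ N} → Var N) :
      MvPolynomial {n : ℕ // n ∣ N} ℤ →ₐ[ℤ] MvPolynomial (Var N) ℤ).toRingHom

theorem cm_sg_hat (hζ : emb (ζ : 𝒪) = (zetaC N : ℂ)) (hν : ν * (N : 𝒪) = 1)
    (σ : D.ι → (↥(modularFunctionFieldFull N) →+* LaurentSeries ℂ))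
    (hσJ : ∀ s n, σ s (jF N n) = expn D (zetaC N) ((N : ℂ)⁻¹) s (.J n)) (s : D.ι)
    (P : MvPolynomial {n : ℕ // n ∣ N} ℤ) :
    coeffMap emb (sg D ζ ν s (hat N 𝒪 P)) = σ s (MvPolynomial.aeval (jF N) P) := by
  have h : ((coeffMap emb).comp (sg D ζ ν s)).comp (hat N 𝒪) =
      (σ s).comp (MvPolynomial.aeval (jF N) :
        MvPolynomial {n : ℕ // n ∣ N} ℤ →ₐ[ℤ] ↥(modularFunctionFieldFull N)).toRingHom := by
    apply MvPolynomial.ringHom_ext
    · intro c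
      simp
    · intro n
      simp only [hat, RingHom.comp_apply, AlgHom.toRingHom_eq_coe, RingHom.coe_coe,
        MvPolynomial.rename_X, MvPolynomial.map_X, MvPolynomial.aeval_X]
      rw [cm_sg D hζ hν, MvPolynomial.map_X, MvPolynomial.aeval_X, hσJ]
  exact congrArg (fun f => f P) h

end Setup

instance : CharZero (LaurentSeries ℂ) :=
  charZero_of_injective_ringHom (HahnSeries.C_injective (Γ := ℤ) (R := ℂ))

theorem q2_of {N : ℕ} [NeZero N] (ℓ : ℕ) [Fact ℓ.Prime] (D : ConjData N) (hD : D.IsAnalytic)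
    {𝒪 : Type*} [CommRing 𝒪] [IsDomain 𝒪] [IsPrincipalIdealRing 𝒪]
    [Algebra ↥(GaloisRep.ratLocalizedAt ℓ) 𝒪] [Algebra.IsIntegral ↥(GaloisRep.ratLocalizedAt ℓ) 𝒪]
    (emb : 𝒪 →+* ℂ) (ζ : 𝒪ˣ) (ν : 𝒪) (hemb : Function.Injective emb)
    (hζ : emb (ζ : 𝒪) = (zetaC N : ℂ)) (hν : ν * (N : 𝒪) = 1)
    (hu : ∀ i : ℕ, 0 < i → i < N → IsUnit (1 - (ζ : 𝒪) ^ i))
    (σ : D.ι → (↥(modularFunctionFieldFull N) →+* LaurentSeries ℂ))
    (hσinf : ∀ x, σ D.inf x = embQ N (x : LaurentSeries ℚ))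
    (hσJ : ∀ s n, σ s (jF N n) = expn D (zetaC N) ((N : ℂ)⁻¹) s (.J n))
    (gF : ↥(modularFunctionFieldFull N)) (g : LaurentSeries 𝒪)
    (hgF : ∀ s, σ s gF = coeffMap emb g)
    (κ' : ℤ) (hκ' : κ' ≠ 0) (hg0 : g.coeff κ' = 1) (hg1 : ∀ n : ℤ, n < κ' → g.coeff n = 0)
    (hg : g = jt N 𝒪 ∨ g * jt N 𝒪 = 1) : Q2 N ℓ {gF} := by
  intro x hx hxl
  have hcm : Function.Injective (coeffMap emb) := coeffMap_injective' emb hemb
  -- constants
  have hR : ∀ s, (σ s).comp (algebraMap ↥(GaloisRep.ratLocalizedAt ℓ)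
      ↥(modularFunctionFieldFull N)) =
      ((coeffMap emb).comp (algebraMap 𝒪 (LaurentSeries 𝒪))).comp
        (algebraMap ↥(GaloisRep.ratLocalizedAt ℓ) 𝒪) :=
    fun s => ratLocalizedAt_ringHom_ext _ _
  have hpoly : ∀ s (p : Polynomial ↥(GaloisRep.ratLocalizedAt ℓ)),
      coeffMap emb (Polynomial.aeval g (p.map (algebraMap ↥(GaloisRep.ratLocalizedAt ℓ) 𝒪))) =
        σ s (Polynomial.aeval gF p) := by
    intro s p
    rw [Polynomial.aeval_def, Polynomial.aeval_def, Polynomial.eval₂_map, Polynomial.hom_eval₂,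
      Polynomial.hom_eval₂, hgF s, hR s, RingHom.comp_assoc]
  have hA : ∀ s (a : ↥(Algebra.adjoin ↥(GaloisRep.ratLocalizedAt ℓ) {gF})),
      ∃ a' : ↥(Algebra.adjoin 𝒪 {g}), coeffMap emb (a' : LaurentSeries 𝒪) =
        σ s (a : ↥(modularFunctionFieldFull N)) := by
    intro s a
    obtain ⟨a, ha⟩ := a
    rw [Algebra.adjoin_singleton_eq_range_aeval] at ha
    obtain ⟨p, hp⟩ := ha
    refine ⟨⟨Polynomial.aeval g (p.map (algebraMap ↥(GaloisRep.ratLocalizedAt ℓ) 𝒪)), ?_⟩, ?_⟩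
    · rw [Algebra.adjoin_singleton_eq_range_aeval]
      exact ⟨_, rfl⟩
    · exact (hpoly s p).trans (congrArg (σ s) hp)
  -- the fraction
  obtain ⟨P, Q, hQ0, hPQ⟩ := exists_fraction x
  have hhat := cm_sg_hat D hζ hν σ hσJ
  have hQ : ∀ s, sg D ζ ν s (hat N 𝒪 Q) ≠ 0 := by
    intro s h0
    have h1 := hhat s Q
    rw [h0, map_zero] at h1
    exact hQ0 ((map_eq_zero (σ s)).mp h1.symm)
  -- the conjugates have coefficients in `𝒪`
  have hxs : ∀ s, ∃ c : LaurentSeries 𝒪, coeffMap emb c = σ s x := by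
    intro s
    refine laurent_mem_of_isIntegralElem emb hemb (σ s x) (sg D ζ ν s (hat N 𝒪 P))
      (sg D ζ ν s (hat N 𝒪 Q)) (hQ s) ?_ ?_
    · rw [hhat, hhat, ← map_mul, hPQ]
    · refine isIntegralElem_transfer
        (algebraMap ↥(Algebra.adjoin ↥(GaloisRep.ratLocalizedAt ℓ) {gF})
          ↥(modularFunctionFieldFull N)) (coeffMap emb) (σ s) (RingHom.id _)
        Function.injective_id ?_ rfl hx
      intro a
      obtain ⟨a', ha'⟩ := hA s a
      exact ⟨a', ha'⟩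
  choose xs hxs using hxs
  have hPQ' : ∀ s, xs s * sg D ζ ν s (hat N 𝒪 Q) = sg D ζ ν s (hat N 𝒪 P) := by
    intro s
    apply hcm
    rw [map_mul, hxs, hhat, hhat, ← map_mul, hPQ]
  have hint : ∀ s, IsIntegral ↥(Algebra.adjoin 𝒪 {g}) (xs s) := by
    intro s
    exact isIntegralElem_transfer
      (algebraMap ↥(Algebra.adjoin ↥(GaloisRep.ratLocalizedAt ℓ) {gF})
        ↥(modularFunctionFieldFull N)) (algebraMap ↥(Algebra.adjoin 𝒪 {g}) (LaurentSeries 𝒪))
      (σ s) (coeffMap emb) hcm (hA s) (hxs s).symm hx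
  have hℓ0 : (ℓ : ℂ) ≠ 0 := by exact_mod_cast (Fact.out : ℓ.Prime).ne_zero
  have hℓ : (ℓ : 𝒪) ≠ 0 := by
    intro h0
    apply hℓ0
    rw [← map_natCast emb, h0, map_zero]
  have hinf : ∀ n : ℤ, (ℓ : 𝒪) ∣ (xs D.inf).coeff n := by
    intro n
    have h1 : emb ((xs D.inf).coeff n) = (embQ N (x : LaurentSeries ℚ)).coeff n := by
      rw [← coeffMap_coeff, hxs, hσinf]
    by_cases hn : (N : ℤ) ∣ n
    · obtain ⟨m, rfl⟩ := hn
      obtain ⟨r, hr, hrx⟩ := hxl m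
      refine ⟨algebraMap ↥(GaloisRep.ratLocalizedAt ℓ) 𝒪 ⟨r, hr⟩, hemb ?_⟩
      have h2 : emb (algebraMap ↥(GaloisRep.ratLocalizedAt ℓ) 𝒪 ⟨r, hr⟩) = algebraMap ℚ ℂ r :=
        congrArg (fun f => f ⟨r, hr⟩) (ratLocalizedAt_ringHom_ext
          (emb.comp (algebraMap ↥(GaloisRep.ratLocalizedAt ℓ) 𝒪))
          ((algebraMap ℚ ℂ).comp (GaloisRep.ratLocalizedAt ℓ).subtype))
      rw [h1, map_mul, map_natCast, h2]
      simp only [embQ, RingHom.comp_apply, qExpand_coeff_mul, coeffMap_coeff]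
      rw [hrx, map_mul, map_natCast]
    · have h2 : (xs D.inf).coeff n = 0 := by
        apply hemb
        rw [h1, map_zero]
        exact qExpand_coeff_of_not_dvd N _ hn
      rw [h2]
      exact dvd_zero _
  obtain ⟨x', hx'1, hx'2⟩ := descent_core D.inf (sg D ζ ν) (jt N 𝒪) N (NeZero.pos N)
    jt_coeff_lead jt_coeff_lt (betaJ N 𝒪) (sg_betaJ D ζ ν) (sg_trace D hD hemb hζ hν)
    (sg_es D hD hemb hζ hν)
    (fun s s' hss => by
      obtain ⟨m, hm⟩ := exists_isUnit_coeff_sub D ζ ν hu s s' hss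
      exact ⟨MvPolynomial.X (.J ⟨N, dvd_rfl⟩), m, by rw [sg_X, sg_X]; exact hm⟩)
    (MvPolynomial.map (Int.castRingHom 𝒪) (hmon N))
    (fun s hs n hn => by rw [sg_map_int]; exact hmon_coeff_nonpos D ζ ν hν s hs n hn)
    (fun s => by
      obtain ⟨m, hm⟩ := hmon_exists_isUnit_coeff D ζ ν hν s
      exact ⟨m, by rw [sg_map_int]; exact hm⟩)
    g κ' hκ' hg0 hg1 hg (ℓ : 𝒪) hℓ xs (hat N 𝒪 P) (hat N 𝒪 Q) hQ hPQ' hint hinf
  have h3 := isIntegralElem_of_adjoin (R := ↥(GaloisRep.ratLocalizedAt ℓ)) g x' hx'2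
  have hℓF : (ℓ : ↥(modularFunctionFieldFull N)) ≠ 0 := by
    exact_mod_cast (Fact.out : ℓ.Prime).ne_zero
  refine ⟨(ℓ : ↥(modularFunctionFieldFull N))⁻¹ * x, ?_, ?_⟩
  · rw [mem_chartAlg_iff]
    refine isIntegralElem_transfer _
      (algebraMap ↥(Algebra.adjoin ↥(GaloisRep.ratLocalizedAt ℓ) {gF})
        ↥(modularFunctionFieldFull N)) (coeffMap emb) (σ D.inf) (σ D.inf).injective ?_ ?_ h3
    · intro p
      refine ⟨⟨Polynomial.aeval gF p, ?_⟩, (hpoly D.inf p).symm⟩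
      rw [Algebra.adjoin_singleton_eq_range_aeval]
      exact ⟨_, rfl⟩
    · have hℓL : (ℓ : LaurentSeries ℂ) ≠ 0 := by
        exact_mod_cast (Fact.out : ℓ.Prime).ne_zero
      rw [map_mul, map_inv₀, map_natCast, ← hxs, hx'1, map_mul, map_natCast, map_natCast,
        inv_mul_cancel_left₀ hℓL]
  · rw [mul_inv_cancel_left₀ hℓF]

end Fermat.Agent.S28T
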