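import Mathlib
import Fermat.Agent.S28T.Descent
import Fermat.Agent.S28T.RingO
import Fermat.Agent.S28T.Analytic
import Fermat.Agent.S28.D0
import Fermat.Agent.S28.D3
import Fermat.Agent.S28.Glue

set_option autoImplicit false

noncomputable section

namespace Fermat.Agent.S28T

open ModularCurve ModularCurve.IgusaScheme

theorem jF_one (N : ℕ) [NeZero N] : jF N ⟨1, one_dvd N⟩ = jFull N :=
  Subtype.ext (qExpand_one_apply jq)

theorem q2_fin (N : ℕ) [NeZero N] (ℓ : ℕ) [Fact ℓ.Prime] (hℓN : ¬ ℓ ∣ N) :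
    Q2 N ℓ {jFull N} := by
  obtain ⟨D, hD⟩ := exists_conjData N
  obtain ⟨𝒪, _, _, _, _, emb, ζ, ν, hint, hemb, hζ, hν, hu⟩ := exists_ringO N ℓ hℓN
  obtain ⟨σ, hσinf, hσJ⟩ := exists_sigma D hD
  refine q2_of ℓ D hD emb ζ ν hemb hζ hν hu σ hσinf hσJ (jFull N) (jt N 𝒪) ?_ (-(N : ℤ)) ?_
    jt_coeff_lead jt_coeff_lt (Or.inl rfl)
  · intro s
    rw [← jF_one, hσJ, expn_J_one, cm_jt D]
  · simpa using NeZero.ne N

theorem q2_inf (N : ℕ) [NeZero N] (ℓ : ℕ) [Fact ℓ.Prime] (hℓN : ¬ ℓ ∣ N) :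
    Q2 N ℓ {(jFull N)⁻¹} := by
  obtain ⟨D, hD⟩ := exists_conjData N
  obtain ⟨𝒪, _, _, _, _, emb, ζ, ν, hint, hemb, hζ, hν, hu⟩ := exists_ringO N ℓ hℓN
  obtain ⟨σ, hσinf, hσJ⟩ := exists_sigma D hD
  obtain ⟨g, hg, hg0, hg1⟩ := exists_jt_inv (N := N) (A := 𝒪)
  refine q2_of ℓ D hD emb ζ ν hemb hζ hν hu σ hσinf hσJ (jFull N)⁻¹ g ?_ (N : ℤ) ?_
    hg0 hg1 (Or.inr hg)
  · intro s
    rw [map_inv₀, ← jF_one, hσJ, expn_J_one, ← cm_jt D (emb := emb)]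
    symm
    apply eq_inv_of_mul_eq_one_left
    rw [← map_mul, hg, map_one]
  · simpa using NeZero.ne N

open Fermat.Agent.S28 in
theorem iotaL_C (N : ℕ) [NeZero N] (ℓ : ℕ) [Fact ℓ.Prime] (r : Rl ℓ) :
    iotaL ℓ (HahnSeries.C r) = ((algebraMap ↥(GaloisRep.ratLocalizedAt ℓ)
      ↥(modularFunctionFieldFull N) r : ↥(modularFunctionFieldFull N)) : LaurentSeries ℚ) := by
  have : CharZero (LaurentSeries ℚ) :=
    charZero_of_injective_ringHom (HahnSeries.C_injective (Γ := ℤ) (R := ℚ))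
  exact congrArg (fun f => f r) (ratLocalizedAt_ringHom_ext
    ((iotaL ℓ).comp HahnSeries.C)
    ((algebraMap ↥(modularFunctionFieldFull N) (LaurentSeries ℚ)).comp
      (algebraMap ↥(GaloisRep.ratLocalizedAt ℓ) ↥(modularFunctionFieldFull N))))

open Fermat.Agent.S28 in
/-- Elements of the middle chart come from `ℤ_(ℓ)((q))`. -/
theorem exists_iotaL_eq (N : ℕ) [NeZero N] (ℓ : ℕ) [Fact ℓ.Prime]
    (x : ↥(modularFunctionFieldFull N)) (hx : x ∈ chartAlgMid N ℓ) :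
    ∃ c : LaurentSeries (Rl ℓ), iotaL ℓ c = (x : LaurentSeries ℚ) := by
  have := ratLocalizedAt_isPrincipalIdealRing ℓ
  obtain ⟨z, g, hg, h⟩ := full_le_gaussField ℓ N x x.2
  refine laurent_mem_of_isIntegralElem (GaloisRep.ratLocalizedAt ℓ).subtype
    Subtype.val_injective (x : LaurentSeries ℚ) z g hg (by rw [mul_comm]; exact h) ?_
  obtain ⟨gi, hgi, -, -⟩ := exists_jt_inv (N := 1) (A := Rl ℓ)
  have hgi' : iotaL ℓ gi = jq⁻¹ := by
    apply eq_inv_of_mul_eq_one_left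
    rw [← iotaL_jqModC ℓ, ← map_mul]
    have : jt 1 (Rl ℓ) = jqModC (Rl ℓ) := qExpand_one_apply _
    rw [← this, hgi, map_one]
  refine isIntegralElem_transfer
    (algebraMap ↥(Algebra.adjoin ↥(GaloisRep.ratLocalizedAt ℓ) {jFull N, (jFull N)⁻¹})
      ↥(modularFunctionFieldFull N)) (iotaL ℓ) (algebraMap ↥(modularFunctionFieldFull N) (LaurentSeries ℚ))
    (RingHom.id _) Function.injective_id ?_ rfl hx
  rintro ⟨a, ha⟩
  change ∃ a', iotaL ℓ a' = (a : LaurentSeries ℚ)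
  induction ha using Algebra.adjoin_induction with
  | mem y hy =>
    rcases hy with rfl | rfl
    · exact ⟨jqModC (Rl ℓ), iotaL_jqModC ℓ⟩
    · exact ⟨gi, hgi'⟩
  | algebraMap r =>
    exact ⟨HahnSeries.C r, iotaL_C N ℓ r⟩
  | add y z _ _ hy hz =>
    obtain ⟨y', hy'⟩ := hy
    obtain ⟨z', hz'⟩ := hz
    exact ⟨y' + z', by rw [map_add, hy', hz']; rfl⟩
  | mul y z _ _ hy hz =>
    obtain ⟨y', hy'⟩ := hy
    obtain ⟨z', hz'⟩ := hz
    exact ⟨y' * z', by rw [map_mul, hy', hz']; rfl⟩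

theorem q1 (N : ℕ) [NeZero N] (ℓ : ℕ) [Fact ℓ.Prime] : Q1 N ℓ := by
  intro x hx n
  obtain ⟨c, hc⟩ := exists_iotaL_eq N ℓ x hx
  rw [← hc]
  exact (c.coeff n).2

section EndGame

open Fermat.Agent.S28

variable (N : ℕ) [NeZero N] (ℓ : ℕ) [Fact ℓ.Prime] (S : Set ↥(modularFunctionFieldFull N))
  (hS : chartAlg N ℓ S ≤ chartAlgMid N ℓ)

/-- Reduction mod `ℓ` of the `q`-expansion on a chart. -/
def rho : ↥(chartAlg N ℓ S) →+* LaurentSeries (ZMod ℓ) :=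
  (gaussRes ℓ).comp (RingHom.codRestrict
    ((algebraMap ↥(modularFunctionFieldFull N) (LaurentSeries ℚ)).comp
      (algebraMap ↥(chartAlg N ℓ S) ↥(modularFunctionFieldFull N))) (gaussRing ℓ) (fun x => by
        obtain ⟨c, hc⟩ := exists_iotaL_eq N ℓ x (hS x.2)
        change ((x : ↥(modularFunctionFieldFull N)) : LaurentSeries ℚ) ∈ gaussRing ℓ
        rw [← hc]
        exact iotaL_mem_gaussRing ℓ c))

theorem rho_eq (x : ↥(chartAlg N ℓ S)) (c : LaurentSeries (Rl ℓ))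
    (hc : iotaL ℓ c = ((x : ↥(modularFunctionFieldFull N)) : LaurentSeries ℚ)) :
    rho N ℓ S hS x = piL ℓ c := by
  unfold rho
  rw [RingHom.comp_apply, gaussRes_eq ℓ _ (z := c) (g := 1) (by simp)
    (by rw [map_one, one_mul, hc]; rfl)]
  simp

theorem ratLocalizedAt_ringHom_ext_charP {K : Type*} [Field K] [CharP K ℓ]
    (f g : ↥(GaloisRep.ratLocalizedAt ℓ) →+* K) : f = g := by
  ext r
  have h : ((r : ℚ).den : ↥(GaloisRep.ratLocalizedAt ℓ)) * r =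
      ((r : ℚ).num : ↥(GaloisRep.ratLocalizedAt ℓ)) := by
    apply Subtype.ext
    push_cast
    exact Rat.den_mul_eq_num _
  have hf := congrArg f h
  have hg := congrArg g h
  rw [map_mul, map_natCast, map_intCast] at hf hg
  have hd : (((r : ℚ).den : ℕ) : K) ≠ 0 := by
    rw [Ne, CharP.cast_eq_zero_iff K ℓ]
    intro hdvd
    have hc : (r : ℚ).den.Coprime ℓ := r.2
    have h1 : ℓ ∣ Nat.gcd (r : ℚ).den ℓ := Nat.dvd_gcd hdvd dvd_rfl
    rw [hc] at h1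
    exact (Fact.out : ℓ.Prime).one_lt.ne' (Nat.dvd_one.mp h1)
  exact mul_left_cancel₀ hd (hf.trans hg.symm)

theorem rho_algebraMap (r : Rl ℓ) :
    rho N ℓ S hS (algebraMap (Rl ℓ) ↥(chartAlg N ℓ S) r) = HahnSeries.C (resR ℓ r) := by
  rw [rho_eq N ℓ S hS _ (HahnSeries.C r) (iotaL_C N ℓ r), piL, coeffMap_C]

theorem rho_ker (hQ2 : Q2 N ℓ S) (a : ↥(chartAlg N ℓ S)) (ha : rho N ℓ S hS a = 0) :
    ∃ a' : ↥(chartAlg N ℓ S), a = algebraMap (Rl ℓ) ↥(chartAlg N ℓ S) (ℓ : Rl ℓ) * a' := by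
  obtain ⟨c, hc⟩ := exists_iotaL_eq N ℓ a (hS a.2)
  rw [rho_eq N ℓ S hS a c hc] at ha
  obtain ⟨z', rfl⟩ := exists_eq_mul_of_piL_eq_zero ℓ c ha
  obtain ⟨y, hy, hay⟩ := hQ2 a a.2 (fun n => ⟨z'.coeff n, (z'.coeff n).2, by
    rw [← hc, map_mul, map_natCast, natCast_mul_coeff]
    rfl⟩)
  refine ⟨⟨y, hy⟩, Subtype.ext ?_⟩
  rw [map_natCast, hay]
  rfl

variable (K : Type) [Field K] [CharP K ℓ] [Algebra ↥(GaloisRep.ratLocalizedAt ℓ) K]

include hS in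
theorem isDomain_tensor (hQ2 : Q2 N ℓ S) :
    IsDomain (TensorProduct ↥(GaloisRep.ratLocalizedAt ℓ) ↥(chartAlg N ℓ S) K) :=
  D3 (ℓ : Rl ℓ) (resR ℓ) (resR_surjective ℓ) (ZMod.castHom (dvd_refl ℓ) K)
    (fun r => congrArg (fun f => f r) (ratLocalizedAt_ringHom_ext_charP ℓ
      ((ZMod.castHom (dvd_refl ℓ) K).comp (resR ℓ)) (algebraMap _ K)))
    (resR_natCast_self ℓ) (rho N ℓ S hS) (rho_algebraMap N ℓ S hS) (rho_ker N ℓ S hS hQ2)

include hS in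
theorem nontrivial_tensor :
    Nontrivial (TensorProduct ↥(GaloisRep.ratLocalizedAt ℓ) ↥(chartAlg N ℓ S) K) :=
  D3' (resR ℓ) (ZMod.castHom (dvd_refl ℓ) K)
    (fun r => congrArg (fun f => f r) (ratLocalizedAt_ringHom_ext_charP ℓ
      ((ZMod.castHom (dvd_refl ℓ) K).comp (resR ℓ)) (algebraMap _ K)))
    (rho N ℓ S hS) (rho_algebraMap N ℓ S hS)

end EndGame

theorem main (N : ℕ) [NeZero N] (ℓ : ℕ) [Fact ℓ.Prime] (hℓN : ¬ ℓ ∣ N)
    (K : Type) [Field K] [CharP K ℓ] [Algebra ↥(GaloisRep.ratLocalizedAt ℓ) K] :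
    AlgebraicGeometry.IsIntegral (CategoryTheory.Limits.pullback (igusaTo N ℓ)
      (AlgebraicGeometry.Spec.map (CommRingCat.ofHom
        (algebraMap ↥(GaloisRep.ratLocalizedAt ℓ) K)))) :=
  Fermat.Agent.S28.isIntegral_pullback_of_isDomain N ℓ K
    (isDomain_tensor N ℓ _ (chartAlg_mono N ℓ (sFin_subset N)) K (q2_fin N ℓ hℓN))
    (isDomain_tensor N ℓ _ (chartAlg_mono N ℓ (sInf_subset N)) K (q2_inf N ℓ hℓN))
    (nontrivial_tensor N ℓ _ le_rfl K)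

end Fermat.Agent.S28T
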